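import Fermat.Agent.MW.HeightLemma
import Mathlib.Algebra.BigOperators.Fin

/-!
# Heights along bihomogeneous maps

A family of bihomogeneous forms of bidegree `(a, b)` without common zeros on a product of two
cones changes `logHeight` into `a * logHeight x + b * logHeight y` up to a bounded error.
-/

namespace FLTAgent.MW

open MvPolynomial Height

local notation "ℚbar" => AlgebraicClosure ℚ

section Forms

variable (ι κ : Type*)

/-- The monomial given by a list of left variables and a list of right variables. -/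
noncomputable def biMon {a b : ℕ} (α : Fin a → ι) (β : Fin b → κ) : MvPolynomial (ι ⊕ κ) ℚ :=
  (∏ i, X (Sum.inl (α i))) * ∏ i, X (Sum.inr (β i))

/-- Bihomogeneous forms of bidegree `(a, b)`. -/
noncomputable def biForms (a b : ℕ) : Submodule ℚ (MvPolynomial (ι ⊕ κ) ℚ) :=
  Submodule.span ℚ (Set.range fun αβ : (Fin a → ι) × (Fin b → κ) => biMon ι κ αβ.1 αβ.2)

variable {ι κ}

theorem biMon_mem {a b : ℕ} (α : Fin a → ι) (β : Fin b → κ) : biMon ι κ α β ∈ biForms ι κ a b :=
  Submodule.subset_span ⟨(α, β), rfl⟩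

theorem C_mem_biForms (r : ℚ) : (C r : MvPolynomial (ι ⊕ κ) ℚ) ∈ biForms ι κ 0 0 := by
  have h := (biForms ι κ 0 0).smul_mem r (biMon_mem (ι := ι) (κ := κ) ![] ![])
  simpa [biMon, Algebra.smul_def] using h

theorem one_mem_biForms : (1 : MvPolynomial (ι ⊕ κ) ℚ) ∈ biForms ι κ 0 0 := by
  simpa using C_mem_biForms (ι := ι) (κ := κ) 1

theorem X_inl_mem (i : ι) : (X (Sum.inl i) : MvPolynomial (ι ⊕ κ) ℚ) ∈ biForms ι κ 1 0 := by
  simpa [biMon] using biMon_mem (κ := κ) ![i] ![]

theorem X_inr_mem (i : κ) : (X (Sum.inr i) : MvPolynomial (ι ⊕ κ) ℚ) ∈ biForms ι κ 0 1 := by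
  simpa [biMon] using biMon_mem (ι := ι) ![] ![i]

theorem biForms_mul_mem {a b c d : ℕ} {p q : MvPolynomial (ι ⊕ κ) ℚ} (hp : p ∈ biForms ι κ a b)
    (hq : q ∈ biForms ι κ c d) : p * q ∈ biForms ι κ (a + c) (b + d) := by
  have h := Submodule.mul_mem_mul hp hq
  rw [biForms, biForms, Submodule.span_mul_span] at h
  refine Submodule.span_mono ?_ h
  rintro _ ⟨_, ⟨⟨α, β⟩, rfl⟩, _, ⟨⟨α', β'⟩, rfl⟩, rfl⟩
  refine ⟨(Fin.append α α', Fin.append β β'), ?_⟩
  simp only [biMon, Fin.prod_univ_add, Fin.append_left, Fin.append_right]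
  ring

theorem biForms_prod_mem {s : Type*} (t : Finset s) {a b : s → ℕ}
    {p : s → MvPolynomial (ι ⊕ κ) ℚ} (hp : ∀ i ∈ t, p i ∈ biForms ι κ (a i) (b i)) :
    ∏ i ∈ t, p i ∈ biForms ι κ (∑ i ∈ t, a i) (∑ i ∈ t, b i) := by
  classical
  induction t using Finset.induction with
  | empty => simpa using one_mem_biForms
  | insert i t hi ih =>
    rw [Finset.prod_insert hi, Finset.sum_insert hi, Finset.sum_insert hi]
    exact biForms_mul_mem (hp i (Finset.mem_insert_self i t))
      (ih fun j hj => hp j (Finset.mem_insert_of_mem hj))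

theorem C_mul_mem {a b : ℕ} (r : ℚ) {p : MvPolynomial (ι ⊕ κ) ℚ} (hp : p ∈ biForms ι κ a b) :
    C r * p ∈ biForms ι κ a b := by
  simpa [Algebra.smul_def] using (biForms ι κ a b).smul_mem r hp

theorem aeval_biMon {A : Type*} [CommRing A] [Algebra ℚ A] {a b : ℕ} (α : Fin a → ι)
    (β : Fin b → κ) (x : ι → A) (y : κ → A) :
    aeval (Sum.elim x y) (biMon ι κ α β) = (∏ i, x (α i)) * ∏ i, y (β i) := by
  simp [biMon, map_prod]

end Forms

/-- Scaling a point scales a form by the power given by its degree. -/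
theorem aeval_smul_of_isHomogeneous {R A σ : Type*} [CommRing R] [CommRing A] [Algebra R A]
    {p : MvPolynomial σ R} {n : ℕ} (hp : p.IsHomogeneous n) (t : A) (x : σ → A) :
    aeval (fun i => t * x i) p = t ^ n * aeval x p := by
  rw [aeval_def, aeval_def, eval₂_eq, eval₂_eq, Finset.mul_sum]
  refine Finset.sum_congr rfl fun d hd => ?_
  simp only [mul_pow, Finset.prod_mul_distrib]
  rw [Finset.prod_pow_eq_pow_sum, ← hp.degree_eq_sum_deg_support hd]
  ring

theorem logHeight_prod_pow {ι : Type*} [Finite ι] (n : ℕ) {x : ι → ℚ} (hx : x ≠ 0) :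
    logHeight (fun α : Fin n → ι => ∏ i, x (α i)) = n * logHeight x := by
  rw [logHeight_fun_prod_eq (α := Fin n) (x := fun _ => x) fun _ => hx]
  simp

theorem logHeight_zero' {ι : Type*} : logHeight (0 : ι → ℚ) = 0 := by
  simp [logHeight_eq_log_mulHeight]

theorem eval_eq_aeval' {σ : Type*} (x : σ → ℚ) (p : MvPolynomial σ ℚ) : eval x p = aeval x p :=
  (aeval_eq_eval x ▸ rfl)

theorem aeval_algebraMap_eval {A σ : Type*} [CommRing A] [Algebra ℚ A] (w : σ → ℚ)
    (q : MvPolynomial σ ℚ) :
    aeval (fun i => algebraMap ℚ A (w i)) q = algebraMap ℚ A (eval w q) := by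
  rw [eval_eq_aeval', ← aeval_algebraMap_apply]
  rfl

/-- The height lemma for two blocks of variables. -/
theorem exists_abs_logHeight_bieval_sub_le {ι κ ι' η η' : Type*} [Finite ι] [Finite κ] [Finite ι']
    [Finite η] [Finite η'] {a b : ℕ} (p : ι' → MvPolynomial (ι ⊕ κ) ℚ)
    (hp : ∀ j, p j ∈ biForms ι κ a b) {d : η → ℕ} (c : η → MvPolynomial ι ℚ)
    (hc : ∀ k, (c k).IsHomogeneous (d k)) {d' : η' → ℕ} (c' : η' → MvPolynomial κ ℚ)
    (hc' : ∀ k, (c' k).IsHomogeneous (d' k))
    (hzero : ∀ (x : ι → ℚbar) (y : κ → ℚbar), (∀ k, aeval x (c k) = 0) →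
      (∀ k, aeval y (c' k) = 0) → (∀ j, aeval (Sum.elim x y) (p j) = 0) → x = 0 ∨ y = 0) :
    ∃ C : ℝ, ∀ (x : ι → ℚ) (y : κ → ℚ), x ≠ 0 → y ≠ 0 → (∀ k, eval x (c k) = 0) →
      (∀ k, eval y (c' k) = 0) →
      |logHeight (fun j => eval (Sum.elim x y) (p j)) - (a * logHeight x + b * logHeight y)|
        ≤ C := by
  classical
  have : Fintype ι := Fintype.ofFinite ι
  have : Fintype κ := Fintype.ofFinite κ
  choose K hK using fun j => (Submodule.mem_span_range_iff_exists_fun ℚ).mp (hp j)
  -- padded forms in the product variables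
  let P : ι' × (Fin b → ι) × (Fin a → κ) → MvPolynomial (ι × κ) ℚ := fun t =>
    ∑ αβ : (Fin a → ι) × (Fin b → κ), C (K t.1 αβ) *
      ∏ i : Fin (a + b), X (Fin.append αβ.1 t.2.1 i, Fin.append t.2.2 αβ.2 i)
  have hP : ∀ t, (P t).IsHomogeneous (a + b) := fun t => by
    refine IsHomogeneous.sum _ _ _ fun αβ _ => IsHomogeneous.C_mul ?_ _
    have h := IsHomogeneous.prod (Finset.univ : Finset (Fin (a + b)))
      (fun i => (X (Fin.append αβ.1 t.2.1 i, Fin.append t.2.2 αβ.2 i) : MvPolynomial (ι × κ) ℚ))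
      (fun _ => 1) fun i _ => isHomogeneous_X _ _
    simpa using h
  have hPev : ∀ {A : Type} [CommRing A] [Algebra ℚ A] (x : ι → A) (y : κ → A)
      (t : ι' × (Fin b → ι) × (Fin a → κ)), aeval (fun il : ι × κ => x il.1 * y il.2) (P t) =
        aeval (Sum.elim x y) (p t.1) * (∏ i, x (t.2.1 i)) * ∏ i, y (t.2.2 i) := by
    intro A _ _ x y t
    conv_rhs => rw [← hK t.1]
    simp only [P, map_sum, map_mul, map_prod, aeval_C, aeval_X, aeval_biMon,
      Finset.sum_mul, Fin.prod_univ_add, Fin.append_left, Fin.append_right,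
      Finset.prod_mul_distrib, Algebra.smul_def, AlgHom.commutes]
    exact Finset.sum_congr rfl fun αβ _ => by ring
  -- the cone of the Segre image
  let cz : ((ι × κ) × (ι × κ)) ⊕ (η × κ) ⊕ (η' × ι) → MvPolynomial (ι × κ) ℚ :=
    Sum.elim (fun q => X q.1 * X q.2 - X (q.1.1, q.2.2) * X (q.2.1, q.1.2))
      (Sum.elim (fun q => rename (fun i => (i, q.2)) (c q.1))
        (fun q => rename (fun l => (q.2, l)) (c' q.1)))
  let dz : ((ι × κ) × (ι × κ)) ⊕ (η × κ) ⊕ (η' × ι) → ℕ :=
    Sum.elim (fun _ => 2) (Sum.elim (fun q => d q.1) (fun q => d' q.1))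
  have : Finite ι' := inferInstance
  obtain ⟨C₀, hC₀⟩ := exists_abs_logHeight_eval_sub_le P hP (d := dz) cz
    (by
      rintro (q | q | q)
      · exact ((isHomogeneous_X _ _).mul (isHomogeneous_X _ _)).sub
          ((isHomogeneous_X _ _).mul (isHomogeneous_X _ _))
      · exact (hc q.1).rename_isHomogeneous
      · exact (hc' q.1).rename_isHomogeneous)
    (by
      intro z hcz hPz
      by_contra hz
      obtain ⟨⟨k₀, l₀⟩, hz₀⟩ := Function.ne_iff.mp hz
      simp only [Pi.zero_apply] at hz₀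
      set x : ι → ℚbar := fun i => z (i, l₀) with hxdef
      set y : κ → ℚbar := fun l => (z (k₀, l₀))⁻¹ * z (k₀, l) with hydef
      have hfac : z = fun il : ι × κ => x il.1 * y il.2 := by
        funext il
        have h := hcz (.inl (il, (k₀, l₀)))
        simp only [cz, Sum.elim_inl, map_sub, map_mul, aeval_X, sub_eq_zero] at h
        rw [hxdef, hydef]
        dsimp only
        field_simp
        linear_combination h
      have hx : ∀ k, aeval x (c k) = 0 := fun k => by
        have h := hcz (.inr (.inl (k, l₀)))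
        simpa [cz, aeval_rename, Function.comp_def, hxdef] using h
      have hy : ∀ k, aeval y (c' k) = 0 := fun k => by
        have h := hcz (.inr (.inr (k, k₀)))
        simp only [cz, Sum.elim_inr, aeval_rename, Function.comp_def] at h
        rw [hydef, aeval_smul_of_isHomogeneous (hc' k), h, mul_zero]
      have hx0 : x ≠ 0 := fun h => hz₀ (congrFun h k₀)
      have hy0 : y ≠ 0 := fun h => by
        have := congrFun h l₀
        simp [hydef, hz₀] at this
      rcases hzero x y hx hy (fun j => by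
        have h := hPz (j, fun _ => k₀, fun _ => l₀)
        rw [hfac, hPev] at h
        simpa [hxdef, hydef, hz₀] using h) with h | h
      · exact hx0 h
      · exact hy0 h)
  refine ⟨C₀, fun x y hx hy hcx hcy => ?_⟩
  have hz : ∀ k, eval (fun il : ι × κ => x il.1 * y il.2) (cz k) = 0 := by
    rintro (q | q | q)
    · simp [cz]; ring
    · have h := aeval_smul_of_isHomogeneous (hc q.1) (y q.2) x
      simp only [← eval_eq_aeval'] at h
      simp only [cz, Sum.elim_inr, Sum.elim_inl, eval_rename, Function.comp_def]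
      rw [show (fun i => x i * y q.2) = fun i => y q.2 * x i from funext fun i => mul_comm _ _, h,
        hcx, mul_zero]
    · have h := aeval_smul_of_isHomogeneous (hc' q.1) (x q.2) y
      simp only [← eval_eq_aeval'] at h
      simp only [cz, Sum.elim_inr, eval_rename, Function.comp_def]
      rw [h, hcy, mul_zero]
  have h1 := hC₀ _ hz
  rw [logHeight_fun_mul_eq hx hy] at h1
  set v : ι' → ℚ := fun j => eval (Sum.elim x y) (p j) with hv
  have hPx : (fun t => eval (fun il : ι × κ => x il.1 * y il.2) (P t)) =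
      fun t : ι' × (Fin b → ι) × (Fin a → κ) =>
        v t.1 * ((∏ i, x (t.2.1 i)) * ∏ i, y (t.2.2 i)) := by
    funext t
    rw [eval_eq_aeval', hPev, mul_assoc, ← eval_eq_aeval']
  rw [hPx] at h1
  rcases eq_or_ne v 0 with hv0 | hv0
  · -- the forms do not vanish at a rational point of the cones
    exfalso
    have hinj := (algebraMap ℚ ℚbar).injective
    rcases hzero (fun i => algebraMap ℚ ℚbar (x i)) (fun l => algebraMap ℚ ℚbar (y l))
      (fun k => by rw [aeval_algebraMap_eval, hcx, map_zero]) (fun k => by rw [aeval_algebraMap_eval, hcy, map_zero])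
      (fun j => by
        have : Sum.elim (fun i => algebraMap ℚ ℚbar (x i)) (fun l => algebraMap ℚ ℚbar (y l))
            = fun s => algebraMap ℚ ℚbar (Sum.elim x y s) := by
          funext s; cases s <;> rfl
        rw [this, aeval_algebraMap_eval, show eval (Sum.elim x y) (p j) = 0 from congrFun hv0 j, map_zero])
      with h | h
    · exact hx (funext fun i => hinj (by simpa using congrFun h i))
    · exact hy (funext fun i => hinj (by simpa using congrFun h i))
  have hxb : (fun α : Fin b → ι => ∏ i, x (α i)) ≠ 0 := by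
    obtain ⟨i, hi⟩ := Function.ne_iff.mp hx
    exact Function.ne_iff.mpr ⟨fun _ => i, by simpa using pow_ne_zero b hi⟩
  have hya : (fun α : Fin a → κ => ∏ i, y (α i)) ≠ 0 := by
    obtain ⟨i, hi⟩ := Function.ne_iff.mp hy
    exact Function.ne_iff.mpr ⟨fun _ => i, by simpa using pow_ne_zero a hi⟩
  have hxy : (fun t : (Fin b → ι) × (Fin a → κ) => (∏ i, x (t.1 i)) * ∏ i, y (t.2 i)) ≠ 0 := by
    obtain ⟨s, hs⟩ := Function.ne_iff.mp hxb
    obtain ⟨t, ht⟩ := Function.ne_iff.mp hya
    exact Function.ne_iff.mpr ⟨(s, t), mul_ne_zero hs ht⟩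
  rw [logHeight_fun_mul_eq (x := v) hv0 hxy, logHeight_fun_mul_eq hxb hya,
    logHeight_prod_pow b hx, logHeight_prod_pow a hy] at h1
  push_cast at h1
  calc |logHeight v - (a * logHeight x + b * logHeight y)|
      = |logHeight v + (b * logHeight x + a * logHeight y)
          - ((a : ℝ) + b) * (logHeight x + logHeight y)| := by congr 1; ring
    _ ≤ C₀ := h1

end FLTAgent.MW
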