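import Fermat.Agent.MW.Cone
import Fermat.Agent.MW.BiHeight
import Mathlib.Algebra.MvPolynomial.Funext

/-!
# The universal forms behind the addition identity

`valPoly u u' J I` is the value of the array `u` on the products of basis vectors with the general
section `∑ t • wgen u'` and on basis vectors; it is a form of degree `e` in `t` whose
coefficients are bihomogeneous of bidegree `(1, e)` in `(u, u')`.
-/

noncomputable section

open MvPolynomial

set_option maxHeartbeats 300000

namespace FLTAgent.MW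

section IsBi

variable {T ι κ : Type*}

/-- All coefficients are bihomogeneous of bidegree `(a, b)`. -/
def IsBi (a b : ℕ) (P : MvPolynomial T (MvPolynomial (ι ⊕ κ) ℚ)) : Prop :=
  ∀ m, coeff m P ∈ biForms ι κ a b

theorem IsBi.zero (a b : ℕ) : IsBi a b (0 : MvPolynomial T (MvPolynomial (ι ⊕ κ) ℚ)) :=
  fun m => by simp

theorem IsBi.of_C {a b : ℕ} {p : MvPolynomial (ι ⊕ κ) ℚ} (hp : p ∈ biForms ι κ a b) :
    IsBi a b (C p : MvPolynomial T (MvPolynomial (ι ⊕ κ) ℚ)) := fun m => by
  classical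
  rw [coeff_C]
  split_ifs
  · exact hp
  · exact zero_mem _

theorem IsBi.X (t : T) : IsBi 0 0 (X t : MvPolynomial T (MvPolynomial (ι ⊕ κ) ℚ)) := fun m => by
  classical
  rw [coeff_X]
  split_ifs
  · exact one_mem_biForms
  · exact zero_mem _

theorem IsBi.algebraMap (r : ℚ) :
    IsBi 0 0 (algebraMap ℚ (MvPolynomial T (MvPolynomial (ι ⊕ κ) ℚ)) r) := by
  rw [IsScalarTower.algebraMap_apply ℚ (MvPolynomial (ι ⊕ κ) ℚ)
    (MvPolynomial T (MvPolynomial (ι ⊕ κ) ℚ)), MvPolynomial.algebraMap_eq]
  exact IsBi.of_C (C_mem_biForms r)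

theorem IsBi.mul {a b c d : ℕ} {P Q : MvPolynomial T (MvPolynomial (ι ⊕ κ) ℚ)} (hP : IsBi a b P)
    (hQ : IsBi c d Q) : IsBi (a + c) (b + d) (P * Q) := fun m => by
  classical
  rw [coeff_mul]
  exact sum_mem fun x _ => biForms_mul_mem (hP _) (hQ _)

theorem IsBi.sum {s : Type*} {a b : ℕ} (t : Finset s)
    {P : s → MvPolynomial T (MvPolynomial (ι ⊕ κ) ℚ)} (hP : ∀ i ∈ t, IsBi a b (P i)) :
    IsBi a b (∑ i ∈ t, P i) := fun m => by
  rw [coeff_sum]
  exact sum_mem fun i hi => hP i hi m

theorem IsBi.prod {s : Type*} (t : Finset s) {a b : s → ℕ}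
    {P : s → MvPolynomial T (MvPolynomial (ι ⊕ κ) ℚ)} (hP : ∀ i ∈ t, IsBi (a i) (b i) (P i)) :
    IsBi (∑ i ∈ t, a i) (∑ i ∈ t, b i) (∏ i ∈ t, P i) := by
  classical
  induction t using Finset.induction with
  | empty => simpa using IsBi.of_C (T := T) (one_mem_biForms (ι := ι) (κ := κ))
  | insert i t hi ih =>
    rw [Finset.prod_insert hi, Finset.sum_insert hi, Finset.sum_insert hi]
    exact (hP i (Finset.mem_insert_self i t)).mul (ih fun j hj => hP j (Finset.mem_insert_of_mem hj))

theorem IsBi.single {μ : Type*} [DecidableEq μ] (i j : μ) :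
    IsBi 0 0 ((Pi.single i 1 : μ → MvPolynomial T (MvPolynomial (ι ⊕ κ) ℚ)) j) := by
  rw [Pi.single_apply]
  split_ifs
  · simpa using IsBi.of_C (T := T) (one_mem_biForms (ι := ι) (κ := κ))
  · exact IsBi.zero 0 0

end IsBi

namespace Shape

variable (S : Shape) {R R' : Type*} [CommRing R] [Algebra ℚ R] [CommRing R'] [Algebra ℚ R']

/-- The variables `t`: tuples indexing the generators. -/
abbrev GenIdx (f k : ℕ) : Type := Fin (f + 1) → Fin (S.l k)

/-- The general section `∑ t • wgen u'`. -/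
def secCoord {f k : ℕ} (u' : (Fin f → Fin (S.l k)) → R) (q : Fin (S.l k)) :
    MvPolynomial (S.GenIdx f k) R :=
  ∑ t : S.GenIdx f k, X t * C (wgen (fun j => (Pi.single j 1 : Fin (S.l k) → R)) u' t q)

/-- The arguments. -/
def valArgs {e f M k : ℕ} (u' : (Fin f → Fin (S.l k)) → R) (J : Fin e → Fin (S.l M))
    (I : Fin f → Fin (S.l (M + k))) : Fin (e + f) → Fin (S.l (M + k)) → MvPolynomial (S.GenIdx f k) R :=
  Fin.append (fun i => S.mulCoord (Pi.single (J i) 1) (S.secCoord u')) (fun i => Pi.single (I i) 1)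

/-- The form. -/
def valPoly {e f M k : ℕ} (u : (Fin (e + f) → Fin (S.l (M + k))) → R)
    (u' : (Fin f → Fin (S.l k)) → R) (J : Fin e → Fin (S.l M))
    (I : Fin f → Fin (S.l (M + k))) : MvPolynomial (S.GenIdx f k) R :=
  uEval (fun κ => C (u κ)) (S.valArgs u' J I)

theorem map_secCoord {f k : ℕ} (φ : R →ₐ[ℚ] R') (u' : (Fin f → Fin (S.l k)) → R) (q : Fin (S.l k)) :
    MvPolynomial.map (φ : R →+* R') (S.secCoord u' q) = S.secCoord (fun κ => φ (u' κ)) q := by
  simp only [secCoord, map_sum, map_mul, map_X, map_C]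
  refine Finset.sum_congr rfl fun t _ => ?_
  rw [map_wgen_single]
  rfl

theorem map_valPoly {e f M k : ℕ} (φ : R →ₐ[ℚ] R') (u : (Fin (e + f) → Fin (S.l (M + k))) → R)
    (u' : (Fin f → Fin (S.l k)) → R) (J : Fin e → Fin (S.l M))
    (I : Fin f → Fin (S.l (M + k))) :
    MvPolynomial.map (φ : R →+* R') (S.valPoly u u' J I) =
      S.valPoly (fun κ => φ (u κ)) (fun κ => φ (u' κ)) J I := by
  rw [valPoly, valPoly, map_uEval]
  congr 1
  · funext κ; rw [map_C]; rfl
  funext i q
  induction i using Fin.addCases with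
  | left i =>
    simp only [valArgs, Fin.append_left]
    show MvPolynomial.mapAlgHom φ _ = _
    rw [S.map_mulCoord]
    congr 1
    · funext a; simp [Pi.single_apply]
    · funext a
      simp only [Function.comp_apply, MvPolynomial.mapAlgHom_apply]
      exact S.map_secCoord φ u' a
  | right i =>
    simp [valArgs, Fin.append_right, Pi.single_apply]

theorem isHomogeneous_valPoly {e f M k : ℕ} (u : (Fin (e + f) → Fin (S.l (M + k))) → R)
    (u' : (Fin f → Fin (S.l k)) → R) (J : Fin e → Fin (S.l M))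
    (I : Fin f → Fin (S.l (M + k))) : (S.valPoly u u' J I).IsHomogeneous e := by
  rw [valPoly, uEval]
  refine IsHomogeneous.sum _ _ _ fun κ _ => IsHomogeneous.C_mul ?_ _
  rw [Fin.prod_univ_add]
  have h1 : (∏ i : Fin e, S.valArgs u' J I (Fin.castAdd f i) (κ (Fin.castAdd f i))).IsHomogeneous e := by
    have h := IsHomogeneous.prod Finset.univ
      (fun i : Fin e => S.valArgs u' J I (Fin.castAdd f i) (κ (Fin.castAdd f i))) (fun _ => 1)
      fun i _ => by
        simp only [valArgs, Fin.append_left, mulCoord, secCoord]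
        refine IsHomogeneous.sum _ _ _ fun a _ => IsHomogeneous.sum _ _ _ fun b _ => ?_
        rw [IsScalarTower.algebraMap_apply ℚ R (MvPolynomial (S.GenIdx f k) R),
          MvPolynomial.algebraMap_eq]
        refine IsHomogeneous.C_mul ?_ _
        have hp : ((Pi.single (J i) 1 : Fin (S.l M) → MvPolynomial (S.GenIdx f k) R) a).IsHomogeneous 0 := by
          rw [Pi.single_apply]; split_ifs
          · exact isHomogeneous_one _ _
          · exact isHomogeneous_zero _ _ _
        simpa using hp.mul (IsHomogeneous.sum Finset.univ _ 1 fun t _ => by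
          simpa using (isHomogeneous_X R t).mul (isHomogeneous_C _ (wgen (fun j =>
            (Pi.single j 1 : Fin (S.l k) → R)) u' t b)))
    simpa using h
  have h2 : (∏ i : Fin f, S.valArgs u' J I (Fin.natAdd e i) (κ (Fin.natAdd e i))).IsHomogeneous 0 := by
    have h := IsHomogeneous.prod Finset.univ
      (fun i : Fin f => S.valArgs u' J I (Fin.natAdd e i) (κ (Fin.natAdd e i))) (fun _ => 0)
      fun i _ => by
        simp only [valArgs, Fin.append_right, Pi.single_apply]
        split_ifs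
        · exact isHomogeneous_one _ _
        · exact isHomogeneous_zero _ _ _
    simpa using h
  simpa using h1.mul h2

theorem isBi_secCoord {ι : Type*} {f k : ℕ} (q : Fin (S.l k)) :
    IsBi 0 1 (S.secCoord (fun κ => (MvPolynomial.X (Sum.inr κ) :
      MvPolynomial (ι ⊕ (Fin f → Fin (S.l k))) ℚ)) q) := by
  unfold secCoord
  refine IsBi.sum _ fun t _ => ?_
  have hw : wgen (fun j => (Pi.single j 1 : Fin (S.l k) → MvPolynomial (ι ⊕ (Fin f → Fin (S.l k))) ℚ))
      (fun κ => (MvPolynomial.X (Sum.inr κ) : MvPolynomial (ι ⊕ (Fin f → Fin (S.l k))) ℚ)) t q ∈ biForms ι (Fin f → Fin (S.l k)) 0 1 := by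
    rw [wgen, Finset.sum_apply]
    refine sum_mem fun l _ => ?_
    rw [Pi.smul_apply, smul_eq_mul, Pi.single_apply]
    by_cases hq : q = t l
    · rw [if_pos hq, mul_one]
      have h := C_mul_mem ((-1 : ℚ) ^ (l : ℕ)) (X_inr_mem (ι := ι) (fun i => t (l.succAbove i)))
      rw [map_pow, map_neg, map_one] at h
      exact h
    · rw [if_neg hq, mul_zero]; exact zero_mem _
  simpa using (IsBi.X t).mul (IsBi.of_C hw)

/-- The universal form. -/
abbrev univVal {e f M k : ℕ} (J : Fin e → Fin (S.l M)) (I : Fin f → Fin (S.l (M + k))) :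
    MvPolynomial (S.GenIdx f k)
      (MvPolynomial ((Fin (e + f) → Fin (S.l (M + k))) ⊕ (Fin f → Fin (S.l k))) ℚ) :=
  S.valPoly (fun κ => X (Sum.inl κ)) (fun κ => X (Sum.inr κ)) J I

theorem isBi_univVal {e f M k : ℕ} (J : Fin e → Fin (S.l M)) (I : Fin f → Fin (S.l (M + k))) :
    IsBi 1 e (S.univVal J I) := by
  rw [univVal, valPoly, uEval]
  refine IsBi.sum _ fun κ _ => ?_
  rw [Fin.prod_univ_add]
  have h1 := IsBi.prod (Finset.univ : Finset (Fin e)) (a := fun _ => 0) (b := fun _ => 1)
    (P := fun i => S.valArgs (fun κ => (X (Sum.inr κ) :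
      MvPolynomial ((Fin (e + f) → Fin (S.l (M + k))) ⊕ (Fin f → Fin (S.l k))) ℚ)) J I
      (Fin.castAdd f i) (κ (Fin.castAdd f i))) fun i _ => by
      simp only [valArgs, Fin.append_left, mulCoord]
      refine IsBi.sum _ fun a _ => IsBi.sum _ fun b _ => ?_
      have hsec := S.isBi_secCoord (ι := Fin (e + f) → Fin (S.l (M + k))) (f := f) b
      simpa using (IsBi.algebraMap _).mul ((IsBi.single _ _).mul hsec)
  have h2 := IsBi.prod (Finset.univ : Finset (Fin f)) (a := fun _ => 0) (b := fun _ => 0)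
    (P := fun i => S.valArgs (fun κ => (X (Sum.inr κ) :
      MvPolynomial ((Fin (e + f) → Fin (S.l (M + k))) ⊕ (Fin f → Fin (S.l k))) ℚ)) J I
      (Fin.natAdd e i) (κ (Fin.natAdd e i))) fun i _ => by
      simp only [valArgs, Fin.append_right]
      exact IsBi.single _ _
  simpa using (IsBi.of_C (X_inl_mem κ)).mul (h1.mul h2)

end Shape

/-- Exponents of the monomials of degree `e`. -/
abbrev Mon (T : Type*) [Fintype T] [DecidableEq T] (e : ℕ) : Type _ :=
  { m : T →₀ ℕ // m ∈ Finset.finsuppAntidiag Finset.univ e }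

/-- The coefficient vector of a form of degree `e`. -/
def coeffVec {T R : Type*} [Fintype T] [DecidableEq T] [CommRing R] (e : ℕ)
    (P : MvPolynomial T R) : Mon T e → R := fun m => coeff m.1 P

theorem eq_zero_of_coeffVec {T R : Type*} [Fintype T] [DecidableEq T] [CommRing R] {e : ℕ}
    {P : MvPolynomial T R} (hP : P.IsHomogeneous e) (h : coeffVec e P = 0) : P = 0 := by
  ext m
  rw [coeff_zero]
  by_cases hm : m.degree = e
  · refine congrFun h ⟨m, ?_⟩
    rw [Finset.mem_finsuppAntidiag]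
    refine ⟨?_, Finset.subset_univ _⟩
    rw [← hm, Finsupp.degree]
    exact (Finset.sum_subset (Finset.subset_univ _) (fun x _ hx => by simpa using hx)).symm
  · exact hP.coeff_eq_zero hm

end FLTAgent.MW
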