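import Fermat.Agent.MW.Rep
import Fermat.Agent.MW.Poly

/-!
# Heights of principal divisors and of sums with principal divisors
-/

noncomputable section

set_option maxSynthPendingDepth 3

open AlgebraicCurve Module MvPolynomial Height
open FLTAgent.FunctionField

namespace FLTAgent.MW

namespace Shape

variable (S : Shape) {R : Type*} [CommRing R] [Algebra ℚ R]

/-- Multiples of basis vectors by a section, followed by basis vectors. -/
def mulArgs {f d Mp : ℕ} (y : Fin (S.l d) → R) (I : Fin f → Fin (S.l Mp))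
    {g : ℕ} (J : Fin g → Fin (S.l (Mp + d))) : Fin (f + g) → Fin (S.l (Mp + d)) → R :=
  Fin.append (fun i => S.mulCoord (Pi.single (I i) 1) y) (fun i => Pi.single (J i) 1)

theorem map_mulArgs {R' : Type*} [CommRing R'] [Algebra ℚ R'] (φ : R →ₐ[ℚ] R') {f d Mp : ℕ}
    (y : Fin (S.l d) → R) (I : Fin f → Fin (S.l Mp)) {g : ℕ} (J : Fin g → Fin (S.l (Mp + d)))
    (i : Fin (f + g)) (k : Fin (S.l (Mp + d))) :
    φ (S.mulArgs y I J i k) = S.mulArgs (fun a => φ (y a)) I J i k := by
  induction i using Fin.addCases with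
  | left i =>
    simp only [mulArgs, Fin.append_left, S.map_mulCoord]
    congr 1
    funext a
    simp [Pi.single_apply]
  | right i => simp [mulArgs, Pi.single_apply]

theorem mulArgs_mem_biForms {ι : Type*} {f d Mp : ℕ} (I : Fin f → Fin (S.l Mp)) {g : ℕ}
    (J : Fin g → Fin (S.l (Mp + d))) (k : Fin (S.l (Mp + d))) :
    (∀ i : Fin f, S.mulArgs (fun a => (X (Sum.inr a) : MvPolynomial (ι ⊕ Fin (S.l d)) ℚ)) I J
      (Fin.castAdd g i) k ∈ biForms ι (Fin (S.l d)) 0 1) ∧
    ∀ i : Fin g, S.mulArgs (fun a => (X (Sum.inr a) : MvPolynomial (ι ⊕ Fin (S.l d)) ℚ)) I J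
      (Fin.natAdd f i) k ∈ biForms ι (Fin (S.l d)) 0 0 := by
  refine ⟨fun i => ?_, fun i => ?_⟩
  · simp only [mulArgs, Fin.append_left, mulCoord]
    refine sum_mem fun a _ => sum_mem fun b _ => ?_
    rw [Pi.single_apply]
    split_ifs
    · rw [one_mul]; exact C_mul_mem _ (X_inr_mem b)
    · rw [zero_mul, mul_zero]; exact zero_mem _
  · simp only [mulArgs, Fin.append_right, Pi.single_apply]
    split_ifs
    · exact one_mem_biForms
    · exact zero_mem _

end Shape

namespace Model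

variable {S : Shape} {K F : Type*} [Field K] [Algebra ℚ K] [Field F] [Algebra K F]

/-- The function with given coordinates. -/
def ofCoord (Cv : Model S K F) (d : ℕ) (y : Fin (S.l d) → K) : Cv.V d :=
  (Cv.b d).equivFun.symm y

theorem repr_ofCoord (Cv : Model S K F) (d : ℕ) (y : Fin (S.l d) → K) :
    ((Cv.b d).repr (Cv.ofCoord d y) : Fin (S.l d) → K) = y := by
  rw [ofCoord, ← Basis.equivFun_apply, LinearEquiv.apply_symm_apply]

theorem coe_ofCoord_ne_zero (Cv : Model S K F) {d : ℕ} {y : Fin (S.l d) → K} (hy : y ≠ 0) :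
    (Cv.ofCoord d y : F) ≠ 0 := fun h =>
  hy ((Cv.b d).equivFun.symm.injective (by rw [map_zero]; exact Subtype.ext h))

theorem repr_mulD_args (Cv : Model S K F) {f d Mp g : ℕ}
    (hD : Finsupp.single Cv.O ((Mp + d : ℕ) : ℤ) =
      Finsupp.single Cv.O (Mp : ℤ) + Finsupp.single Cv.O (d : ℤ))
    (y : Fin (S.l d) → K) (I : Fin f → Fin (S.l Mp)) (J : Fin g → Fin (S.l (Mp + d))) :
    (fun i => ((Cv.b (Mp + d)).repr
      (Fin.append (fun i => mulD hD (Cv.ofCoord d y) (Cv.b Mp (I i)))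
        (fun i => Cv.b (Mp + d) (J i)) i) : Fin (S.l (Mp + d)) → K)) = S.mulArgs y I J := by
  funext i
  induction i using Fin.addCases with
  | left i =>
    have hmul : mulD hD (Cv.ofCoord d y) (Cv.b Mp (I i)) =
        ⟨(Cv.b Mp (I i) : F) * (Cv.ofCoord d y : F), Cv.coe_mul_mem _ _⟩ :=
      Subtype.ext (coe_mulD _ _ _)
    simp only [Shape.mulArgs, Fin.append_left]
    rw [hmul, Cv.repr_mul, Basis.repr_self, Finsupp.single_eq_pi_single, repr_ofCoord]
  | right i =>
    simp only [Shape.mulArgs, Fin.append_right]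
    rw [Basis.repr_self, Finsupp.single_eq_pi_single]

end Model

namespace Model

local notation "ℚbar" => AlgebraicClosure ℚ

variable {S : Shape} {F : Type*} [Field F] [Algebra ℚbar F] [IsFunctionField ℚbar F]

/-- The rational function with given coordinates. -/
abbrev ratFun (Cv : Model S ℚbar F) (d : ℕ) (y : Fin (S.l d) → ℚ) : Cv.V d :=
  Cv.ofCoord d fun a => algebraMap ℚ ℚbar (y a)

/-- Its zero divisor in `|dO|`. -/
def zeroDiv (Cv : Model S ℚbar F) (d : ℕ) (y : Fin (S.l d) → ℚ) : Divisor ℚbar F :=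
  divisorOf (Cv.ratFun d y : F) + Finsupp.single Cv.O (d : ℤ)

theorem algebraMap_comp_ne_zero {ι : Type*} {y : ι → ℚ} (hy : y ≠ 0) :
    (fun a => algebraMap ℚ ℚbar (y a)) ≠ 0 := fun h =>
  hy (funext fun a => (algebraMap ℚ ℚbar).injective (by simpa using congrFun h a))

theorem zeroDiv_nonneg (Cv : Model S ℚbar F) {d : ℕ} {y : Fin (S.l d) → ℚ} (hy : y ≠ 0) :
    0 ≤ Cv.zeroDiv d y := fun R => by
  simpa [zeroDiv, ratFun] using
    (mem_L_iff (Cv.coe_ofCoord_ne_zero (algebraMap_comp_ne_zero hy))).1 (Cv.ratFun d y).2 R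

theorem degree_zeroDiv (Cv : Model S ℚbar F) (d : ℕ) (y : Fin (S.l d) → ℚ) :
    Divisor.degree (Cv.zeroDiv d y) = d := by
  rw [zeroDiv, map_add, degree_divisorOf, zero_add, degree_single_O]

/-- Adding a principal divisor. -/
theorem exists_principal_height (Cv : Model S ℚbar F) (f d Mp : ℕ)
    (hM : 3 * rrBound ℚbar F + (f + d : ℕ) + 2 ≤ Mp) :
    ∃ C : ℝ, ∀ (G : Divisor ℚbar F) (y : Fin (S.l d) → ℚ)
      (uG : (Fin f → Fin (S.l Mp)) → ℚ) (uy : (Fin d → Fin (S.l (Mp + d))) → ℚ)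
      (uGy : (Fin (f + d) → Fin (S.l (Mp + d))) → ℚ),
      y ≠ 0 → Cv.IsRep Mp G uG → Cv.IsRep (Mp + d) (Cv.zeroDiv d y) uy →
      Cv.IsRep (Mp + d) (G + Cv.zeroDiv d y) uGy →
      |logHeight uGy + f * logHeight y - (logHeight uG + logHeight uy)| ≤ C := by
  classical
  have h0 : 0 ≤ rrBound ℚbar F := (Int.natCast_nonneg _).trans (le_max_right _ _)
  push_cast at hM
  set b := (rrBound ℚbar F).toNat + (Mp + d)
  have hD : Finsupp.single Cv.O ((Mp + d : ℕ) : ℤ) =
      Finsupp.single Cv.O (Mp : ℤ) + Finsupp.single Cv.O (d : ℤ) := by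
    rw [← Finsupp.single_add, Nat.cast_add]
  let r : (Fin f → Fin (S.l Mp)) × (Fin d → Fin (S.l (Mp + d))) →
      MvPolynomial ((Fin (f + d) → Fin (S.l (Mp + d))) ⊕ Fin (S.l d)) ℚ := fun q =>
    uEval (fun κ => X (Sum.inl κ)) (S.mulArgs (fun a => X (Sum.inr a)) q.1 q.2)
  have hr : ∀ q, r q ∈ biForms _ _ 1 f := fun q => by
    refine sum_mem fun κ _ => ?_
    rw [Fin.prod_univ_add]
    have h1 := biForms_prod_mem Finset.univ (a := fun _ : Fin f => 0) (b := fun _ => 1)
      fun i _ => (S.mulArgs_mem_biForms (ι := Fin (f + d) → Fin (S.l (Mp + d))) q.1 q.2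
        (κ (Fin.castAdd d i))).1 i
    have h2 := biForms_prod_mem Finset.univ (a := fun _ : Fin d => 0) (b := fun _ => 0)
      fun i _ => (S.mulArgs_mem_biForms (ι := Fin (f + d) → Fin (S.l (Mp + d))) q.1 q.2
        (κ (Fin.natAdd f i))).2 i
    simpa using biForms_mul_mem (X_inl_mem κ) (biForms_mul_mem h1 h2)
  have hrev : ∀ {A : Type} [CommRing A] [Algebra ℚ A] (x : (Fin (f + d) → Fin (S.l (Mp + d))) → A)
      (z : Fin (S.l d) → A) q, aeval (Sum.elim x z) (r q) = uEval x (S.mulArgs z q.1 q.2) := by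
    intro A _ _ x z q
    refine (map_uEval (aeval (Sum.elim x z) :
      MvPolynomial ((Fin (f + d) → Fin (S.l (Mp + d))) ⊕ Fin (S.l d)) ℚ →ₐ[ℚ] A).toRingHom
      _ _).trans ?_
    congr 1
    · funext κ; exact aeval_X _ _
    · funext i k
      refine (S.map_mulArgs (aeval (Sum.elim x z)) _ q.1 q.2 i k).trans ?_
      congr 1
      funext a
      exact aeval_X _ _
  obtain ⟨C₀, hC₀⟩ := exists_abs_logHeight_bieval_sub_le (η' := Empty) r hr
    (S.coneEq (f + d) (Mp + d) b) (S.isHomogeneous_coneEq _ _ _)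
    (d' := fun _ => 0) (fun k => k.elim) (fun k => k.elim) (by
      intro x z hx _ hp
      by_contra hxz
      rw [not_or] at hxz
      obtain ⟨G, U, hG, hGd, hU0, hUk, rfl⟩ := Cv.exists_divisor_of_inCone
        (by push_cast; omega) (by push_cast [b]; omega) hxz.1 ((S.coneEq_iff x).1 hx)
      set φ := Cv.ofCoord d z with hφdef
      have hφ : (φ : F) ≠ 0 := Cv.coe_ofCoord_ne_zero hxz.2
      obtain ⟨I, hI⟩ := exists_independent_mul'
        (H := G - (divisorOf (φ : F) + Finsupp.single Cv.O (d : ℤ))) hD φ hφ hG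
        (by rw [degree_single_O, hGd]; push_cast; omega)
        (fun R => by
          simp only [Finsupp.sub_apply, Finsupp.add_apply, divisorOf_apply]
          omega)
        (n := f) (by rw [map_sub, map_add, degree_divisorOf, degree_single_O, hGd]; push_cast; omega)
        (Cv.b Mp)
      have hq := finrank_quot_sub' (A := Finsupp.single Cv.O ((Mp + d : ℕ) : ℤ)) hG hGd
        (by rw [degree_single_O]; push_cast; omega)
      obtain ⟨J, hJ⟩ := exists_append_independent (Cv.b (Mp + d)) hq hI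
      refine (hUk.apply_ne_zero_iff inferInstance hq hU0 _).2 hJ ?_
      rw [apply_eq_uEval (Cv.b (Mp + d)), Cv.repr_mulD_args hD z I J]
      refine (hrev _ _ (I, J)).symm.trans ?_
      exact hp (I, J))
  refine ⟨C₀, fun G y uG uy uGy hy hG hyr hGy => ?_⟩
  obtain ⟨U, hU0, hUk, hU⟩ := hGy.exists_form
  obtain ⟨UG, hUG0, hUGk, hUG⟩ := hG.exists_form
  obtain ⟨Uy, hUy0, hUyk, hUy⟩ := hyr.exists_form
  obtain ⟨c, hc, hform⟩ := exists_principal_form hD hG.nonneg hG.deg (degree_single_O Cv d)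
    (by rw [degree_single_O]; push_cast; omega) (Cv.ratFun d y)
    (Cv.coe_ofCoord_ne_zero (algebraMap_comp_ne_zero hy)) hUk hU0 hUGk hUG0 hUyk hUy0
  obtain ⟨I₀, hI₀⟩ := Function.ne_iff.mp hG.ne_zero
  obtain ⟨J₀, hJ₀⟩ := Function.ne_iff.mp hyr.ne_zero
  simp only [Pi.zero_apply] at hI₀ hJ₀
  have hval : ∀ q, algebraMap ℚ ℚbar (eval (Sum.elim uGy y) (r q)) =
      c * algebraMap ℚ ℚbar (uG q.1 * uy q.2) := by
    intro q
    rw [← aeval_algebraMap_eval]
    have hs : (fun s => algebraMap ℚ ℚbar (Sum.elim uGy y s)) =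
        Sum.elim (fun κ => algebraMap ℚ ℚbar (uGy κ)) (fun a => algebraMap ℚ ℚbar (y a)) := by
      funext s; cases s <;> rfl
    rw [hs, hrev, ← funext hU, ← Cv.repr_mulD_args hD _ q.1 q.2,
      ← apply_eq_uEval (Cv.b (Mp + d)) U]
    rw [hform, hUG, hUy, map_mul, mul_assoc]
  have hne : (fun q : (Fin f → Fin (S.l Mp)) × (Fin d → Fin (S.l (Mp + d))) => uG q.1 * uy q.2) ≠ 0 :=
    Function.ne_iff.mpr ⟨(I₀, J₀), mul_ne_zero hI₀ hJ₀⟩
  obtain ⟨ρ, hρc, hρ⟩ := exists_rat_of_smul_eq hne hval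
  have hρ0 : ρ ≠ 0 := fun h => hc (by rw [hρc, h, map_zero])
  have h1 := hC₀ uGy y hGy.ne_zero hy (fun j => hGy.eval_coneEq (by push_cast; omega) b j)
    (fun k => k.elim)
  rw [hρ, Height.logHeight_smul_eq_logHeight _ hρ0, logHeight_fun_mul_eq hG.ne_zero hyr.ne_zero,
    abs_sub_comm] at h1
  simpa using h1

/-- The height of a principal divisor. -/
theorem exists_plh_principal (Cv : Model S ℚbar F) (d Mp : ℕ) (hM : rrBound ℚbar F ≤ Mp) :
    ∃ C : ℝ, ∀ y : Fin (S.l d) → ℚ, y ≠ 0 →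
      ∃ u : (Fin d → Fin (S.l (Mp + d))) → ℚ, Cv.IsRep (Mp + d) (Cv.zeroDiv d y) u ∧
        |logHeight u - S.l Mp * logHeight y| ≤ C := by
  classical
  have hD : Finsupp.single Cv.O ((Mp + d : ℕ) : ℤ) =
      Finsupp.single Cv.O (Mp : ℤ) + Finsupp.single Cv.O (d : ℤ) := by
    rw [← Finsupp.single_add, Nat.cast_add]
  have hl : S.l Mp + d = S.l (Mp + d) := by
    have h1 := Cv.l_eq hM
    have h2 := Cv.l_eq (m := Mp + d) (by push_cast; omega)
    push_cast at h2
    omega
  let P : (Fin d → Fin (S.l (Mp + d))) → MvPolynomial (Fin (S.l d)) ℚ := fun J =>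
    (Matrix.of fun i j : Fin (S.l Mp + d) =>
      S.mulArgs (fun a => (X a : MvPolynomial (Fin (S.l d)) ℚ)) id J j (Fin.cast hl i)).det
  have hP : ∀ J, (P J).IsHomogeneous (S.l Mp) := fun J => by
    simp only [P, Matrix.det_apply]
    refine IsHomogeneous.sum _ _ _ fun σ _ => ?_
    have h := IsHomogeneous.prod Finset.univ
      (fun j => (Matrix.of fun i j : Fin (S.l Mp + d) => S.mulArgs (fun a => (X a :
        MvPolynomial (Fin (S.l d)) ℚ)) id J j (Fin.cast hl i)) (σ j) j)
      (fun j => if (j : ℕ) < S.l Mp then 1 else 0) fun j _ => by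
        induction j using Fin.addCases with
        | left j =>
          rw [if_pos (by simp)]
          simp only [Matrix.of_apply, Shape.mulArgs, Fin.append_left, Shape.mulCoord]
          refine IsHomogeneous.sum _ _ _ fun a _ => IsHomogeneous.sum _ _ _ fun b _ => ?_
          refine IsHomogeneous.C_mul ?_ _
          rw [Pi.single_apply]
          split_ifs
          · rw [one_mul]; exact isHomogeneous_X _ _
          · rw [zero_mul]; exact isHomogeneous_zero _ _ _
        | right j =>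
          rw [if_neg (by simp)]
          simp only [Matrix.of_apply, Shape.mulArgs, Fin.append_right, Pi.single_apply]
          split_ifs
          · exact isHomogeneous_one _ _
          · exact isHomogeneous_zero _ _ _
    have hsum : (∑ j : Fin (S.l Mp + d), if (j : ℕ) < S.l Mp then 1 else 0) = S.l Mp := by
      rw [Fin.sum_univ_add]
      simp
    rw [hsum] at h
    rcases Int.units_eq_one_or (Equiv.Perm.sign σ) with hs | hs <;> rw [hs]
    · simpa using h
    · simpa using h.neg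
  let bD : Basis (Fin (S.l Mp + d)) ℚbar (Cv.V (Mp + d)) :=
    (Cv.b (Mp + d)).reindex (finCongr hl.symm)
  have hP' : ∀ (z : Fin (S.l d) → ℚbar) J, aeval z (P J) =
      bD.det (Fin.append (fun i => mulD hD (Cv.ofCoord d z) (Cv.b Mp (id i)))
        (fun i => Cv.b (Mp + d) (J i))) := by
    intro z J
    rw [Basis.det_apply, AlgHom.map_det]
    congr 1
    ext i j
    have h := congrFun (congrFun (Cv.repr_mulD_args hD z id J) j) (Fin.cast hl i)
    simp only [AlgHom.mapMatrix_apply, Matrix.map_apply, Matrix.of_apply, S.map_mulArgs, aeval_X]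
    rw [← h, Basis.toMatrix_apply, Basis.repr_reindex, Finsupp.mapDomain_equiv_apply]
    rfl
  have hli : ∀ z : Fin (S.l d) → ℚbar, z ≠ 0 → ∃ J, aeval z (P J) ≠ 0 := by
    intro z hz
    have hφ := Cv.coe_ofCoord_ne_zero hz
    have hinj : LinearMap.ker (mulD hD (Cv.ofCoord d z)) = ⊥ := by
      rw [LinearMap.ker_eq_bot']
      intro x hx
      have := congrArg Subtype.val hx
      simpa [hφ] using this
    have hv : LinearIndependent ℚbar ((⊥ : Submodule ℚbar (Cv.V (Mp + d))).mkQ ∘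
        fun i => mulD hD (Cv.ofCoord d z) (Cv.b Mp (id i))) :=
      ((Cv.b Mp).linearIndependent.map' _ hinj).map' _ (Submodule.ker_mkQ _)
    obtain ⟨J, hJ⟩ := exists_append_independent (Cv.b (Mp + d)) (c := d) (by
      rw [LinearEquiv.finrank_eq (Submodule.quotEquivOfEqBot ⊥ rfl),
        finrank_eq_card_basis (Cv.b (Mp + d)), Fintype.card_fin, hl]) hv
    refine ⟨J, ?_⟩
    rw [hP', ← isUnit_iff_ne_zero, ← bD.is_basis_iff_det]
    have hJ' := LinearIndependent.of_comp _ hJ
    exact ⟨hJ', hJ'.span_eq_top_of_card_eq_finrank' (by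
      rw [finrank_eq_card_basis bD])⟩
  obtain ⟨C₀, hC₀⟩ := exists_abs_logHeight_eval_sub_le P hP (d := fun _ : Empty => 0)
    (fun k => k.elim) (fun k => k.elim) (fun z _ hp => by
      by_contra hz
      obtain ⟨J, hJ⟩ := hli z hz
      exact hJ (hp J))
  refine ⟨C₀, fun y hy => ?_⟩
  set z : Fin (S.l d) → ℚbar := fun a => algebraMap ℚ ℚbar (y a) with hzdef
  refine ⟨fun J => eval y (P J), ⟨Cv.zeroDiv_nonneg hy, Cv.degree_zeroDiv d y,
    fixLeft bD.det (fun i => mulD hD (Cv.ofCoord d z) (Cv.b Mp (id i))), ?_, ?_, fun J => ?_⟩,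
    hC₀ y (fun k => k.elim)⟩
  · obtain ⟨J, hJ⟩ := hli z (algebraMap_comp_ne_zero hy)
    intro h
    rw [hP'] at hJ
    exact hJ (AlternatingMap.congr_fun h _)
  · intro v i hv
    by_contra hne
    have hli' := ((bD.is_basis_iff_det (v := Fin.append
      (fun i => mulD hD (Cv.ofCoord d z) (Cv.b Mp (id i))) v)).2 (isUnit_iff_ne_zero.2 hne)).1
    have hv' : (v i : F) * (Cv.ratFun d y : F)⁻¹ ∈ Cv.V Mp :=
      div_mem_of_mem_sub hD (Cv.coe_ofCoord_ne_zero (algebraMap_comp_ne_zero hy)) hv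
    set x : Cv.V Mp := ⟨_, hv'⟩
    have hvx : v i = ∑ a, (Cv.b Mp).repr x a • mulD hD (Cv.ofCoord d z) (Cv.b Mp a) := by
      have hsum : mulD hD (Cv.ofCoord d z) x =
          ∑ a, (Cv.b Mp).repr x a • mulD hD (Cv.ofCoord d z) (Cv.b Mp a) := by
        conv_lhs => rw [← (Cv.b Mp).sum_repr x]
        rw [map_sum]
        simp only [map_smul]
      rw [← hsum]
      exact Subtype.ext (inv_mul_cancel_right₀
        (Cv.coe_ofCoord_ne_zero (algebraMap_comp_ne_zero hy)) (v i : F)).symm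
    rw [Fintype.linearIndependent_iff] at hli'
    have h := hli' (Fin.append ((Cv.b Mp).repr x) (-Pi.single i 1)) (by
      rw [Fin.sum_univ_add]
      simp only [Fin.append_left, Fin.append_right, id]
      rw [← hvx]
      simp [Pi.single_apply, ite_smul]) (Fin.natAdd _ i)
    simp at h
  · show bD.det (Fin.append (fun i => mulD hD (Cv.ofCoord d z) (Cv.b Mp (id i)))
      (fun m => Cv.b (Mp + d) (J m))) = _
    rw [← hP', hzdef, aeval_algebraMap_eval]

end Model

end FLTAgent.MW
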