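import Fermat.Agent.MW.BiAdd
import Fermat.Agent.MW.Principal
import Fermat.Prelude.Def_AlgebraicCurve_BaseChangeGalois
import Mathlib.FieldTheory.Galois.Infinite

/-!
# Galois action: fixed divisors are rational, fixed classes have fixed representatives
-/

noncomputable section

set_option maxSynthPendingDepth 3

open AlgebraicCurve Module
open FLTAgent.FunctionField

namespace FLTAgent.MW

section Curve

variable {K F : Type*} [Field K] [Field F] [Algebra K F] [IsFunctionField K F]

theorem ell_eq_zero_of_degree_neg {D : Divisor K F} (hD : Divisor.degree D < 0) : ell D = 0 := by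
  by_contra h
  have h1 : 0 < finrank K (riemannRochSpace D) :=
    Nat.pos_of_ne_zero fun h0 => h (by rw [ell, h0, Nat.cast_zero])
  obtain ⟨⟨f, hf⟩, hne⟩ := Module.finrank_pos_iff_exists_ne_zero.1 h1
  have hf0 : f ≠ 0 := fun h => hne (Subtype.ext h)
  have h2 : 0 ≤ D + divisorOf f := fun v => by
    have h3 := ((mem_riemannRochSpace.1 hf) v).le_ord hf0
    simp only [Finsupp.coe_zero, Pi.zero_apply, Finsupp.add_apply, divisorOf_apply]
    omega
  have h3 := degree_nonneg h2
  rw [map_add, degree_divisorOf] at h3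
  omega

theorem ell_pred_le [IsAlgClosed K] (D : Divisor K F) (v : Place K F) :
    ell (D + Finsupp.single v 1) ≤ ell D + 1 := by
  have h := ell_le_ell_add_degree_sub (D := D) (E := D + Finsupp.single v 1)
    (le_add_of_nonneg_right (Finsupp.single_nonneg.2 zero_le_one))
  rw [map_add, Divisor.degree_single, deg_eq_one] at h
  simpa using h

theorem effective_add_divisorOf {D : Divisor K F} {f : F}
    (hf : f ∈ riemannRochSpace D) (hf0 : f ≠ 0) : 0 ≤ D + divisorOf f := fun R => by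
  have h3 := (mem_L_iff hf0).1 hf R
  simp only [Finsupp.coe_zero, Pi.zero_apply, Finsupp.add_apply, divisorOf_apply]
  omega

theorem divisorOf_smul {c : K} (hc : c ≠ 0) (f : F) : divisorOf (K := K) (c • f) = divisorOf f := by
  ext v
  rcases eq_or_ne f 0 with rfl | hf
  · simp
  rw [divisorOf_apply, divisorOf_apply, Algebra.smul_def,
    v.ord_mul ((map_ne_zero _).2 hc) hf, ord_algebraMap, zero_add]

/-- In a class of degree `0`, a divisor has at most a line of sections. -/
theorem exists_eq_smul_of_degree_zero [IsAlgClosed K] {D : Divisor K F}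
    (hD : Divisor.degree D = 0) {f g : F} (hf : f ∈ riemannRochSpace D) (hg : g ∈ riemannRochSpace D)
    (hf0 : f ≠ 0) : ∃ c : K, g = c • f := by
  obtain ⟨v⟩ := exists_place (K := K) (F := F)
  have h1 := ell_pred_le (D - Finsupp.single v 1) v
  rw [sub_add_cancel, ell_eq_zero_of_degree_neg (D := D - Finsupp.single v 1)
    (by rw [map_sub, hD, Divisor.degree_single, deg_eq_one]; simp)] at h1
  have h2 : finrank K (riemannRochSpace D) ≤ 1 := by
    simp only [ell] at h1
    omega
  have h3 : finrank K (riemannRochSpace D) = 1 :=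
    le_antisymm h2 (Module.finrank_pos_iff_exists_ne_zero.2
      ⟨⟨f, hf⟩, fun h => hf0 (congrArg Subtype.val h)⟩)
  obtain ⟨c, hc⟩ := (finrank_eq_one_iff_of_nonzero' (⟨f, hf⟩ : riemannRochSpace D)
    (fun h => hf0 (congrArg Subtype.val h))).1 h3 ⟨g, hg⟩
  exact ⟨c, (congrArg Subtype.val hc).symm⟩

omit [IsFunctionField K F] in
theorem smul_mem_L (g : SemilinearAut K F) {D : Divisor K F} {f : F}
    (hf : f ∈ riemannRochSpace D) : g • f ∈ riemannRochSpace (g • D) := by
  rw [mem_riemannRochSpace_iff] at hf ⊢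
  intro w
  rcases hf (g⁻¹ • w) with h | h
  · exact Or.inl (by rw [h, smul_zero])
  · right
    have h1 := SemilinearAut.ord_smul g (g⁻¹ • w) f
    rw [smul_inv_smul] at h1
    rw [SemilinearAut.divisor_smul_apply, h1]
    exact h

theorem smul_divisorOf (g : SemilinearAut K F) (f : F) :
    g • divisorOf (K := K) f = divisorOf (g • f) := by
  ext w
  have h1 := SemilinearAut.ord_smul g (g⁻¹ • w) f
  rw [smul_inv_smul] at h1
  rw [SemilinearAut.divisor_smul_apply, divisorOf_apply, divisorOf_apply, h1]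

omit [IsFunctionField K F] in
theorem smul_smul_semilinear (g : SemilinearAut K F) (a : K) (f : F) :
    g • (a • f) = SemilinearAut.baseAut g a • (g • f) := by
  rw [Algebra.smul_def, Algebra.smul_def, smul_mul', SemilinearAut.smul_algebraMap]

end Curve

namespace Model

local notation "ℚbar" => AlgebraicClosure ℚ

variable {S : Shape} {F : Type*} [Field F] [Algebra ℚbar F]

/-- A Galois action on the function field fixing the base point and the bases. -/
structure GalData (Cv : Model S ℚbar F) where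
  /-- the action -/
  ρ : (ℚbar ≃ₐ[ℚ] ℚbar) →* SemilinearAut ℚbar F
  baseAut_ρ : ∀ σ a, SemilinearAut.baseAut (ρ σ) a = σ a
  smul_O : ∀ σ, ρ σ • Cv.O = Cv.O
  smul_b : ∀ σ m i, ρ σ • (Cv.b m i : F) = Cv.b m i

namespace GalData

variable {Cv : Model S ℚbar F} (act : GalData Cv)

/-- Galois invariant divisors. -/
def Fixed (D : Divisor ℚbar F) : Prop := ∀ σ, act.ρ σ • D = D

variable {act}

theorem Fixed.single_O (n : ℤ) : act.Fixed (Finsupp.single Cv.O n) := fun σ => by
  rw [SemilinearAut.smul_single, act.smul_O]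

theorem Fixed.zero : act.Fixed 0 := fun _ => smul_zero _

theorem Fixed.add {D E : Divisor ℚbar F} (hD : act.Fixed D) (hE : act.Fixed E) :
    act.Fixed (D + E) := fun σ => by rw [smul_add, hD σ, hE σ]

theorem Fixed.neg {D : Divisor ℚbar F} (hD : act.Fixed D) : act.Fixed (-D) := fun σ => by
  rw [smul_neg, hD σ]

theorem Fixed.sub {D E : Divisor ℚbar F} (hD : act.Fixed D) (hE : act.Fixed E) :
    act.Fixed (D - E) := by rw [sub_eq_add_neg]; exact hD.add hE.neg

variable (act)

theorem smul_coe (σ : ℚbar ≃ₐ[ℚ] ℚbar) {m : ℕ} (x : Cv.V m) :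
    act.ρ σ • (x : F) = (Cv.ofCoord m (fun i => σ ((Cv.b m).repr x i)) : F) := by
  conv_lhs => rw [← (Cv.b m).sum_repr x]
  simp only [ofCoord, Basis.equivFun_symm_apply, Submodule.coe_sum, SetLike.val_smul]
  rw [Finset.smul_sum]
  exact Finset.sum_congr rfl fun i _ => by
    rw [smul_smul_semilinear, act.baseAut_ρ, act.smul_b]

theorem smul_ratFun (σ : ℚbar ≃ₐ[ℚ] ℚbar) (d : ℕ) (y : Fin (S.l d) → ℚ) :
    act.ρ σ • (Cv.ratFun d y : F) = Cv.ratFun d y := by
  rw [act.smul_coe, ratFun, repr_ofCoord]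
  simp only [AlgEquiv.commutes]

theorem exists_rat_of_fixed {ι : Type*} {x : ι → ℚbar}
    (hx : ∀ (σ : ℚbar ≃ₐ[ℚ] ℚbar) i, σ (x i) = x i) :
    ∃ y : ι → ℚ, x = fun i => algebraMap ℚ ℚbar (y i) := by
  have : Algebra.IsAlgebraic ℚ ℚbar := AlgebraicClosure.isAlgebraic ℚ
  have : IsAlgClosure ℚ ℚbar := ⟨inferInstance, inferInstance⟩
  have : IsGalois ℚ ℚbar := IsAlgClosure.isGalois ℚ ℚbar
  have h : ∀ i, ∃ q : ℚ, algebraMap ℚ ℚbar q = x i := fun i =>
    IntermediateField.mem_bot.1 ((InfiniteGalois.mem_bot_iff_fixed (x i)).2 fun σ => hx σ i)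
  choose y hy using h
  exact ⟨y, funext fun i => (hy i).symm⟩

variable [IsFunctionField ℚbar F]

theorem Fixed.zeroDiv {d : ℕ} (y : Fin (S.l d) → ℚ) : act.Fixed (Cv.zeroDiv d y) := fun σ => by
  rw [Model.zeroDiv, smul_add, smul_divisorOf, act.smul_ratFun, SemilinearAut.smul_single,
    act.smul_O]

omit [IsFunctionField ℚbar F] in
theorem mem_W_conj {M : ℕ} {G : Divisor ℚbar F} (hG : act.Fixed G) (σ : ℚbar ≃ₐ[ℚ] ℚbar)
    {x : Cv.V M} (hx : x ∈ Cv.W M G) :
    Cv.ofCoord M (fun i => σ ((Cv.b M).repr x i)) ∈ Cv.W M G := by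
  rw [mem_W, ← act.smul_coe]
  have h := smul_mem_L (act.ρ σ) ((Cv.mem_W).1 hx)
  rwa [((Fixed.single_O _).sub hG) σ] at h

/-- Fixed effective divisors are rational. -/
theorem isRat_of_fixed {G : Divisor ℚbar F} (hG0 : 0 ≤ G) (hG : act.Fixed G) : Cv.IsRat G := by
  classical
  refine ⟨hG0, fun M e he hM => ?_⟩
  have hcodim := finrank_quot_sub' (A := Finsupp.single Cv.O (M : ℤ)) hG0 he
    (by rw [degree_single_O]; omega)
  obtain ⟨U₀, hU₀0, hU₀⟩ := exists_kills (W := Cv.W M G) inferInstance hcodim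
  obtain ⟨κ₀, hκ₀⟩ : ∃ κ : Fin e → Fin (S.l M), U₀ (fun i => Cv.b M (κ i)) ≠ 0 := by
    by_contra! h
    exact hU₀0 (Basis.ext_alternating (Cv.b M) fun v _ => by simpa using h v)
  set U := (U₀ fun i => Cv.b M (κ₀ i))⁻¹ • U₀ with hU
  have hU0 : U ≠ 0 := smul_ne_zero (inv_ne_zero hκ₀) hU₀0
  have hUk : Kills U (Cv.W M G) := hU₀.smul _
  have hU1 : U (fun i => Cv.b M (κ₀ i)) = 1 := by
    rw [hU, AlternatingMap.smul_apply, smul_eq_mul, inv_mul_cancel₀ hκ₀]
  set u : (Fin e → Fin (S.l M)) → ℚbar := fun κ => U fun i => Cv.b M (κ i) with hu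
  suffices hfix : ∀ σ κ, (σ : ℚbar ≃ₐ[ℚ] ℚbar) (u κ) = u κ by
    obtain ⟨y, hy⟩ := exists_rat_of_fixed hfix
    exact ⟨y, hG0, he, U, hU0, hUk, fun κ => congrFun hy κ⟩
  intro σ
  have halt : IsAlt fun κ => σ (u κ) := (isAlt_apply_basis (Cv.b M) U).map σ.toRingEquiv.toRingHom
  have hkill : Kills (ofCoords (Cv.b M) halt) (Cv.W M G) := by
    intro v i hi
    have h := map_uEval σ.toRingEquiv.toRingHom u
      (fun j a => σ.symm ((Cv.b M).repr (v j) a))
    have hz : uEval u (fun j a => σ.symm ((Cv.b M).repr (v j) a)) = 0 := by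
      have h' := apply_eq_uEval (Cv.b M) U
        (fun j => Cv.ofCoord M fun a => σ.symm ((Cv.b M).repr (v j) a))
      simp only [repr_ofCoord] at h'
      rw [← h']
      exact hUk _ i (act.mem_W_conj hG σ.symm hi)
    rw [hz, map_zero] at h
    simp only [ofCoords_apply]
    refine Eq.trans ?_ h.symm
    congr 1
    funext j a
    exact (σ.apply_symm_apply _).symm
  obtain ⟨c, hc⟩ := hUk.exists_eq_smul hkill inferInstance hcodim hU0
  have hval : ∀ κ, σ (u κ) = c * u κ := fun κ => by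
    rw [← ofCoords_basis (Cv.b M) halt κ, hc, AlternatingMap.smul_apply, smul_eq_mul]
  have hc1 : c = 1 := by
    have h := hval κ₀
    simp only [hu, hU1, map_one, mul_one] at h
    exact h.symm
  intro κ
  rw [hval, hc1, one_mul]

/-- A fixed divisor in `|dO|` is cut out by a rational function. -/
theorem exists_zeroDiv_of_fixed {d : ℕ} {Z : Divisor ℚbar F} (hZ : act.Fixed Z) (hZ0 : 0 ≤ Z)
    (hprin : Z - Finsupp.single Cv.O (d : ℤ) ∈ Divisor.principal (K := ℚbar) (F := F)) :
    ∃ y : Fin (S.l d) → ℚ, y ≠ 0 ∧ Z = Cv.zeroDiv d y := by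
  classical
  obtain ⟨φ, hφ0, hφ⟩ := hprin
  have hdiv : divisorOf (K := ℚbar) φ = Z - Finsupp.single Cv.O (d : ℤ) :=
    Finsupp.ext fun v => (hφ v).symm
  have hmem : φ ∈ Cv.V d := (mem_L_iff hφ0).2 fun R => by
    have := hφ R
    have := hZ0 R
    simp only [Finsupp.sub_apply, Finsupp.coe_zero, Pi.zero_apply] at *
    omega
  set x := (Cv.b d).repr ⟨φ, hmem⟩ with hx
  obtain ⟨i₀, hi₀⟩ : ∃ i, x i ≠ 0 := by
    by_contra! h
    refine hφ0 (congrArg Subtype.val ((Cv.b d).repr.injective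
      (a₁ := (⟨φ, hmem⟩ : Cv.V d)) (a₂ := 0) ?_))
    rw [map_zero]
    exact Finsupp.ext h
  obtain ⟨y, hy⟩ : ∃ y : Fin (S.l d) → ℚ, (fun i => (x i₀)⁻¹ * x i) = fun i => algebraMap ℚ ℚbar (y i) := by
    refine exists_rat_of_fixed fun σ i => ?_
    -- `σ φ` is a multiple of `φ`
    have hline : ∀ f : F, f ≠ 0 → divisorOf (K := ℚbar) f = Z - Finsupp.single Cv.O (d : ℤ) →
        f ∈ riemannRochSpace (-(Z - Finsupp.single Cv.O (d : ℤ))) := fun f hf hf' =>
      (mem_L_iff hf).2 fun R => by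
        have := DFunLike.congr_fun hf' R
        simp only [Finsupp.neg_apply, divisorOf_apply] at *
        omega
    have h0 : Divisor.degree (-(Z - Finsupp.single Cv.O (d : ℤ))) = 0 := by
      rw [← hdiv, map_neg, degree_divisorOf, neg_zero]
    obtain ⟨c, hc⟩ := exists_eq_smul_of_degree_zero h0 (hline φ hφ0 hdiv)
      (hline (act.ρ σ • φ) (by rwa [smul_ne_zero_iff_ne]) (by
        rw [← smul_divisorOf, hdiv, (hZ.sub (Fixed.single_O _)) σ])) hφ0
    have hco : (Cv.ofCoord d (fun i => σ (x i)) : Cv.V d) = c • ⟨φ, hmem⟩ :=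
      Subtype.ext ((act.smul_coe σ (⟨φ, hmem⟩ : Cv.V d)).symm.trans hc)
    have hσ : ∀ j, σ (x j) = c * x j := fun j => by
      have h := congrArg (fun v => (Cv.b d).repr v j) hco
      rw [map_smul, Finsupp.smul_apply, smul_eq_mul, repr_ofCoord] at h
      exact h
    have hc0 : c ≠ 0 := fun h => hi₀ (σ.injective (by rw [hσ, h, zero_mul, map_zero]))
    rw [map_mul, map_inv₀, hσ, hσ, mul_inv, mul_mul_mul_comm, inv_mul_cancel₀ hc0, one_mul]
  have hy0 : y ≠ 0 := fun h => by
    have h1 := congrFun hy i₀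
    simp [h, inv_mul_cancel₀ hi₀] at h1
  refine ⟨y, hy0, ?_⟩
  have hrat : (Cv.ratFun d y : F) = (x i₀)⁻¹ • φ := by
    have : Cv.ratFun d y = (x i₀)⁻¹ • (⟨φ, hmem⟩ : Cv.V d) := by
      apply (Cv.b d).repr.injective
      ext i
      rw [ratFun, repr_ofCoord, map_smul]
      exact (congrFun hy i).symm
    exact congrArg Subtype.val this
  rw [Model.zeroDiv, hrat, divisorOf_smul (inv_ne_zero hi₀), hdiv, sub_add_cancel]

/-- A fixed class of degree `0` has fixed effective representatives in all degrees `≥ g`. -/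
theorem exists_fixed_effective {D : Divisor ℚbar F} (hdeg : Divisor.degree D = 0)
    (hD : ∀ σ, act.ρ σ • D - D ∈ Divisor.principal (K := ℚbar) (F := F)) {j : ℕ}
    (hj : genusFF ℚbar F ≤ j) :
    ∃ E : Divisor ℚbar F, 0 ≤ E ∧ act.Fixed E ∧ Divisor.degree E = j ∧
      E - Finsupp.single Cv.O (j : ℤ) - D ∈ Divisor.principal (K := ℚbar) (F := F) := by
  classical
  have hex : ∃ r : ℕ, 0 < ell (D + Finsupp.single Cv.O (r : ℤ)) := ⟨genusFF ℚbar F, by
    have := riemann_inequality (D + Finsupp.single Cv.O (genusFF ℚbar F : ℤ))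
    rw [map_add, hdeg, degree_single_O] at this
    omega⟩
  set r := Nat.find hex
  have hr : 0 < ell (D + Finsupp.single Cv.O (r : ℤ)) := Nat.find_spec hex
  have hrg : r ≤ genusFF ℚbar F := Nat.find_le (by
    have := riemann_inequality (D + Finsupp.single Cv.O (genusFF ℚbar F : ℤ))
    rw [map_add, hdeg, degree_single_O] at this
    omega)
  set Dr := D + Finsupp.single Cv.O (r : ℤ) with hDr
  have h1 : ell Dr ≤ 1 := by
    have h := ell_pred_le (Dr - Finsupp.single Cv.O 1) Cv.O
    rw [sub_add_cancel] at h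
    suffices ell (Dr - Finsupp.single Cv.O 1) ≤ 0 by omega
    rcases Nat.eq_zero_or_pos r with h0 | h0
    · refine le_of_eq (ell_eq_zero_of_degree_neg ?_)
      rw [map_sub, hDr, map_add, hdeg, degree_single_O, Divisor.degree_single, deg_eq_one, h0]
      simp
    · have h2 := Nat.find_min hex (Nat.sub_lt h0 one_pos)
      rw [not_lt, Nat.cast_sub (by omega), Nat.cast_one, Finsupp.single_sub,
        add_sub_assoc'] at h2
      exact h2
  simp only [ell] at hr h1
  obtain ⟨⟨f, hf⟩, hne⟩ :=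
    Module.finrank_pos_iff_exists_ne_zero.1 (show 0 < finrank ℚbar (riemannRochSpace Dr) by omega)
  have hf0 : f ≠ 0 := fun h => hne (Subtype.ext h)
  have h3 : finrank ℚbar (riemannRochSpace Dr) = 1 := by omega
  set E₀ := Dr + divisorOf (K := ℚbar) f with hE₀
  have hfix : act.Fixed E₀ := by
    intro σ
    obtain ⟨h, hh0, hh⟩ := hD σ
    have hdh : divisorOf (K := ℚbar) h = act.ρ σ • D - D := Finsupp.ext fun v => (hh v).symm
    have hsf0 : act.ρ σ • f ≠ 0 := by rwa [smul_ne_zero_iff_ne]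
    have key : act.ρ σ • E₀ = Dr + divisorOf (K := ℚbar) (h * (act.ρ σ • f)) := by
      rw [hE₀, smul_add, smul_divisorOf, divisorOf_mul hh0 hsf0, hDr, smul_add,
        SemilinearAut.smul_single, act.smul_O, hdh]
      abel
    have hmem : h * (act.ρ σ • f) ∈ riemannRochSpace Dr := by
      refine (mem_L_iff (mul_ne_zero hh0 hsf0)).2 fun R => ?_
      have h2 : (0 : ℤ) ≤ (act.ρ σ • E₀) R := by
        rw [SemilinearAut.divisor_smul_apply]
        exact effective_add_divisorOf hf hf0 _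
      rw [key, Finsupp.add_apply, divisorOf_apply] at h2
      omega
    obtain ⟨c, hc⟩ := (finrank_eq_one_iff_of_nonzero' (⟨f, hf⟩ : riemannRochSpace Dr)
      (fun h => hf0 (congrArg Subtype.val h))).1 h3 ⟨_, hmem⟩
    have hc' : c • f = h * (act.ρ σ • f) := congrArg Subtype.val hc
    have hc0 : c ≠ 0 := fun h2 => mul_ne_zero hh0 hsf0 (by rw [← hc', h2, zero_smul])
    rw [key, ← hc', divisorOf_smul hc0]
  refine ⟨E₀ + Finsupp.single Cv.O ((j : ℤ) - r),
    add_nonneg (effective_add_divisorOf hf hf0) (Finsupp.single_nonneg.2 (by omega)),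
    hfix.add (Fixed.single_O _), ?_, ?_⟩
  · rw [map_add, hE₀, map_add, hDr, map_add, hdeg, degree_divisorOf, degree_single_O,
      Divisor.degree_single, deg_eq_one]
    simp
  · refine ⟨f, hf0, fun v => ?_⟩
    simp only [hE₀, hDr, Finsupp.sub_apply, Finsupp.add_apply, divisorOf_apply, Finsupp.single_sub]
    ring

end GalData

end Model

end FLTAgent.MW
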