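import Fermat.Agent.MW.Rep
import Fermat.Agent.MW.Poly

/-!
# The height of a sum of effective divisors

`B(E, G) = plh (E + G) - plh E - plh G` is additive in `E` up to a bounded error.
-/

noncomputable section

set_option maxSynthPendingDepth 3

open AlgebraicCurve Module MvPolynomial Height
open FLTAgent.FunctionField

namespace FLTAgent.MW

section NrmPoly

variable {K F : Type*} [Field K] [Field F] [Algebra K F]
variable [IsFunctionField K F] [IsAlgClosed K] {T : Type*} [Fintype T]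

/-- The product over the points of `E` of the linear forms `∑ t • stepFun (w t)`. -/
def nrmPoly (B E : Divisor K F) (w : T → riemannRochSpace B) : MvPolynomial T K :=
  E.prod fun R n => (∑ t, C (stepFun B R (w t)) * X t) ^ n.toNat

theorem eval_nrmPoly (B E : Divisor K F) (w : T → riemannRochSpace B) (x : T → K) :
    eval x (nrmPoly B E w) = nrm B E (∑ t, x t • w t) := by
  rw [nrmPoly, nrm, map_finsuppProd]
  refine Finset.prod_congr rfl fun R _ => ?_
  simp [map_sum, mul_comm]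

theorem isHomogeneous_nrmPoly {B E : Divisor K F} (w : T → riemannRochSpace B) (hE : 0 ≤ E) {e : ℕ}
    (he : Divisor.degree E = e) : (nrmPoly B E w).IsHomogeneous e := by
  rw [nrmPoly, Finsupp.prod]
  have h := IsHomogeneous.prod E.support (fun R => (∑ t, C (stepFun B R (w t)) * X t) ^ (E R).toNat)
    (fun R => 1 * (E R).toNat) fun R _ =>
      (IsHomogeneous.sum _ _ _ fun t _ => isHomogeneous_C_mul_X _ _).pow _
  have hsum : ∑ R ∈ E.support, 1 * (E R).toNat = e := by
    have h1 : ((∑ R ∈ E.support, 1 * (E R).toNat : ℕ) : ℤ) = ∑ R ∈ E.support, E R := by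
      push_cast
      exact Finset.sum_congr rfl fun R _ => by rw [one_mul]; exact Int.toNat_of_nonneg (hE R)
    have h2 : Divisor.degree E = ∑ R ∈ E.support, E R := degree_eq_sum_apply E
    omega
  rwa [hsum] at h

theorem nrmPoly_add {B E E' : Divisor K F} (hE : 0 ≤ E) (hE' : 0 ≤ E')
    (w : T → riemannRochSpace B) : nrmPoly B (E + E') w = nrmPoly B E w * nrmPoly B E' w := by
  refine MvPolynomial.funext fun x => ?_
  rw [map_mul, eval_nrmPoly, eval_nrmPoly, eval_nrmPoly, nrm_add hE hE']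

theorem nrmPoly_ne_zero {B E : Divisor K F} {w : T → riemannRochSpace B}
    (hw : ∀ s, ∃ x : T → K, ∑ t, x t • w t = s) (hB : rrBound K F + 1 ≤ Divisor.degree B) :
    nrmPoly B E w ≠ 0 := by
  obtain ⟨s, -, hs⟩ := exists_forall_stepFun_ne_zero E.support hB
  obtain ⟨x, hx⟩ := hw s
  intro h
  have := congrArg (eval x) h
  rw [eval_nrmPoly, hx, map_zero, nrm, Finsupp.prod, Finset.prod_eq_zero_iff] at this
  obtain ⟨R, hR, hR'⟩ := this
  exact pow_ne_zero _ (hs R hR) hR'

end NrmPoly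

namespace Model

variable {S : Shape} {K F : Type*} [Field K] [Algebra ℚ K] [Field F] [Algebra K F]
  [IsFunctionField K F] [IsAlgClosed K] {Cv : Model S K F}

theorem wgen_mem_W {M : ℕ} {G : Divisor K F} {e : ℕ} (hG : 0 ≤ G)
    (he : Divisor.degree G = e) (hM : rrBound K F + e ≤ M)
    {U : (Cv.V M) [⋀^Fin e]→ₗ[K] K} (hU : Kills U (Cv.W M G)) (t : Fin (e + 1) → Fin (S.l M)) :
    wgen (Cv.b M) (fun κ => U fun i => Cv.b M (κ i)) t ∈ Cv.W M G :=
  sum_smul_mem_of_kills hU inferInstance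
    (finrank_quot_sub' hG he (by rw [degree_single_O]; omega)) fun l => Cv.b M (t l)

theorem span_wgen_eq_W {M : ℕ} {G : Divisor K F} {e : ℕ} (hG : 0 ≤ G)
    (he : Divisor.degree G = e) (hM : rrBound K F + e ≤ M)
    {U : (Cv.V M) [⋀^Fin e]→ₗ[K] K} (hU : Kills U (Cv.W M G)) (hU0 : U ≠ 0) :
    Submodule.span K (Set.range (wgen (Cv.b M) fun κ => U fun i => Cv.b M (κ i))) = Cv.W M G :=
  span_range_wgen (Cv.b M) hU inferInstance
    (finrank_quot_sub' hG he (by rw [degree_single_O]; omega)) hU0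

/-- The generators of `L(kO - G)` attached to a representative, in `L(kO - G)`. -/
def genSec {k : ℕ} {G : Divisor K F} {f : ℕ} {u : (Fin f → Fin (S.l k)) → ℚ}
    (hk : rrBound K F + f ≤ k) (hu : Cv.IsRep k G u) (t : S.GenIdx f k) :
    riemannRochSpace (Finsupp.single Cv.O (k : ℤ) - G) :=
  toDiff (Finsupp.single Cv.O (k : ℤ)) G ⟨wgen (Cv.b k) (fun κ => algebraMap ℚ K (u κ)) t, by
    obtain ⟨U, -, hUk, hU⟩ := hu.exists_form
    rw [← funext hU]
    exact Cv.wgen_mem_W hu.nonneg hu.deg hk hUk t⟩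

theorem genSec_surjective {k : ℕ} {G : Divisor K F} {f : ℕ} {u : (Fin f → Fin (S.l k)) → ℚ}
    (hk : rrBound K F + f ≤ k) (hu : Cv.IsRep k G u)
    (s : riemannRochSpace (Finsupp.single Cv.O (k : ℤ) - G)) :
    ∃ x : S.GenIdx f k → K, ∑ t, x t • genSec hk hu t = s := by
  obtain ⟨U, hU0, hUk, hU⟩ := hu.exists_form
  have hmem : (ofDiff hu.nonneg s : Cv.V k) ∈ Submodule.span K (Set.range
      (wgen (Cv.b k) fun κ => algebraMap ℚ K (u κ))) := by
    rw [← funext hU, Cv.span_wgen_eq_W hu.nonneg hu.deg hk hUk hU0]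
    exact (ofDiff hu.nonneg s).2
  obtain ⟨x, hx⟩ := (Submodule.mem_span_range_iff_exists_fun K).1 hmem
  refine ⟨x, Subtype.ext ?_⟩
  have h := congrArg Subtype.val hx
  simp only [Submodule.coe_sum, SetLike.val_smul] at h ⊢
  exact h

/-- A rational form proportional to the product of the linear forms of `E`. -/
def IsNrmRep {k : ℕ} {G : Divisor K F} {f : ℕ} {u : (Fin f → Fin (S.l k)) → ℚ}
    (hk : rrBound K F + f ≤ k) (hu : Cv.IsRep k G u) (E : Divisor K F)
    (q : MvPolynomial (S.GenIdx f k) ℚ) : Prop :=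
  ∃ c : K, c ≠ 0 ∧ map (algebraMap ℚ K) q = C c * nrmPoly _ E (genSec hk hu)

theorem IsNrmRep.mul {k : ℕ} {G E E' : Divisor K F} {f : ℕ} {u : (Fin f → Fin (S.l k)) → ℚ}
    {hk : rrBound K F + f ≤ k} {hu : Cv.IsRep k G u} {q q' : MvPolynomial (S.GenIdx f k) ℚ}
    (hE : 0 ≤ E) (hE' : 0 ≤ E') (h : IsNrmRep hk hu E q) (h' : IsNrmRep hk hu E' q') :
    IsNrmRep hk hu (E + E') (q * q') := by
  obtain ⟨c, hc, h⟩ := h
  obtain ⟨c', hc', h'⟩ := h'
  exact ⟨c * c', mul_ne_zero hc hc', by rw [map_mul, h, h', nrmPoly_add hE hE', map_mul]; ring⟩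

theorem IsNrmRep.ne_zero {k : ℕ} {G E : Divisor K F} {f : ℕ} {u : (Fin f → Fin (S.l k)) → ℚ}
    {hk : rrBound K F + f ≤ k} {hu : Cv.IsRep k G u} {q : MvPolynomial (S.GenIdx f k) ℚ}
    (hk' : rrBound K F + f + 1 ≤ k) (h : IsNrmRep hk hu E q) : q ≠ 0 := by
  rintro rfl
  obtain ⟨c, hc, h⟩ := h
  rw [map_zero, eq_comm, mul_eq_zero, C_eq_zero] at h
  exact nrmPoly_ne_zero (genSec_surjective hk hu)
    (by rw [map_sub, degree_single_O, hu.deg]; omega) (h.resolve_left hc)

theorem IsNrmRep.isHomogeneous {k : ℕ} {G E : Divisor K F} {f e : ℕ}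
    {u : (Fin f → Fin (S.l k)) → ℚ}
    {hk : rrBound K F + f ≤ k} {hu : Cv.IsRep k G u} {q : MvPolynomial (S.GenIdx f k) ℚ}
    (hE : 0 ≤ E) (he : Divisor.degree E = e) (h : IsNrmRep hk hu E q) : q.IsHomogeneous e := by
  obtain ⟨c, -, h⟩ := h
  refine IsHomogeneous.of_map (algebraMap ℚ K).injective ?_
  rw [h]
  exact (isHomogeneous_nrmPoly _ hE he).C_mul c

theorem IsNrmRep.exists_eq_smul {k : ℕ} {G E : Divisor K F} {f : ℕ}
    {u : (Fin f → Fin (S.l k)) → ℚ}
    {hk : rrBound K F + f ≤ k} {hu : Cv.IsRep k G u} {q q' : MvPolynomial (S.GenIdx f k) ℚ}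
    (hk' : rrBound K F + f + 1 ≤ k) (h : IsNrmRep hk hu E q) (h' : IsNrmRep hk hu E q') :
    ∃ r : ℚ, r ≠ 0 ∧ q' = r • q := by
  obtain ⟨c, hc, e1⟩ := h
  obtain ⟨c', hc', e2⟩ := h'
  have hne : (fun m => coeff m q) ≠ 0 := fun h0 =>
    IsNrmRep.ne_zero hk' ⟨c, hc, e1⟩ (MvPolynomial.ext _ _ fun m => by simpa using congrFun h0 m)
  obtain ⟨r, hr, hq⟩ := exists_rat_of_smul_eq (K := K) hne (x := fun m => coeff m q') (c := c' / c)
    fun m => by
      rw [← coeff_map, ← coeff_map, e1, e2, coeff_C_mul, coeff_C_mul]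
      field_simp
  refine ⟨r, fun h0 => ?_, MvPolynomial.ext _ _ fun m => by simpa using congrFun hq m⟩
  rw [h0, map_zero] at hr
  exact div_ne_zero hc' hc hr

omit [IsFunctionField K F] [IsAlgClosed K] in
theorem eval_map_valPoly {e f M k : ℕ} (U : (Cv.V (M + k)) [⋀^Fin (e + f)]→ₗ[K] K)
    (hD : Finsupp.single Cv.O ((M + k : ℕ) : ℤ) =
      Finsupp.single Cv.O (M : ℤ) + Finsupp.single Cv.O (k : ℤ))
    (u' : (Fin f → Fin (S.l k)) → K) (J : Fin e → Fin (S.l M))
    (I : Fin f → Fin (S.l (M + k))) (x : S.GenIdx f k → K) :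
    eval x (S.valPoly (fun κ => U fun i => Cv.b (M + k) (κ i)) u' J I) =
      U (Fin.append (fun i => mulD hD (∑ t, x t • wgen (Cv.b k) u' t) (Cv.b M (J i)))
        (fun i => Cv.b (M + k) (I i))) := by
  rw [Shape.valPoly, map_uEval, apply_eq_uEval (Cv.b (M + k))]
  congr 1
  · funext κ; simp
  funext i q
  induction i using Fin.addCases with
  | left i =>
    simp only [Shape.valArgs, Fin.append_left]
    have he : ∀ (p : MvPolynomial (S.GenIdx f k) K), eval x p = aeval x p := fun p => rfl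
    rw [he, ← AlgHom.restrictScalars_apply ℚ, S.map_mulCoord]
    have hmul : mulD hD (∑ t, x t • wgen (Cv.b k) u' t) (Cv.b M (J i)) =
        ⟨(Cv.b M (J i) : F) * ((∑ t, x t • wgen (Cv.b k) u' t : Cv.V k) : F),
          Cv.coe_mul_mem _ _⟩ := Subtype.ext (coe_mulD _ _ _)
    rw [hmul, Cv.repr_mul, Basis.repr_self, Finsupp.single_eq_pi_single]
    congr 1
    · funext a
      simp [Pi.single_apply]
    · funext a
      rw [map_sum (Cv.b k).repr, Finsupp.finsetSum_apply]
      simp only [Function.comp_apply, AlgHom.restrictScalars_apply, Shape.secCoord, map_sum,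
        map_mul, aeval_X, aeval_C, map_smul, Finsupp.coe_smul, Pi.smul_apply, smul_eq_mul]
      refine Finset.sum_congr rfl fun t _ => ?_
      rw [repr_wgen]
      rfl
  | right i =>
    simp [Shape.valArgs, Fin.append_right, Pi.single_apply, Finsupp.single_apply, eq_comm]

end Model

namespace Model

local notation "ℚbar" => AlgebraicClosure ℚ

variable {S : Shape} {F : Type*} [Field F] [Algebra ℚbar F] [IsFunctionField ℚbar F]
  {Cv : Model S ℚbar F}

theorem exists_add_height (Cv : Model S ℚbar F) (e f M k : ℕ)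
    (hk : 3 * rrBound ℚbar F + f + 2 ≤ k) (hk1 : rrBound ℚbar F + f + 1 ≤ k)
    (hM : 3 * rrBound ℚbar F + (e + f : ℕ) + 2 ≤ M) :
    ∃ C : ℝ, ∀ (E G : Divisor ℚbar F) (uE : (Fin e → Fin (S.l M)) → ℚ)
      (uG : (Fin f → Fin (S.l (M + k))) → ℚ) (uk : (Fin f → Fin (S.l k)) → ℚ)
      (uEG : (Fin (e + f) → Fin (S.l (M + k))) → ℚ) (hk0 : rrBound ℚbar F + f ≤ k)
      (_ : Cv.IsRep M E uE) (_ : Cv.IsRep (M + k) G uG) (hu : Cv.IsRep k G uk)
      (_ : Cv.IsRep (M + k) (E + G) uEG),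
      ∃ q, IsNrmRep hk0 hu E q ∧
        |logHeight uEG + e * logHeight uk
          - (logHeight (coeffVec e q) + logHeight uE + logHeight uG)| ≤ C := by
  classical
  have h0 : 0 ≤ rrBound ℚbar F := (Int.natCast_nonneg _).trans (le_max_right _ _)
  push_cast at hM
  set b := (rrBound ℚbar F).toNat + (M + k)
  set b' := (rrBound ℚbar F).toNat + k
  have hD : Finsupp.single Cv.O ((M + k : ℕ) : ℤ) =
      Finsupp.single Cv.O (M : ℤ) + Finsupp.single Cv.O (k : ℤ) := by
    rw [← Finsupp.single_add, Nat.cast_add]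
  obtain ⟨C₀, hC₀⟩ := exists_abs_logHeight_bieval_sub_le
    (fun q : Mon (S.GenIdx f k) e × (Fin e → Fin (S.l M)) × (Fin f → Fin (S.l (M + k))) =>
      coeff q.1.1 (S.univVal q.2.1 q.2.2))
    (fun q => S.isBi_univVal q.2.1 q.2.2 q.1.1)
    (S.coneEq (e + f) (M + k) b) (S.isHomogeneous_coneEq _ _ _)
    (S.coneEq f k b') (S.isHomogeneous_coneEq _ _ _) (by
      intro x y hx hy hp
      by_contra hxy
      rw [not_or] at hxy
      obtain ⟨G, U, hG, hGd, hU0, hUk, rfl⟩ := Cv.exists_divisor_of_inCone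
        (by push_cast; omega) (by push_cast [b]; omega) hxy.1 ((S.coneEq_iff x).1 hx)
      obtain ⟨G', U', hG', hG'd, hU'0, hU'k, rfl⟩ := Cv.exists_divisor_of_inCone (e := f) (M := k)
        (by omega) (by push_cast [b']; omega) hxy.2 ((S.coneEq_iff y).1 hy)
      set Bk : Divisor ℚbar F := Finsupp.single Cv.O (k : ℤ) with hBk
      obtain ⟨s, hs0, hs⟩ := exists_forall_stepFun_ne_zero (B := Bk - G') G.support
        (by rw [map_sub, degree_single_O, hG'd]; omega)
      let s₁ : sub Bk G' := ofDiff hG' s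
      have hs₁ : ((s₁ : Cv.V k) : F) = (s : F) := rfl
      have hs0' : (s : F) ≠ 0 := fun h => hs0 (Subtype.ext h)
      obtain ⟨J, hJ⟩ := exists_independent_mul' (H := G - G') hD (s₁ : Cv.V k) (by rwa [hs₁]) hG
        (by rw [degree_single_O, hGd]; push_cast; omega)
        (fun R => by
          rw [hs₁]
          by_cases hR : R ∈ G.support
          · have h1 := (stepFun_ne_zero_iff.1 (hs R hR)).2
            simp only [Finsupp.sub_apply] at h1 ⊢
            omega
          · rw [Finsupp.notMem_support_iff] at hR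
            have := hG' R
            simp only [Finsupp.sub_apply, hR, Finsupp.coe_zero, Pi.zero_apply] at this ⊢
            omega)
        (n := e) (by rw [map_sub, hGd, hG'd]; push_cast; omega) (Cv.b M)
      have hq := finrank_quot_sub' (A := Finsupp.single Cv.O ((M + k : ℕ) : ℤ)) hG hGd
        (by rw [degree_single_O]; push_cast; omega)
      obtain ⟨I, hI⟩ := exists_append_independent (Cv.b (M + k)) hq hJ
      have hmem : (s₁ : Cv.V k) ∈ Submodule.span ℚbar
          (Set.range (wgen (Cv.b k) fun κ => U' fun i => Cv.b k (κ i))) := by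
        rw [Cv.span_wgen_eq_W hG' hG'd (by omega) hU'k hU'0]
        exact s₁.2
      obtain ⟨t, ht⟩ := (Submodule.mem_span_range_iff_exists_fun ℚbar).1 hmem
      have hval := (hUk.apply_ne_zero_iff inferInstance hq hU0 _).2 hI
      rw [← ht, ← eval_map_valPoly U hD] at hval
      refine hval ?_
      suffices h : S.valPoly (fun κ => U fun i => Cv.b (M + k) (κ i))
          (fun κ => U' fun i => Cv.b k (κ i)) J I = 0 by rw [h, map_zero]
      refine eq_zero_of_coeffVec (S.isHomogeneous_valPoly _ _ _ _) (funext fun m => ?_)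
      have h1 := hp (m, J, I)
      have h2 := congrArg (coeff m.1) (S.map_valPoly (aeval
          (Sum.elim (fun κ => U fun i => Cv.b (M + k) (κ i)) fun κ => U' fun i => Cv.b k (κ i)) :
        MvPolynomial ((Fin (e + f) → Fin (S.l (M + k))) ⊕ (Fin f → Fin (S.l k))) ℚ →ₐ[ℚ] ℚbar)
        (fun κ => X (Sum.inl κ)) (fun κ => X (Sum.inr κ)) J I)
      rw [coeff_map] at h2
      simp only [aeval_X, Sum.elim_inl, Sum.elim_inr] at h2
      exact h2.symm.trans h1)
  refine ⟨C₀, fun E G uE uG uk uEG hk0 hE hGr hu hEG => ?_⟩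
  obtain ⟨U, hU0, hUk, hU⟩ := hEG.exists_form
  obtain ⟨UE, hUE0, hUEk, hUE⟩ := hE.exists_form
  obtain ⟨UG, hUG0, hUGk, hUG⟩ := hGr.exists_form
  obtain ⟨c, hc, hform⟩ := exists_add_form hD hE.nonneg hE.deg hu.nonneg hu.deg
    (by rw [degree_single_O]; push_cast; omega) (by rw [degree_single_O]; omega)
    hUk hU0 hUEk hUE0 hUGk hUG0
  -- the value as a rational polynomial
  set val := fun (J : Fin e → Fin (S.l M)) (I : Fin f → Fin (S.l (M + k))) =>
    S.valPoly uEG uk J I with hvaldef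
  have hmap : ∀ J I, map (algebraMap ℚ ℚbar) (val J I) =
      C (c * algebraMap ℚ ℚbar (uE J * uG I)) * nrmPoly _ E (genSec hk0 hu) := by
    intro J I
    refine MvPolynomial.funext fun x => ?_
    have hm := S.map_valPoly (Algebra.ofId ℚ ℚbar) uEG uk J I
    change map (algebraMap ℚ ℚbar) (val J I) = _ at hm
    rw [hm]
    change eval x (S.valPoly (fun κ => algebraMap ℚ ℚbar (uEG κ))
      (fun κ => algebraMap ℚ ℚbar (uk κ)) J I) = _
    rw [← funext hU, eval_map_valPoly U hD]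
    set w : sub (Finsupp.single Cv.O (k : ℤ)) G := ofDiff hu.nonneg (∑ t, x t • genSec hk0 hu t)
    have hw : (w : Cv.V k) = ∑ t, x t • wgen (Cv.b k) (fun κ => algebraMap ℚ ℚbar (uk κ)) t := by
      apply Subtype.ext
      show ((∑ t, x t • genSec hk0 hu t : riemannRochSpace _) : F) = _
      simp only [Submodule.coe_sum, SetLike.val_smul]
      rfl
    rw [← hw, hform, map_mul, eval_C, eval_nrmPoly, toDiff_ofDiff, hUE, hUG, map_mul]
    ring
  obtain ⟨J₀, hJ₀⟩ := Function.ne_iff.mp hE.ne_zero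
  obtain ⟨I₀, hI₀⟩ := Function.ne_iff.mp hGr.ne_zero
  simp only [Pi.zero_apply] at hJ₀ hI₀
  set q : MvPolynomial (S.GenIdx f k) ℚ := C (uE J₀ * uG I₀)⁻¹ * val J₀ I₀ with hq
  have hne : algebraMap ℚ ℚbar (uE J₀ * uG I₀) ≠ 0 := (map_ne_zero _).2 (mul_ne_zero hJ₀ hI₀)
  have hqmap : map (algebraMap ℚ ℚbar) q = C c * nrmPoly _ E (genSec hk0 hu) := by
    rw [hq, map_mul, map_C, hmap, ← mul_assoc, ← map_mul, map_inv₀,
      mul_left_comm, inv_mul_cancel₀ hne, mul_one]
  refine ⟨q, ⟨c, hc, hqmap⟩, ?_⟩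
  have hval : ∀ J I, val J I = C (uE J * uG I) * q := fun J I =>
    MvPolynomial.map_injective _ (algebraMap ℚ ℚbar).injective (by
      rw [hmap, map_mul (MvPolynomial.map (algebraMap ℚ ℚbar)), map_C, hqmap]
      simp only [map_mul]
      ring)
  have h1 := hC₀ uEG uk hEG.ne_zero hu.ne_zero
    (fun j => hEG.eval_coneEq (by push_cast; omega) b j) (fun j => hu.eval_coneEq hk0 b' j)
  have hvec : (fun j : Mon (S.GenIdx f k) e × (Fin e → Fin (S.l M)) × (Fin f → Fin (S.l (M + k))) =>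
      eval (Sum.elim uEG uk) (coeff j.1.1 (S.univVal j.2.1 j.2.2))) =
      fun j => coeffVec e q j.1 * (uE j.2.1 * uG j.2.2) := by
    funext j
    have hm := S.map_valPoly (aeval (Sum.elim uEG uk) :
      MvPolynomial ((Fin (e + f) → Fin (S.l (M + k))) ⊕ (Fin f → Fin (S.l k))) ℚ →ₐ[ℚ] ℚ)
      (fun κ => X (Sum.inl κ)) (fun κ => X (Sum.inr κ)) j.2.1 j.2.2
    rw [eval_eq_aeval', coeffVec]
    have h2 := congrArg (coeff j.1.1) hm
    rw [coeff_map] at h2
    refine h2.trans ?_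
    simp only [aeval_X, Sum.elim_inl, Sum.elim_inr]
    show coeff j.1.1 (val j.2.1 j.2.2) = _
    rw [hval, coeff_C_mul, mul_comm]
  have hq0 : coeffVec e q ≠ 0 := fun h => IsNrmRep.ne_zero hk1 ⟨c, hc, hqmap⟩
    (eq_zero_of_coeffVec (IsNrmRep.isHomogeneous hE.nonneg hE.deg ⟨c, hc, hqmap⟩) h)
  have hEG0 : (fun p : (Fin e → Fin (S.l M)) × (Fin f → Fin (S.l (M + k))) => uE p.1 * uG p.2) ≠ 0 :=
    Function.ne_iff.mpr ⟨(J₀, I₀), mul_ne_zero hJ₀ hI₀⟩
  rw [hvec, logHeight_fun_mul_eq hq0 hEG0, logHeight_fun_mul_eq hE.ne_zero hGr.ne_zero,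
    abs_sub_comm] at h1
  calc _ = |((1 : ℕ) : ℝ) * logHeight uEG + (e : ℝ) * logHeight uk
        - (logHeight (coeffVec e q) + (logHeight uE + logHeight uG))| := by congr 1; push_cast; ring
    _ ≤ C₀ := h1

end Model

end FLTAgent.MW
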