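import Mathlib.LinearAlgebra.Determinant
import Mathlib.Tactic.LinearCombination
import Mathlib.Tactic.FieldSimp
import Mathlib.LinearAlgebra.FiniteDimensional.Lemmas
import Mathlib.LinearAlgebra.Alternating.Basic
import Mathlib.LinearAlgebra.Matrix.Determinant.Basic

/-!
# Top alternating forms of a quotient

For a subspace `W` of codimension `e` the alternating forms of arity `e` killing `W` form a line;
their values on the vectors of a basis are the dual Plücker coordinates of `W`.
-/

noncomputable section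

open Module

namespace FLTAgent.MW

variable {K V : Type*} [Field K] [AddCommGroup V] [Module K V]

/-- An alternating form that vanishes as soon as an argument lies in `W`. -/
def Kills {ι : Type*} (U : V [⋀^ι]→ₗ[K] K) (W : Submodule K V) : Prop :=
  ∀ v i, v i ∈ W → U v = 0

theorem Kills.smul {ι : Type*} {U : V [⋀^ι]→ₗ[K] K} {W : Submodule K V} (hU : Kills U W) (c : K) :
    Kills (c • U) W := fun v i hv => by simp [hU v i hv]

theorem Kills.mono {ι : Type*} {U : V [⋀^ι]→ₗ[K] K} {W W' : Submodule K V} (hU : Kills U W)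
    (h : W' ≤ W) : Kills U W' := fun v i hv => hU v i (h hv)

theorem Kills.congr_mod {ι : Type*} [Finite ι] {U : V [⋀^ι]→ₗ[K] K} {W : Submodule K V}
    (hU : Kills U W) {v v' : ι → V} (h : ∀ i, v i - v' i ∈ W) : U v = U v' := by
  classical
  have : Fintype ι := Fintype.ofFinite ι
  suffices ∀ S : Finset ι, U (fun i => if i ∈ S then v' i else v i) = U v by
    simpa using (this Finset.univ).symm
  intro S
  induction S using Finset.induction with
  | empty => simp
  | insert k S hk ih =>
    set m : ι → V := fun i => if i ∈ S then v' i else v i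
    have hm : (fun i => if i ∈ insert k S then v' i else v i) = Function.update m k (v' k) := by
      funext i
      rcases eq_or_ne i k with rfl | hne
      · simp
      · simp [m, hne]
    have hmk : m = Function.update m k (v' k + (v k - v' k)) := by
      rw [add_sub_cancel, eq_comm, Function.update_eq_self_iff]
      simp [m, hk]
    rw [hm, ← ih]
    conv_rhs => rw [hmk, U.map_update_add,
      hU (Function.update m k (v k - v' k)) k (by simpa using h k), add_zero]

variable {e : ℕ} {W : Submodule K V}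

theorem Kills.eq_smul_det {U : V [⋀^Fin e]→ₗ[K] K} (hU : Kills U W)
    (q : Basis (Fin e) K (V ⧸ W)) : ∃ c, ∀ v, U v = c * q.det (W.mkQ ∘ v) := by
  classical
  obtain ⟨s, hs⟩ := W.mkQ.exists_rightInverse_of_surjective W.range_mkQ
  refine ⟨(U.compLinearMap s) q, fun v => ?_⟩
  have h : U v = (U.compLinearMap s) (W.mkQ ∘ v) := hU.congr_mod fun i => by
    rw [← Submodule.Quotient.mk_eq_zero W, Submodule.Quotient.mk_sub]
    exact sub_eq_zero.2 (LinearMap.congr_fun hs (W.mkQ (v i))).symm
  rw [h]
  exact AlternatingMap.congr_fun ((U.compLinearMap s).eq_smul_basis_det q) _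

theorem exists_kills (hW : FiniteDimensional K (V ⧸ W)) (he : finrank K (V ⧸ W) = e) :
    ∃ U : V [⋀^Fin e]→ₗ[K] K, U ≠ 0 ∧ Kills U W := by
  classical
  let q : Basis (Fin e) K (V ⧸ W) := finBasisOfFinrankEq K (V ⧸ W) he
  refine ⟨q.det.compLinearMap W.mkQ, fun h => ?_, fun v i hv => ?_⟩
  · choose v hv using fun i => W.mkQ_surjective (q i)
    have h1 := AlternatingMap.congr_fun h v
    rw [AlternatingMap.compLinearMap_apply, funext hv, q.det_self] at h1
    simp at h1
  · exact q.det.map_coord_zero i ((Submodule.Quotient.mk_eq_zero W).2 hv)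

theorem Kills.apply_ne_zero_iff {U : V [⋀^Fin e]→ₗ[K] K} (hU : Kills U W)
    (hW : FiniteDimensional K (V ⧸ W)) (he : finrank K (V ⧸ W) = e) (hU0 : U ≠ 0) (v : Fin e → V) :
    U v ≠ 0 ↔ LinearIndependent K (W.mkQ ∘ v) := by
  classical
  obtain ⟨c, hc⟩ := hU.eq_smul_det (finBasisOfFinrankEq K (V ⧸ W) he)
  set q := finBasisOfFinrankEq K (V ⧸ W) he
  have hc0 : c ≠ 0 := fun h => hU0 (AlternatingMap.ext fun w => by simp [hc, h])
  rw [hc, mul_ne_zero_iff, and_iff_right hc0, ← isUnit_iff_ne_zero, ← q.is_basis_iff_det]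
  refine ⟨And.left, fun h => ⟨h, h.span_eq_top_of_card_eq_finrank' (by simp [he])⟩⟩

theorem Kills.exists_eq_smul {U U' : V [⋀^Fin e]→ₗ[K] K} (hU : Kills U W) (hU' : Kills U' W)
    (hW : FiniteDimensional K (V ⧸ W)) (he : finrank K (V ⧸ W) = e) (hU0 : U ≠ 0) :
    ∃ c : K, U' = c • U := by
  classical
  obtain ⟨c, hc⟩ := hU.eq_smul_det (finBasisOfFinrankEq K (V ⧸ W) he)
  obtain ⟨c', hc'⟩ := hU'.eq_smul_det (finBasisOfFinrankEq K (V ⧸ W) he)
  have hc0 : c ≠ 0 := fun h => hU0 (AlternatingMap.ext fun w => by simp [hc, h])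
  exact ⟨c' / c, AlternatingMap.ext fun v => by simp [hc, hc', div_mul_eq_mul_div]; field_simp⟩

theorem Kills.le_of_ne_zero {U : V [⋀^Fin e]→ₗ[K] K} (hW : FiniteDimensional K (V ⧸ W))
    (he : finrank K (V ⧸ W) = e) (hU : Kills U W) (hU0 : U ≠ 0) {W' : Submodule K V}
    (hU' : Kills U W') : W' ≤ W := by
  classical
  intro x hx
  by_contra hxW
  have hx0 : W.mkQ x ≠ 0 := fun h => hxW ((Submodule.Quotient.mk_eq_zero W).1 h)
  have hli : LinearIndepOn K id ({W.mkQ x} : Set (V ⧸ W)) := LinearIndepOn.singleton (v := id) hx0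
  set b := Basis.extend hli
  have hmem : W.mkQ x ∈ hli.extend (Set.subset_univ _) := hli.subset_extend _ (by simp)
  have : Fintype (hli.extend (Set.subset_univ ({W.mkQ x} : Set (V ⧸ W)))) :=
    FiniteDimensional.fintypeBasisIndex b
  let r : Fin e ≃ hli.extend (Set.subset_univ ({W.mkQ x} : Set (V ⧸ W))) :=
    (Fintype.equivFinOfCardEq (by rw [← finrank_eq_card_basis b, he])).symm
  set i₀ := r.symm ⟨_, hmem⟩
  choose v hv using fun i => W.mkQ_surjective (r i : V ⧸ W)
  have hv' : W.mkQ ∘ Function.update v i₀ x = fun i => (r i : V ⧸ W) := by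
    funext i
    rcases eq_or_ne i i₀ with rfl | hne
    · simp only [Function.comp_apply, Function.update_self, i₀, Equiv.apply_symm_apply]
    · simp only [Function.comp_apply, Function.update_of_ne hne, hv]
  have h1 : U (Function.update v i₀ x) ≠ 0 := by
    rw [hU.apply_ne_zero_iff hW he hU0, hv']
    have : (fun i => (r i : V ⧸ W)) = b ∘ r := by funext i; exact (Basis.extend_apply_self hli (r i)).symm
    rw [this]
    exact b.linearIndependent.comp r r.injective
  exact h1 (hU' _ i₀ (by simpa using hx))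

section Generators

/-- The vector `∑ (-1)^l u(J without J_l) • b (J_l)`. -/
def wgen {R M ι : Type*} [CommRing R] [AddCommGroup M] [Module R M] (b : ι → M)
    (u : (Fin e → ι) → R) (J : Fin (e + 1) → ι) : M :=
  ∑ l : Fin (e + 1), ((-1) ^ (l : ℕ) * u (fun i => J (l.succAbove i))) • b (J l)

theorem sum_smul_mem_of_kills {U : V [⋀^Fin e]→ₗ[K] K} (hU : Kills U W)
    (hW : FiniteDimensional K (V ⧸ W)) (he : finrank K (V ⧸ W) = e) (x : Fin (e + 1) → V) :
    (∑ l : Fin (e + 1), ((-1) ^ (l : ℕ) * U (fun i => x (l.succAbove i))) • x l) ∈ W := by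
  classical
  obtain ⟨c, hc⟩ := hU.eq_smul_det (finBasisOfFinrankEq K (V ⧸ W) he)
  set q := finBasisOfFinrankEq K (V ⧸ W) he
  rw [← Submodule.Quotient.mk_eq_zero W, ← Submodule.mkQ_apply]
  refine q.ext_elem fun k => ?_
  simp only [map_sum, map_smul, map_zero, Finsupp.coe_finsetSum, Finset.sum_apply,
    Finsupp.coe_smul, Pi.smul_apply, Finsupp.coe_zero, Pi.zero_apply, smul_eq_mul]
  let M : Matrix (Fin (e + 1)) (Fin (e + 1)) K :=
    Matrix.of fun l m => Fin.cases (q.repr (W.mkQ (x l)) k) (fun m => q.repr (W.mkQ (x l)) m) m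
  have h0 : M.det = 0 := by
    refine Matrix.det_zero_of_column_eq (Fin.succ_ne_zero k).symm fun l => ?_
    simp [M]
  have hsub : ∀ l : Fin (e + 1), (M.submatrix l.succAbove Fin.succ).det =
      q.det (W.mkQ ∘ fun i => x (l.succAbove i)) := fun l => by
    rw [Basis.det_apply, ← Matrix.det_transpose]
    rfl
  rw [Matrix.det_succ_column_zero] at h0
  calc _ = ∑ l : Fin (e + 1), c * ((-1) ^ (l : ℕ) * M l 0 * (M.submatrix l.succAbove Fin.succ).det) :=
        Finset.sum_congr rfl fun l _ => by
          rw [hc, hsub]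
          simp only [M, Matrix.of_apply, Fin.cases_zero]
          ring
    _ = 0 := by rw [← Finset.mul_sum, h0, mul_zero]

theorem span_range_wgen {ι : Type*} (b : Basis ι K V) {U : V [⋀^Fin e]→ₗ[K] K} (hU : Kills U W)
    (hW : FiniteDimensional K (V ⧸ W)) (he : finrank K (V ⧸ W) = e) (hU0 : U ≠ 0) :
    Submodule.span K (Set.range (wgen b fun κ => U (fun i => b (κ i)))) = W := by
  classical
  set S := Submodule.span K (Set.range (wgen b fun κ => U (fun i => b (κ i)))) with hS
  have hle : S ≤ W := Submodule.span_le.2 (by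
    rintro _ ⟨J, rfl⟩
    exact sum_smul_mem_of_kills hU hW he fun l => b (J l))
  obtain ⟨κ, hκ⟩ : ∃ κ : Fin e → ι, U (fun i => b (κ i)) ≠ 0 := by
    by_contra! h
    exact hU0 (Basis.ext_alternating b fun v _ => by simpa using h v)
  set T := Submodule.span K (Set.range fun i => b (κ i)) with hT
  have hsup : ∀ x : V, x ∈ S ⊔ T := by
    intro x
    induction b.mem_span x using Submodule.span_induction with
    | zero => exact zero_mem _
    | add x y _ _ hx hy => exact add_mem hx hy
    | smul a x _ hx => exact Submodule.smul_mem _ a hx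
    | mem x hx =>
      obtain ⟨j, rfl⟩ := hx
      have hw : wgen b (fun κ => U (fun i => b (κ i))) (Fin.cons j κ) ∈ S :=
        Submodule.subset_span ⟨_, rfl⟩
      rw [wgen, Fin.sum_univ_succ] at hw
      simp only [Fin.val_zero, pow_zero, one_mul, Fin.cons_zero, Fin.succAbove_zero,
        Fin.cons_succ] at hw
      rw [← Submodule.smul_mem_iff _ hκ]
      have hT' : ∀ i : Fin e, b (κ i) ∈ T := fun i => Submodule.subset_span ⟨i, rfl⟩
      have := Submodule.sub_mem (S ⊔ T) (Submodule.mem_sup_left hw) (Submodule.mem_sup_right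
        (Submodule.sum_mem T fun i (_ : i ∈ Finset.univ) => Submodule.smul_mem T
          ((-1) ^ ((i.succ : Fin (e + 1)) : ℕ) * U (fun m => b ((Fin.cons j κ : Fin (e + 1) → ι)
            (i.succ.succAbove m)))) (hT' i)))
      simpa using this
  refine le_antisymm hle fun x hx => ?_
  obtain ⟨s, hs, t, ht, rfl⟩ := Submodule.mem_sup.1 (hsup x)
  obtain ⟨a, rfl⟩ := (Submodule.mem_span_range_iff_exists_fun K).1 ht
  have ht' : W.mkQ (∑ i, a i • b (κ i)) = 0 := by
    rw [Submodule.mkQ_apply, Submodule.Quotient.mk_eq_zero]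
    simpa using W.sub_mem hx (hle hs)
  have hli := (hU.apply_ne_zero_iff hW he hU0 _).1 hκ
  rw [Fintype.linearIndependent_iff] at hli
  have ha := hli a (by simpa [map_sum] using ht')
  simpa [ha] using hs

end Generators

section Block

theorem linearIndependent_mkQ_iff {ι : Type*} [Fintype ι] {W : Submodule K V} {v : ι → V} :
    LinearIndependent K (W.mkQ ∘ v) ↔ ∀ g : ι → K, (∑ i, g i • v i) ∈ W → ∀ i, g i = 0 := by
  rw [Fintype.linearIndependent_iff]
  refine forall_congr' fun g => ?_
  rw [← Submodule.Quotient.mk_eq_zero W, ← Submodule.mkQ_apply, map_sum]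
  simp [map_smul]

variable {a b : ℕ}

theorem append_update_right {α : Type*} (w : Fin a → α) (v : Fin b → α) [DecidableEq (Fin b)]
    [DecidableEq (Fin (a + b))] (i : Fin b) (x : α) :
    Fin.append w (Function.update v i x) = Function.update (Fin.append w v) (Fin.natAdd a i) x := by
  funext k
  induction k using Fin.addCases with
  | left j =>
    rw [Function.update_of_ne, Fin.append_left, Fin.append_left]
    intro h
    have := congrArg Fin.val h
    simp at this
    omega
  | right j =>
    rcases eq_or_ne j i with rfl | hne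
    · simp
    · rw [Function.update_of_ne (by simpa using hne), Fin.append_right, Fin.append_right,
        Function.update_of_ne hne]

theorem append_update_left {α : Type*} (w : Fin a → α) (v : Fin b → α) [DecidableEq (Fin a)]
    [DecidableEq (Fin (a + b))] (i : Fin a) (x : α) :
    Fin.append (Function.update w i x) v = Function.update (Fin.append w v) (Fin.castAdd b i) x := by
  funext k
  induction k using Fin.addCases with
  | right j =>
    rw [Function.update_of_ne, Fin.append_right, Fin.append_right]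
    intro h
    have := congrArg Fin.val h
    simp at this
    omega
  | left j =>
    rcases eq_or_ne j i with rfl | hne
    · simp
    · rw [Function.update_of_ne (by simpa using hne), Fin.append_left, Fin.append_left,
        Function.update_of_ne hne]

/-- Fix the first arguments. -/
def fixLeft (U : V [⋀^Fin (a + b)]→ₗ[K] K) (w : Fin a → V) : V [⋀^Fin b]→ₗ[K] K where
  toFun v := U (Fin.append w v)
  map_update_add' {_} v i x y := by
    classical
    simp only [append_update_right]
    exact U.map_update_add _ _ _ _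
  map_update_smul' {_} v i r x := by
    classical
    simp only [append_update_right]
    exact U.map_update_smul _ _ _ _
  map_eq_zero_of_eq' v i j h hij :=
    U.map_eq_zero_of_eq _ (i := Fin.natAdd a i) (j := Fin.natAdd a j) (by simpa using h)
      (by simpa using hij)

/-- Fix the last arguments and restrict the first ones to a subspace. -/
def fixRight (U : V [⋀^Fin (a + b)]→ₗ[K] K) (W₁ : Submodule K V) (v : Fin b → V) :
    W₁ [⋀^Fin a]→ₗ[K] K where
  toFun w := U (Fin.append (fun i => (w i : V)) v)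
  map_update_add' {_} w i x y := by
    classical
    simp only [Function.apply_update (fun _ => ((↑) : W₁ → V)), Submodule.coe_add,
      append_update_left]
    exact U.map_update_add _ _ _ _
  map_update_smul' {_} w i r x := by
    classical
    simp only [Function.apply_update (fun _ => ((↑) : W₁ → V)), SetLike.val_smul,
      append_update_left]
    exact U.map_update_smul _ _ _ _
  map_eq_zero_of_eq' w i j h hij :=
    U.map_eq_zero_of_eq _ (i := Fin.castAdd b i) (j := Fin.castAdd b j) (by
      simpa using congrArg Subtype.val h) (by simpa using hij)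

variable {W₂ W₁ : Submodule K V}

theorem linearIndependent_append (h21 : W₂ ≤ W₁) {w : Fin a → W₁} {v : Fin b → V}
    (hw : LinearIndependent K ((W₂.comap W₁.subtype).mkQ ∘ w))
    (hv : LinearIndependent K (W₁.mkQ ∘ v)) :
    LinearIndependent K (W₂.mkQ ∘ Fin.append (fun i => (w i : V)) v) := by
  rw [linearIndependent_mkQ_iff] at hw hv ⊢
  intro g hg
  simp only [Fin.sum_univ_add, Fin.append_left, Fin.append_right] at hg
  have hin : (∑ i, g (Fin.castAdd b i) • (w i : V)) ∈ W₁ :=
    sum_mem fun i _ => W₁.smul_mem _ (w i).2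
  have hv0 := hv (fun i => g (Fin.natAdd a i)) (by simpa using W₁.sub_mem (h21 hg) hin)
  simp only [hv0, zero_smul, Finset.sum_const_zero, add_zero] at hg
  have hw0 := hw (fun i => g (Fin.castAdd b i)) (by simpa using hg)
  exact Fin.addCases hw0 hv0

theorem exists_block_eq (h21 : W₂ ≤ W₁) {U : V [⋀^Fin (a + b)]→ₗ[K] K} (hU : Kills U W₂)
    (hW₂ : FiniteDimensional K (V ⧸ W₂)) (he₂ : finrank K (V ⧸ W₂) = a + b)
    (hW₁ : FiniteDimensional K (V ⧸ W₁)) (he₁ : finrank K (V ⧸ W₁) = b)
    (hW₁₂ : FiniteDimensional K (W₁ ⧸ W₂.comap W₁.subtype))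
    (he₁₂ : finrank K (W₁ ⧸ W₂.comap W₁.subtype) = a) (hU0 : U ≠ 0)
    {U₁ : V [⋀^Fin b]→ₗ[K] K} (hU₁ : Kills U₁ W₁) (hU₁0 : U₁ ≠ 0)
    {U₂ : W₁ [⋀^Fin a]→ₗ[K] K} (hU₂ : Kills U₂ (W₂.comap W₁.subtype)) (hU₂0 : U₂ ≠ 0) :
    ∃ c : K, c ≠ 0 ∧ ∀ (w : Fin a → W₁) (v : Fin b → V),
      U (Fin.append (fun i => (w i : V)) v) = c * U₂ w * U₁ v := by
  classical
  have hkill : ∀ w : Fin a → W₁, Kills (fixLeft U fun i => (w i : V)) W₁ := by
    intro w v i hvi
    show U (Fin.append _ v) = 0
    by_contra hne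
    have hli := (hU.apply_ne_zero_iff hW₂ he₂ hU0 _).1 hne
    rw [linearIndependent_mkQ_iff] at hli
    have hwli : LinearIndependent K ((W₂.comap W₁.subtype).mkQ ∘ w) := by
      rw [linearIndependent_mkQ_iff]
      intro g hg j
      simpa using hli (Fin.append g 0) (by simpa [Fin.sum_univ_add] using hg) (Fin.castAdd b j)
    have hspan := hwli.span_eq_top_of_card_eq_finrank' (by simp [he₁₂])
    have hmem : (W₂.comap W₁.subtype).mkQ ⟨v i, hvi⟩ ∈
        Submodule.span K (Set.range ((W₂.comap W₁.subtype).mkQ ∘ w)) := by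
      rw [hspan]; trivial
    obtain ⟨g, hg⟩ := (Submodule.mem_span_range_iff_exists_fun K).1 hmem
    replace hg : (W₂.comap W₁.subtype).mkQ (∑ j, g j • w j) =
        (W₂.comap W₁.subtype).mkQ ⟨v i, hvi⟩ := by
      simp only [map_sum, map_smul]
      simpa using hg
    rw [Submodule.mkQ_apply, Submodule.mkQ_apply, Submodule.Quotient.eq, Submodule.mem_comap] at hg
    have := hli (Fin.append g (-Pi.single i 1)) (by
      simpa [Fin.sum_univ_add, Pi.single_apply, ite_smul, sub_eq_add_neg] using hg) (Fin.natAdd a i)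
    simp at this
  obtain ⟨v₀, hv₀⟩ : ∃ v₀, U₁ v₀ ≠ 0 := by
    by_contra! h
    exact hU₁0 (AlternatingMap.ext h)
  obtain ⟨w₀, hw₀⟩ : ∃ w₀, U₂ w₀ ≠ 0 := by
    by_contra! h
    exact hU₂0 (AlternatingMap.ext h)
  have hkill' : Kills (fixRight U W₁ v₀) (W₂.comap W₁.subtype) := fun w i hw =>
    hU _ (Fin.castAdd b i) (by simpa using hw)
  obtain ⟨c, hc⟩ := hU₂.exists_eq_smul hkill' hW₁₂ he₁₂ hU₂0
  have hne : U (Fin.append (fun i => (w₀ i : V)) v₀) ≠ 0 :=
    (hU.apply_ne_zero_iff hW₂ he₂ hU0 _).2 (linearIndependent_append h21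
      ((hU₂.apply_ne_zero_iff hW₁₂ he₁₂ hU₂0 _).1 hw₀)
      ((hU₁.apply_ne_zero_iff hW₁ he₁ hU₁0 _).1 hv₀))
  have hc' : ∀ w : Fin a → W₁, U (Fin.append (fun i => (w i : V)) v₀) = c * U₂ w :=
    fun w => AlternatingMap.congr_fun hc w
  refine ⟨c / U₁ v₀, div_ne_zero (fun h => hne (by rw [hc', h, zero_mul])) hv₀, fun w v => ?_⟩
  obtain ⟨d, hd⟩ := hU₁.exists_eq_smul (hkill w) hW₁ he₁ hU₁0
  have h1 : ∀ v, U (Fin.append (fun i => (w i : V)) v) = d * U₁ v :=
    fun v => AlternatingMap.congr_fun hd v
  have h2 := h1 v₀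
  rw [hc'] at h2
  rw [h1]
  field_simp
  linear_combination (-U₁ v) * h2

end Block

end FLTAgent.MW
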