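import Fermat.Agent.MW.AddHeight

/-!
# Additivity of `plh (E + G) - plh E - plh G` in `E`
-/

noncomputable section

set_option maxSynthPendingDepth 3

open AlgebraicCurve Module MvPolynomial Height
open FLTAgent.FunctionField

namespace FLTAgent.MW

section PolyMul

variable {T : Type*} [Fintype T] [DecidableEq T]

/-- The form with given coefficient vector. -/
def ofVec {R : Type*} [CommRing R] (e : ℕ) (x : Mon T e → R) : MvPolynomial T R :=
  ∑ m : Mon T e, monomial m.1 (x m)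

theorem coeffVec_ofVec {R : Type*} [CommRing R] (e : ℕ) (x : Mon T e → R) :
    coeffVec e (ofVec e x) = x := by
  funext m
  simp [coeffVec, ofVec, coeff_sum, coeff_monomial]

theorem isHomogeneous_ofVec {R : Type*} [CommRing R] (e : ℕ) (x : Mon T e → R) :
    (ofVec e x).IsHomogeneous e := by
  refine IsHomogeneous.sum _ _ _ fun m _ => isHomogeneous_monomial _ ?_
  have h := (Finset.mem_finsuppAntidiag.1 m.2).1
  refine Eq.trans ?_ h
  exact Finset.sum_subset (Finset.subset_univ _) (fun x _ hx => by simpa using hx)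

theorem ofVec_coeffVec {R : Type*} [CommRing R] {e : ℕ} {P : MvPolynomial T R}
    (hP : P.IsHomogeneous e) : ofVec e (coeffVec e P) = P := by
  rw [← sub_eq_zero]
  refine eq_zero_of_coeffVec ((isHomogeneous_ofVec e _).sub hP) (funext fun m => ?_)
  have h := congrFun (coeffVec_ofVec e (coeffVec e P)) m
  simp only [coeffVec, coeff_sub, Pi.zero_apply, sub_eq_zero] at h ⊢
  exact h

theorem map_ofVec {R R' : Type*} [CommRing R] [CommRing R'] (φ : R →+* R') (e : ℕ)
    (x : Mon T e → R) : MvPolynomial.map φ (ofVec e x) = ofVec e (fun m => φ (x m)) := by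
  simp [ofVec, map_sum, map_monomial]

theorem IsBi.ofVec {ι κ : Type*} {a b e : ℕ} {x : Mon T e → MvPolynomial (ι ⊕ κ) ℚ}
    (hx : ∀ m, x m ∈ biForms ι κ a b) : IsBi a b (MW.ofVec e x) := by
  refine IsBi.sum _ fun m _ n => ?_
  rw [coeff_monomial]
  split_ifs
  · exact hx m
  · exact zero_mem _

/-- Heights of products of forms. -/
theorem exists_coeffVec_mul (e e' : ℕ) : ∃ C : ℝ, ∀ q q' : MvPolynomial T ℚ,
    q.IsHomogeneous e → q'.IsHomogeneous e' → q ≠ 0 → q' ≠ 0 →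
      |logHeight (coeffVec (e + e') (q * q')) - (logHeight (coeffVec e q) + logHeight (coeffVec e' q'))|
        ≤ C := by
  classical
  let P : MvPolynomial T (MvPolynomial (Mon T e ⊕ Mon T e') ℚ) :=
    ofVec e (fun m => X (Sum.inl m)) * ofVec e' (fun m => X (Sum.inr m))
  have hP : IsBi (1 + 0) (0 + 1) P :=
    (IsBi.ofVec fun m => X_inl_mem m).mul (IsBi.ofVec fun m => X_inr_mem m)
  have hmap : ∀ {A : Type} [CommRing A] [Algebra ℚ A] (x : Mon T e → A) (y : Mon T e' → A)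
      (m : T →₀ ℕ), aeval (Sum.elim x y) (coeff m P) = coeff m (ofVec e x * ofVec e' y) := by
    intro A _ _ x y m
    show (aeval (Sum.elim x y) : MvPolynomial (Mon T e ⊕ Mon T e') ℚ →ₐ[ℚ] A).toRingHom _ = _
    rw [← coeff_map, map_mul, map_ofVec, map_ofVec]
    congr <;> funext m <;> exact (aeval_X _ _).trans rfl
  obtain ⟨C₀, hC₀⟩ := exists_abs_logHeight_bieval_sub_le (η := Empty) (η' := Empty)
    (fun m : Mon T (e + e') => coeff m.1 P) (fun m => hP m.1)
    (d := fun _ => 0) (fun k => k.elim) (fun k => k.elim)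
    (d' := fun _ => 0) (fun k => k.elim) (fun k => k.elim) (by
      intro x y _ _ h
      have h1 : ofVec e x * ofVec e' y = 0 := by
        refine eq_zero_of_coeffVec ((isHomogeneous_ofVec e x).mul (isHomogeneous_ofVec e' y))
          (funext fun m => ?_)
        exact (hmap x y m.1).symm.trans (h m)
      rcases mul_eq_zero.1 h1 with h2 | h2
      · exact Or.inl (by rw [← coeffVec_ofVec e x, h2]; funext m; simp [coeffVec])
      · exact Or.inr (by rw [← coeffVec_ofVec e' y, h2]; funext m; simp [coeffVec]))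
  refine ⟨C₀, fun q q' hq hq' hq0 hq'0 => ?_⟩
  have h := hC₀ (coeffVec e q) (coeffVec e' q')
    (fun h => hq0 (eq_zero_of_coeffVec hq h)) (fun h => hq'0 (eq_zero_of_coeffVec hq' h))
    (fun k => k.elim) (fun k => k.elim)
  have hvec : (fun m : Mon T (e + e') => eval (Sum.elim (coeffVec e q) (coeffVec e' q')) (coeff m.1 P))
      = coeffVec (e + e') (q * q') := by
    funext m
    rw [eval_eq_aeval', hmap, ofVec_coeffVec hq, ofVec_coeffVec hq']
    rfl
  rw [hvec] at h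
  simpa using h

end PolyMul

namespace Model

local notation "ℚbar" => AlgebraicClosure ℚ

variable {S : Shape} {F : Type*} [Field F] [Algebra ℚbar F] [IsFunctionField ℚbar F]

/-- `B(E, G) = plh (E + G) - plh E - plh G`. -/
def pairB (Cv : Model S ℚbar F) (N : ℕ) (E G : Divisor ℚbar F) : ℝ :=
  Cv.plh N (E + G) - Cv.plh N E - Cv.plh N G

/-- A divisor with rational dual Plücker vectors in every large degree. -/
def IsRat (Cv : Model S ℚbar F) (G : Divisor ℚbar F) : Prop :=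
  0 ≤ G ∧ ∀ (M e : ℕ), Divisor.degree G = e → rrBound ℚbar F + e ≤ M →
    ∃ u : (Fin e → Fin (S.l M)) → ℚ, Cv.IsRep M G u

theorem plh_zero (Cv : Model S ℚbar F) {M : ℕ} (hM : rrBound ℚbar F ≤ M)
    (h0 : Cv.IsRat 0) : Cv.plh M 0 = 0 := by
  obtain ⟨u, hu⟩ := h0.2 M 0 (by simp) (by simpa using hM)
  rw [hu.plh_eq (by simpa using hM)]
  exact logHeight_eq_zero_of_subsingleton u

theorem exists_plh_add (Cv : Model S ℚbar F) (n f M k : ℕ)
    (hk : 3 * rrBound ℚbar F + f + 2 ≤ k) (hk1 : rrBound ℚbar F + f + 1 ≤ k)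
    (hM : 3 * rrBound ℚbar F + (n + f : ℕ) + 2 ≤ M) :
    ∃ C : ℝ, ∀ (E G : Divisor ℚbar F) (uk : (Fin f → Fin (S.l k)) → ℚ)
      (hk0 : rrBound ℚbar F + f ≤ k) (hu : Cv.IsRep k G uk), Cv.IsRat E → Cv.IsRat G →
      Cv.IsRat (E + G) → Divisor.degree E = n → Divisor.degree G = f →
      ∃ q, IsNrmRep hk0 hu E q ∧ q.IsHomogeneous n ∧ q ≠ 0 ∧
        |Cv.plh (M + k) (E + G) + n * logHeight uk
          - (logHeight (coeffVec n q) + Cv.plh M E + Cv.plh (M + k) G)| ≤ C := by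
  have hr : 0 ≤ rrBound ℚbar F := (Int.natCast_nonneg _).trans (le_max_right _ _)
  obtain ⟨C, hC⟩ := exists_add_height Cv n f M k hk hk1 hM
  push_cast at hM
  refine ⟨C, fun E G uk hk0 hu hE hG hEG hEd hGd => ?_⟩
  obtain ⟨uE, huE⟩ := hE.2 M n hEd (by omega)
  obtain ⟨uG, huG⟩ := hG.2 (M + k) f hGd (by push_cast; omega)
  obtain ⟨uEG, huEG⟩ := hEG.2 (M + k) (n + f) (by rw [map_add, hEd, hGd]; push_cast; ring)
    (by push_cast; omega)
  obtain ⟨q, hq, hb⟩ := hC E G uE uG uk uEG hk0 huE huG hu huEG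
  refine ⟨q, hq, hq.isHomogeneous hE.1 hEd, hq.ne_zero hk1, ?_⟩
  rwa [huEG.plh_eq (by push_cast; omega), huE.plh_eq (by omega),
    huG.plh_eq (by push_cast; omega)]

/-- The degree-corrected height is additive. -/
theorem exists_plh_add_add (Cv : Model S ℚbar F) (e e' f M k : ℕ)
    (hk : 3 * rrBound ℚbar F + f + 2 ≤ k) (hk1 : rrBound ℚbar F + f + 1 ≤ k)
    (hM : 3 * rrBound ℚbar F + (e + e' + f : ℕ) + 2 ≤ M) :
    ∃ C : ℝ, ∀ E E' G : Divisor ℚbar F, Cv.IsRat E → Cv.IsRat E' → Cv.IsRat G →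
      Cv.IsRat (E + E') → Cv.IsRat (E + G) → Cv.IsRat (E' + G) → Cv.IsRat (E + E' + G) →
      Divisor.degree E = e → Divisor.degree E' = e' → Divisor.degree G = f →
      |(Cv.plh (M + k) (E + E' + G) - Cv.plh M (E + E') - Cv.plh (M + k) G)
        - (Cv.plh (M + k) (E + G) - Cv.plh M E - Cv.plh (M + k) G)
        - (Cv.plh (M + k) (E' + G) - Cv.plh M E' - Cv.plh (M + k) G)| ≤ C := by
  classical
  have hr : 0 ≤ rrBound ℚbar F := (Int.natCast_nonneg _).trans (le_max_right _ _)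
  push_cast at hM
  obtain ⟨C₁, h₁⟩ := exists_plh_add Cv (e + e') f M k hk hk1 (by push_cast; omega)
  obtain ⟨C₂, h₂⟩ := exists_plh_add Cv e f M k hk hk1 (by push_cast; omega)
  obtain ⟨C₃, h₃⟩ := exists_plh_add Cv e' f M k hk hk1 (by push_cast; omega)
  obtain ⟨C₄, h₄⟩ := exists_coeffVec_mul (T := S.GenIdx f k) e e'
  refine ⟨C₁ + C₂ + C₃ + C₄, fun E E' G hE hE' hG hEE hEG hE'G hall hEd hE'd hGd => ?_⟩
  have hk0 : rrBound ℚbar F + f ≤ k := by omega
  obtain ⟨uk, hu⟩ := hG.2 k f hGd hk0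
  obtain ⟨q, hq, -, hq0, b1⟩ := h₁ (E + E') G uk hk0 hu hEE hG hall
    (by rw [map_add, hEd, hE'd]; push_cast; ring) hGd
  obtain ⟨q₂, hq₂, hh₂, hq₂0, b2⟩ := h₂ E G uk hk0 hu hE hG hEG hEd hGd
  obtain ⟨q₃, hq₃, hh₃, hq₃0, b3⟩ := h₃ E' G uk hk0 hu hE' hG hE'G hE'd hGd
  obtain ⟨r, hr0, rfl⟩ := (hq₂.mul hE.1 hE'.1 hq₃).exists_eq_smul hk1 hq
  have b4 := h₄ q₂ q₃ hh₂ hh₃ hq₂0 hq₃0
  rw [show coeffVec (e + e') (r • (q₂ * q₃)) = r • coeffVec (e + e') (q₂ * q₃) from
    funext fun m => by simp [coeffVec], Height.logHeight_smul_eq_logHeight _ hr0] at b1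
  rw [abs_le] at *
  push_cast at b1
  constructor <;> linarith [b1.1, b1.2, b2.1, b2.2, b3.1, b3.2, b4.1, b4.2]

/-- `B` is additive in the first argument up to a bounded error. -/
theorem exists_pairB_add (Cv : Model S ℚbar F) (h0 : Cv.IsRat 0) (e e' f M k : ℕ)
    (hk : 3 * rrBound ℚbar F + f + 2 ≤ k) (hk1 : rrBound ℚbar F + f + 1 ≤ k)
    (hM : 3 * rrBound ℚbar F + (e + e' + f : ℕ) + 2 ≤ M) :
    ∃ C : ℝ, ∀ E E' G : Divisor ℚbar F, Cv.IsRat E → Cv.IsRat E' → Cv.IsRat G →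
      Cv.IsRat (E + E') → Cv.IsRat (E + G) → Cv.IsRat (E' + G) → Cv.IsRat (E + E' + G) →
      Divisor.degree E = e → Divisor.degree E' = e' → Divisor.degree G = f →
      |Cv.pairB (M + k) (E + E') G - Cv.pairB (M + k) E G - Cv.pairB (M + k) E' G| ≤ C := by
  have hr : 0 ≤ rrBound ℚbar F := (Int.natCast_nonneg _).trans (le_max_right _ _)
  obtain ⟨C₁, h₁⟩ := exists_plh_add_add Cv e e' f M k hk hk1 hM
  obtain ⟨C₂, h₂⟩ := exists_plh_add_add Cv e e' 0 M k (by push_cast; omega) (by push_cast; omega)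
    (by push_cast at hM ⊢; omega)
  refine ⟨C₁ + C₂, fun E E' G hE hE' hG hEE hEG hE'G hall hEd hE'd hGd => ?_⟩
  have b1 := h₁ E E' G hE hE' hG hEE hEG hE'G hall hEd hE'd hGd
  have b2 := h₂ E E' 0 hE hE' h0 hEE (by simpa using hE) (by simpa using hE')
    (by simpa using hEE) hEd hE'd (by simp)
  rw [plh_zero Cv (by push_cast; omega) h0, add_zero, add_zero, add_zero] at b2
  simp only [pairB]
  rw [abs_le] at *
  constructor <;> linarith [b1.1, b1.2, b2.1, b2.2]

end Model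

end FLTAgent.MW
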