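import Mathlib.LinearAlgebra.Matrix.Rank
import Mathlib.LinearAlgebra.Matrix.NonsingularInverse

/-!
# Minors detect the dimension of a span
-/

open Module Matrix

namespace FLTAgent.MW

variable {K ι : Type*} [Field K] [Fintype ι]

theorem exists_det_ne_zero_of_linearIndependent {r : ℕ} {A : Fin r → ι → K}
    (hA : LinearIndependent K A) : ∃ col : Fin r → ι, (Matrix.of fun i j => A i (col j)).det ≠ 0 := by
  classical
  let M : Matrix (Fin r) ι K := Matrix.of A
  have h1 : finrank K (Submodule.span K (Set.range M.row)) = r := by
    rw [show M.row = A from rfl, finrank_span_eq_card hA, Fintype.card_fin]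
  rw [← rank_eq_finrank_span_row, rank_eq_finrank_span_cols] at h1
  obtain ⟨f, hf, -, hli⟩ :=
    Submodule.exists_fun_fin_finrank_span_eq K (Set.range M.col)
  choose col hcol using hf
  refine ⟨fun j => col (Fin.cast h1.symm j), ?_⟩
  rw [← isUnit_iff_ne_zero, ← Matrix.isUnit_iff_isUnit_det, ← linearIndependent_cols_iff_isUnit]
  have : (Matrix.of fun i j => A i (col (Fin.cast h1.symm j))).col = f ∘ Fin.cast h1.symm := by
    funext j
    exact hcol (Fin.cast h1.symm j)
  rw [this]
  exact hli.comp _ (Fin.cast_injective _)

/-- If all minors of size `r` vanish then the span has dimension less than `r`. -/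
theorem finrank_span_lt_of_minors {σ : Type*} (A : σ → ι → K) {r : ℕ}
    (h : ∀ (row : Fin r → σ) (col : Fin r → ι), (Matrix.of fun i j => A (row i) (col j)).det = 0) :
    finrank K (Submodule.span K (Set.range A)) < r := by
  classical
  by_contra! hle
  obtain ⟨f, hf, -, hli⟩ := Submodule.exists_fun_fin_finrank_span_eq K (Set.range A)
  choose row hrow using fun i : Fin r => hf (Fin.castLE hle i)
  have hli' : LinearIndependent K fun i => A (row i) := by
    rw [funext hrow]
    exact hli.comp _ (Fin.castLE_injective hle)
  obtain ⟨col, hcol⟩ := exists_det_ne_zero_of_linearIndependent hli'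
  exact hcol (h row col)

theorem det_minor_eq_zero_of_finrank_span_lt {σ : Type*} (A : σ → ι → K) {r : ℕ}
    (h : finrank K (Submodule.span K (Set.range A)) < r) (row : Fin r → σ) (col : Fin r → ι) :
    (Matrix.of fun i j => A (row i) (col j)).det = 0 := by
  classical
  by_contra hne
  have hli : LinearIndependent K fun i => A (row i) := by
    refine LinearIndependent.of_comp (LinearMap.funLeft K K col) ?_
    exact Matrix.linearIndependent_rows_of_det_ne_zero hne
  have h1 := finrank_span_eq_card hli
  have h2 : finrank K (Submodule.span K (Set.range fun i => A (row i))) ≤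
      finrank K (Submodule.span K (Set.range A)) :=
    Submodule.finrank_mono (Submodule.span_mono (Set.range_comp_subset_range row A))
  rw [Fintype.card_fin] at h1
  omega

end FLTAgent.MW
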