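import Fermat.Agent.FunctionField.RiemannRoch
import Mathlib.Algebra.Module.Submodule.Union
import Mathlib.Algebra.Algebra.Operations

/-!
# Products with a large Riemann–Roch space

A subspace `W` of `L(D)` multiplied with a large `L(B)` fills `L(D - G + B)` for the base
divisor `G` of `W`.
-/

noncomputable section

open AlgebraicCurve Module
open FLTAgent.FunctionField

namespace FLTAgent.MW

variable (K F : Type*) [Field K] [Field F] [Algebra K F] [IsFunctionField K F] [IsAlgClosed K]

/-- From this degree on, Riemann–Roch has no correction term. -/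
def rrBound : ℤ := max (exists_forall_finrank_H1_eq_zero (K := K) (F := F)).choose (genusFF K F)

variable {K F}

theorem ell_eq {D : Divisor K F} (h : rrBound K F ≤ Divisor.degree D) :
    ell D = Divisor.degree D + 1 - genusFF K F := by
  have h0 := (exists_forall_finrank_H1_eq_zero (K := K) (F := F)).choose_spec D
    ((le_max_left _ _).trans h)
  have := riemann_roch_isAlgClosed D
  omega

theorem finrank_eq {D : Divisor K F} (h : rrBound K F ≤ Divisor.degree D) :
    (finrank K (riemannRochSpace D) : ℤ) = Divisor.degree D + 1 - genusFF K F := ell_eq h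

theorem degree_eq_sum_apply (D : Divisor K F) : Divisor.degree D = D.sum fun _ n => n := by
  induction D using Finsupp.induction with
  | zero => simp
  | single_add v n D hv _ ih =>
    rw [map_add, Finsupp.sum_add_index' (fun _ => rfl) (fun _ _ _ => rfl), ih,
      Divisor.degree_single, deg_eq_one, Nat.cast_one, mul_one, Finsupp.sum_single_index rfl]

theorem ell_le_of_degree_lt {D : Divisor K F} (h : Divisor.degree D < rrBound K F) :
    ell D ≤ rrBound K F + 1 := by
  obtain ⟨O⟩ := exists_place (K := K) (F := F)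
  set k : ℤ := rrBound K F - Divisor.degree D
  have hle : D ≤ D + Finsupp.single O k :=
    le_add_of_nonneg_right (Finsupp.single_nonneg.2 (by omega))
  have hdeg : Divisor.degree (D + Finsupp.single O k) = rrBound K F := by
    rw [map_add, Divisor.degree_single, deg_eq_one]; simp [k]
  have h1 := ell_mono hle
  rw [ell_eq hdeg.ge, hdeg] at h1
  omega

omit [IsFunctionField K F] [IsAlgClosed K] in
theorem mem_L_iff {D : Divisor K F} {f : F} (hf : f ≠ 0) :
    f ∈ riemannRochSpace D ↔ ∀ R, 0 ≤ R.ord f + D R := by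
  rw [mem_riemannRochSpace]
  refine forall_congr' fun R => ?_
  rw [ordGe_iff_of_ne_zero hf]
  omega

-- The base divisor of a nonzero subspace of `L(D)`.
omit [IsAlgClosed K] in
theorem exists_baseDivisor {D : Divisor K F} {W : Submodule K F} (hW : W ≤ riemannRochSpace D)
    (hW0 : W ≠ ⊥) : ∃ G : Divisor K F, 0 ≤ G ∧ W ≤ riemannRochSpace (D - G) ∧
      ∀ R, ∃ f ∈ W, f ≠ 0 ∧ R.ord f + (D - G) R = 0 := by
  classical
  obtain ⟨s, hs, hs0⟩ := W.exists_mem_ne_zero_of_ne_bot hW0
  let S : Place K F → Set ℕ := fun R => {n | ∃ f ∈ W, f ≠ 0 ∧ R.ord f + D R = n}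
  have hnn : ∀ {f}, f ∈ W → f ≠ 0 → ∀ R, 0 ≤ R.ord f + D R := fun hf hf0 =>
    (mem_L_iff hf0).1 (hW hf)
  have hS : ∀ R, (S R).Nonempty := fun R =>
    ⟨(R.ord s + D R).toNat, s, hs, hs0, by have := hnn hs hs0 R; omega⟩
  set g : Place K F → ℤ := fun R => (sInf (S R) : ℕ) with hg
  have hsupp : ∀ R, g R ≠ 0 → R ∈ (divisorOf s + D).support := fun R hR => by
    rw [Finsupp.mem_support_iff, Finsupp.add_apply, divisorOf_apply]
    intro h0
    have : sInf (S R) ≤ 0 := Nat.sInf_le ⟨s, hs, hs0, by simpa using h0⟩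
    exact hR (by simp only [hg]; omega)
  refine ⟨Finsupp.onFinset _ g hsupp, fun R => by simp [hg], fun f hf => ?_, fun R => ?_⟩
  · rcases eq_or_ne f 0 with rfl | hf0
    · exact zero_mem _
    refine (mem_L_iff hf0).2 fun R => ?_
    have h1 : sInf (S R) ≤ (R.ord f + D R).toNat :=
      Nat.sInf_le ⟨f, hf, hf0, by have := hnn hf hf0 R; omega⟩
    have := hnn hf hf0 R
    simp only [Finsupp.sub_apply, Finsupp.onFinset_apply, hg]
    omega
  · obtain ⟨f, hf, hf0, hord⟩ := Nat.sInf_mem (hS R)
    refine ⟨f, hf, hf0, ?_⟩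
    simp only [Finsupp.sub_apply, Finsupp.onFinset_apply, hg]
    omega

omit [IsFunctionField K F] [IsAlgClosed K] in
theorem mul_le_L {A B : Divisor K F} :
    riemannRochSpace A * riemannRochSpace B ≤ riemannRochSpace (A + B) := by
  refine Submodule.mul_le.2 fun f hf h hh => mem_riemannRochSpace.2 fun R => ?_
  have := (mem_riemannRochSpace.1 hf R).mul (mem_riemannRochSpace.1 hh R)
  simpa [add_comm] using this

/-- A subspace without base point times a large space is everything. -/
theorem mul_L_eq_of_free {D : Divisor K F} {W : Submodule K F} (hW : W ≤ riemannRochSpace D)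
    (hfree : ∀ R, ∃ f ∈ W, f ≠ 0 ∧ R.ord f + D R = 0) {B : Divisor K F}
    (hB : rrBound K F + Divisor.degree D ≤ Divisor.degree B) :
    W * riemannRochSpace B = riemannRochSpace (D + B) := by
  classical
  refine le_antisymm ((mul_le_mul_left hW _).trans mul_le_L) ?_
  obtain ⟨O⟩ := exists_place (K := K) (F := F)
  obtain ⟨s, hs, hs0, -⟩ := hfree O
  have hsD := (mem_L_iff hs0).1 (hW hs)
  -- a second element without common zero
  set T := {R : Place K F // R ∈ (divisorOf s + D).support}
  let V : T → Submodule K W := fun R =>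
    (riemannRochSpace (D - Finsupp.single R.1 1)).comap W.subtype
  obtain ⟨⟨t, ht⟩, htV⟩ : ∃ t : W, ∀ R : T, t ∉ V R := by
    refine Submodule.exists_forall_notMem_of_forall_ne_top V fun R htop => ?_
    obtain ⟨f, hf, hf0, hord⟩ := hfree R.1
    have hfV : (⟨f, hf⟩ : W) ∈ V R := by rw [htop]; trivial
    have h2 := (mem_L_iff hf0).1 hfV R.1
    simp only [Finsupp.sub_apply, Finsupp.single_eq_same] at h2
    omega
  have ht0 : ∀ R : T, t ≠ 0 := fun R h => htV R (by simp [V, h])
  have hdisj : ∀ R : Place K F, R.ord s + D R ≠ 0 → t ≠ 0 ∧ R.ord t + D R ≤ 0 := by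
    intro R hR
    have hRT : R ∈ (divisorOf s + D).support := by simpa [Finsupp.mem_support_iff] using hR
    refine ⟨ht0 ⟨R, hRT⟩, ?_⟩
    by_contra hlt
    refine htV ⟨R, hRT⟩ ((mem_L_iff (ht0 ⟨R, hRT⟩)).2 fun S => ?_)
    have := (mem_L_iff (ht0 ⟨R, hRT⟩)).1 (hW ht) S
    rcases eq_or_ne S R with rfl | hne
    · simp only [Finsupp.sub_apply, Finsupp.single_eq_same]; omega
    · simpa [Finsupp.single_eq_of_ne hne] using this
  have hdegD : 0 ≤ Divisor.degree D := by
    have h1 := degree_nonneg (E := divisorOf s + D) (fun R => by simpa using hsD R)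
    rwa [map_add, degree_divisorOf, zero_add] at h1
  -- if `s` has no zeros relative to `D`, it suffices alone
  by_cases hsupp : (divisorOf s + D).support = ∅
  · intro f hf
    rcases eq_or_ne f 0 with rfl | hf0
    · exact zero_mem _
    rw [show f = s * (s⁻¹ * f) by rw [mul_inv_cancel_left₀ hs0]]
    refine Submodule.mul_mem_mul hs ((mem_L_iff (mul_ne_zero (inv_ne_zero hs0) hf0)).2 fun R => ?_)
    have h0 : R.ord s + D R = 0 := by
      have := Finsupp.notMem_support_iff.1 (by simp [hsupp] : R ∉ (divisorOf s + D).support)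
      simpa using this
    have := (mem_L_iff hf0).1 hf R
    rw [R.ord_mul (inv_ne_zero hs0) hf0, R.ord_inv]
    simp only [Finsupp.add_apply] at this
    omega
  obtain ⟨R₀, hR₀⟩ := Finset.nonempty_iff_ne_empty.2 hsupp
  have ht0' : t ≠ 0 := ht0 ⟨R₀, hR₀⟩
  have htD := (mem_L_iff ht0').1 (hW ht)
  -- the map `(φ, ψ) ↦ s φ + t ψ`
  let Φ : riemannRochSpace B × riemannRochSpace B →ₗ[K] F :=
    ((LinearMap.mulLeft K s).comp (riemannRochSpace B).subtype).coprod
      ((LinearMap.mulLeft K t).comp (riemannRochSpace B).subtype)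
  have hrange : LinearMap.range Φ ≤ W * riemannRochSpace B := by
    rintro _ ⟨⟨φ, ψ⟩, rfl⟩
    exact add_mem (Submodule.mul_mem_mul hs φ.2) (Submodule.mul_mem_mul ht ψ.2)
  have hup : W * riemannRochSpace B ≤ riemannRochSpace (D + B) :=
    (mul_le_mul_left hW _).trans mul_le_L
  set Et := divisorOf t + D with hEt
  let p : LinearMap.ker Φ →ₗ[K] riemannRochSpace (B - Et) :=
    LinearMap.codRestrict _ ((riemannRochSpace B).subtype.comp
      ((LinearMap.fst K _ _).comp (LinearMap.ker Φ).subtype)) (by
      rintro ⟨⟨φ, ψ⟩, hk⟩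
      show (φ : F) ∈ _
      rcases eq_or_ne (φ : F) 0 with h0 | h0
      · rw [h0]; exact zero_mem _
      have hrel : s * φ = -(t * ψ) := eq_neg_of_add_eq_zero_left hk
      have hψ0 : (ψ : F) ≠ 0 := fun h => by
        rw [h, mul_zero, neg_zero] at hrel
        exact mul_ne_zero hs0 h0 hrel
      refine (mem_L_iff h0).2 fun R => ?_
      have h1 := (mem_L_iff h0).1 φ.2 R
      have h2 := (mem_L_iff hψ0).1 ψ.2 R
      have h3 := congrArg R.ord hrel
      rw [ord_neg, R.ord_mul hs0 h0, R.ord_mul ht0' hψ0] at h3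
      simp only [hEt, Finsupp.sub_apply, Finsupp.add_apply, divisorOf_apply]
      by_cases hR : R.ord s + D R = 0
      · omega
      · have := (hdisj R hR).2
        have := htD R
        omega)
  have hp : Function.Injective p := by
    rw [injective_iff_map_eq_zero]
    rintro ⟨⟨φ, ψ⟩, hk⟩ h
    have hφ : (φ : F) = 0 := congrArg Subtype.val h
    have hψ : t * (ψ : F) = 0 := by
      have : s * (φ : F) + t * ψ = 0 := hk
      rwa [hφ, mul_zero, zero_add] at this
    exact Subtype.ext (Prod.ext (Subtype.ext hφ) (Subtype.ext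
      ((mul_eq_zero.1 hψ).resolve_left ht0')))
  have h1 := Φ.finrank_range_add_finrank_ker
  have h2 := LinearMap.finrank_le_finrank_of_injective hp
  have hEtdeg : Divisor.degree Et = Divisor.degree D := by
    rw [hEt, map_add, degree_divisorOf, zero_add]
  have h3 := finrank_eq (D := B - Et) (by rw [map_sub, hEtdeg]; omega)
  have h4 := finrank_eq (D := B) (by omega)
  have h5 := finrank_eq (D := D + B) (by rw [map_add]; omega)
  rw [map_sub, hEtdeg] at h3
  rw [map_add] at h5
  rw [Module.finrank_prod] at h1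
  have h6 : finrank K (riemannRochSpace (D + B)) ≤ finrank K (LinearMap.range Φ) := by omega
  rw [← Submodule.eq_of_le_of_finrank_le (hrange.trans hup) h6]
  exact hrange

/-- A subspace of `L(D)` whose product with `L(B)` has small dimension is a space `L(D - G)`. -/
theorem exists_eq_L_sub {D B : Divisor K F} {W : Submodule K F} (hW : W ≤ riemannRochSpace D)
    (e : ℕ) (hWdim : (finrank K W : ℤ) + e = finrank K (riemannRochSpace D))
    (hD : 3 * rrBound K F + e + 2 ≤ Divisor.degree D)
    (hB : rrBound K F + Divisor.degree D ≤ Divisor.degree B)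
    (hWB : (finrank K (W * riemannRochSpace B : Submodule K F) : ℤ) + e ≤
      finrank K (riemannRochSpace (D + B))) :
    ∃ G : Divisor K F, 0 ≤ G ∧ Divisor.degree G = e ∧ W = riemannRochSpace (D - G) := by
  have h0 : 0 ≤ rrBound K F := (Int.natCast_nonneg _).trans (le_max_right _ _)
  have hg : (genusFF K F : ℤ) ≤ rrBound K F := le_max_right _ _
  have hDdim := finrank_eq (D := D) (by omega)
  have hW0 : W ≠ ⊥ := fun h => by rw [h, finrank_bot] at hWdim; omega
  obtain ⟨G, hG, hWG, hfree⟩ := exists_baseDivisor hW hW0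
  have hle : finrank K W ≤ finrank K (riemannRochSpace (D - G)) := Submodule.finrank_mono hWG
  have hdeg : rrBound K F ≤ Divisor.degree (D - G) := by
    by_contra hlt
    have := ell_le_of_degree_lt (D := D - G) (by omega)
    rw [ell] at this
    omega
  have hDG := finrank_eq hdeg
  rw [map_sub] at hDG
  have hGnn := degree_nonneg hG
  have hmul := mul_L_eq_of_free hWG hfree (B := B) (by rw [map_sub]; omega)
  rw [hmul] at hWB
  rw [finrank_eq (by rw [map_add, map_sub]; omega), finrank_eq (by rw [map_add]; omega)] at hWB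
  simp only [map_add, map_sub] at hWB
  refine ⟨G, hG, by omega, Submodule.eq_of_le_of_finrank_le hWG (by omega)⟩

end FLTAgent.MW
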