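import Fermat.Agent.MW.Coord
import Fermat.Agent.MW.Minors
import Fermat.Agent.MW.Pencil
import Mathlib.RingTheory.MvPolynomial.Homogeneous
import Mathlib.Algebra.Algebra.Rat

/-!
# The cone of effective divisors of given degree

With bases of the spaces `L(mO)` having rational structure constants, the dual Plücker arrays of
the spaces `L(MO - G)`, `G` effective of degree `e`, are exactly the nonzero common zeros of
explicit forms with rational coefficients.
-/

noncomputable section

open AlgebraicCurve Module MvPolynomial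
open FLTAgent.FunctionField

namespace FLTAgent.MW

/-- Dimensions and structure constants of the spaces `L(mO)`. -/
structure Shape where
  /-- the dimension of `L(mO)` -/
  l : ℕ → ℕ
  /-- structure constants of the multiplication -/
  c : ∀ m n : ℕ, Fin (l m) → Fin (l n) → Fin (l (m + n)) → ℚ

namespace Shape

variable (S : Shape) {R T : Type*} [CommRing R] [Algebra ℚ R] [CommRing T] [Algebra ℚ T]

/-- Coordinates of a product. -/
def mulCoord {m n : ℕ} (x : Fin (S.l m) → R) (y : Fin (S.l n) → R) (k : Fin (S.l (m + n))) : R :=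
  ∑ i, ∑ j, algebraMap ℚ R (S.c m n i j k) * (x i * y j)

theorem map_mulCoord (φ : R →ₐ[ℚ] T) {m n : ℕ} (x : Fin (S.l m) → R) (y : Fin (S.l n) → R)
    (k : Fin (S.l (m + n))) : φ (S.mulCoord x y k) = S.mulCoord (φ ∘ x) (φ ∘ y) k := by
  simp [mulCoord, map_sum]

/-- The products of the generators with a basis of `L(bO)`. -/
def mulRow {e M : ℕ} (b : ℕ) (u : (Fin e → Fin (S.l M)) → R)
    (q : (Fin (e + 1) → Fin (S.l M)) × Fin (S.l b)) : Fin (S.l (M + b)) → R :=
  fun k => S.mulCoord (wgen (fun j => (Pi.single j 1 : Fin (S.l M) → R)) u q.1) (Pi.single q.2 1) k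

theorem map_mulRow (φ : R →ₐ[ℚ] T) {e M : ℕ} (b : ℕ) (u : (Fin e → Fin (S.l M)) → R)
    (q : (Fin (e + 1) → Fin (S.l M)) × Fin (S.l b)) (k : Fin (S.l (M + b))) :
    φ (S.mulRow b u q k) = S.mulRow b (fun κ => φ (u κ)) q k := by
  rw [mulRow, mulRow, S.map_mulCoord]
  congr 1
  · funext i; exact map_wgen_single φ.toRingHom u q.1 i
  · funext i; simp [Pi.single_apply, apply_ite φ]

/-- The defining conditions of the cone. -/
def InCone {e M : ℕ} (b : ℕ) (u : (Fin e → Fin (S.l M)) → R) : Prop :=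
  IsAlt u ∧ (∀ J κ i, plucker u J κ i = 0) ∧
    ∀ (row : Fin (S.l (M + b) + 1 - e) → (Fin (e + 1) → Fin (S.l M)) × Fin (S.l b))
      (col : Fin (S.l (M + b) + 1 - e) → Fin (S.l (M + b))),
      (Matrix.of fun i j => S.mulRow b u (row i) (col j)).det = 0

/-- Index type of the equations. -/
abbrev ConeIdx (e M b : ℕ) : Type :=
  ((Fin e → Fin (S.l M)) × Fin e × Fin e) ⊕ ((Fin e → Fin (S.l M)) × Fin e × Fin e) ⊕
    ((Fin (e + 1) → Fin (S.l M)) × (Fin e → Fin (S.l M)) × Fin e) ⊕
    ((Fin (S.l (M + b) + 1 - e) → (Fin (e + 1) → Fin (S.l M)) × Fin (S.l b)) ×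
      (Fin (S.l (M + b) + 1 - e) → Fin (S.l (M + b))))

/-- The equations. -/
def coneEq (e M b : ℕ) : S.ConeIdx e M b → MvPolynomial (Fin e → Fin (S.l M)) ℚ :=
  Sum.elim (fun q => if q.2.1 ≠ q.2.2 ∧ q.1 q.2.1 = q.1 q.2.2 then X q.1 else 0) <|
  Sum.elim (fun q => if q.2.1 ≠ q.2.2 then X (fun m => q.1 (Equiv.swap q.2.1 q.2.2 m)) + X q.1 else 0) <|
  Sum.elim (fun q => plucker X q.1 q.2.1 q.2.2)
    (fun q => (Matrix.of fun i j => S.mulRow b X (q.1 i) (q.2 j)).det)

/-- Their degrees. -/
def coneDeg (e M b : ℕ) : S.ConeIdx e M b → ℕ :=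
  Sum.elim (fun _ => 1) <| Sum.elim (fun _ => 1) <| Sum.elim (fun _ => 2)
    (fun _ => S.l (M + b) + 1 - e)

theorem isHomogeneous_wgen_X {ι : Type*} [DecidableEq ι] {e : ℕ} (J : Fin (e + 1) → ι) (k : ι) :
    (wgen (fun j => (Pi.single j 1 : ι → MvPolynomial (Fin e → ι) ℚ))
      (X : (Fin e → ι) → MvPolynomial (Fin e → ι) ℚ) J k).IsHomogeneous 1 := by
  rw [wgen, Finset.sum_apply]
  refine IsHomogeneous.sum _ _ _ fun l _ => ?_
  simp only [Pi.smul_apply, smul_eq_mul, Pi.single_apply]
  split_ifs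
  · rw [mul_one, show ((-1 : MvPolynomial (Fin e → ι) ℚ) ^ (l : ℕ)) = C ((-1) ^ (l : ℕ)) by simp]
    exact (isHomogeneous_X _ _).C_mul _
  · rw [mul_zero]; exact isHomogeneous_zero _ _ _

theorem isHomogeneous_coneEq (e M b : ℕ) (k : S.ConeIdx e M b) :
    (S.coneEq e M b k).IsHomogeneous (S.coneDeg e M b k) := by
  rcases k with q | q | q | q
  · simp only [coneEq, coneDeg, Sum.elim_inl]
    split_ifs
    · exact isHomogeneous_X _ _
    · exact isHomogeneous_zero _ _ _
  · simp only [coneEq, coneDeg, Sum.elim_inl, Sum.elim_inr]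
    split_ifs
    · exact (isHomogeneous_X _ _).add (isHomogeneous_X _ _)
    · exact isHomogeneous_zero _ _ _
  · simp only [coneEq, coneDeg, Sum.elim_inl, Sum.elim_inr, plucker, uEval]
    refine IsHomogeneous.sum _ _ _ fun κ _ => ?_
    suffices h' : _ by exact (show 1 + 1 = 2 from rfl) ▸ (isHomogeneous_X ℚ κ).mul h'
    have h := IsHomogeneous.prod Finset.univ
      (fun i => Function.update (fun m => (Pi.single (q.2.1 m) 1 :
        Fin (S.l M) → MvPolynomial (Fin e → Fin (S.l M)) ℚ)) q.2.2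
        (wgen (fun j => (Pi.single j 1 : Fin (S.l M) → MvPolynomial (Fin e → Fin (S.l M)) ℚ)) X q.1)
        i (κ i))
      (fun i => if i = q.2.2 then 1 else 0) fun i _ => by
        rcases eq_or_ne i q.2.2 with rfl | hne
        · rw [Function.update_self, if_pos rfl]
          exact isHomogeneous_wgen_X _ _
        · rw [Function.update_of_ne hne, if_neg hne, Pi.single_apply]
          split_ifs
          · exact isHomogeneous_one _ _
          · exact isHomogeneous_zero _ _ _
    simpa using h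
  · simp only [coneEq, coneDeg, Sum.elim_inr, Matrix.det_apply]
    refine IsHomogeneous.sum _ _ _ fun σ _ => ?_
    have h := IsHomogeneous.prod Finset.univ
      (fun i => (Matrix.of fun i j => S.mulRow b (X : (Fin e → Fin (S.l M)) →
        MvPolynomial (Fin e → Fin (S.l M)) ℚ) (q.1 i) (q.2 j)) (σ i) i) (fun _ => 1) fun i _ => by
        simp only [Matrix.of_apply, mulRow, mulCoord]
        refine IsHomogeneous.sum _ _ _ fun a _ => IsHomogeneous.sum _ _ _ fun a' _ => ?_
        refine IsHomogeneous.C_mul ?_ _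
        rw [Pi.single_apply]
        split_ifs
        · rw [mul_one]; exact isHomogeneous_wgen_X _ _
        · rw [mul_zero]; exact isHomogeneous_zero _ _ _
    rcases Int.units_eq_one_or (Equiv.Perm.sign σ) with hs | hs <;> rw [hs]
    · simpa using h
    · simpa using h.neg

theorem coneEq_iff {e M b : ℕ} (x : (Fin e → Fin (S.l M)) → R) :
    (∀ k, aeval x (S.coneEq e M b k) = 0) ↔ S.InCone b x := by
  have hpl : ∀ J κ i, aeval x (plucker (X : (Fin e → Fin (S.l M)) →
      MvPolynomial (Fin e → Fin (S.l M)) ℚ) J κ i) = plucker x J κ i := fun J κ i =>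
    by
      refine (map_plucker (aeval x : MvPolynomial (Fin e → Fin (S.l M)) ℚ →ₐ[ℚ] R).toRingHom X J κ i).trans ?_
      congr 1
      funext κ'
      exact aeval_X x κ'
  have hdet : ∀ (row : Fin (S.l (M + b) + 1 - e) → (Fin (e + 1) → Fin (S.l M)) × Fin (S.l b))
      (col : Fin (S.l (M + b) + 1 - e) → Fin (S.l (M + b))), aeval x (Matrix.of fun (i j : Fin (S.l (M + b) + 1 - e)) =>
      S.mulRow b (X : (Fin e → Fin (S.l M)) → MvPolynomial _ ℚ) (row i) (col j)).det =
      (Matrix.of fun i j => S.mulRow b x (row i) (col j)).det := fun row col => by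
    rw [AlgHom.map_det]
    congr 1
    ext i j
    simp [S.map_mulRow]
  constructor
  · intro h
    refine ⟨⟨fun κ i j hij hk => ?_, fun κ i j hij => ?_⟩, fun J κ i => ?_, fun row col => ?_⟩
    · simpa [coneEq, hij, hk] using h (.inl (κ, i, j))
    · exact eq_neg_of_add_eq_zero_left (by simpa [coneEq, hij] using h (.inr (.inl (κ, i, j))))
    · rw [← hpl]; exact h (.inr (.inr (.inl (J, κ, i))))
    · rw [← hdet]; exact h (.inr (.inr (.inr (row, col))))
  · rintro ⟨⟨h1, h2⟩, h3, h4⟩ (q | q | q | q)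
    · simp only [coneEq, Sum.elim_inl]
      split_ifs with h
      · rw [aeval_X]; exact h1 _ _ _ h.1 h.2
      · exact map_zero _
    · simp only [coneEq, Sum.elim_inl, Sum.elim_inr]
      split_ifs with h
      · rw [map_add, aeval_X, aeval_X, h2 _ _ _ h, neg_add_cancel]
      · exact map_zero _
    · exact (hpl _ _ _).trans (h3 _ _ _)
    · exact (hdet _ _).trans (h4 _ _)

end Shape

/-- A curve with bases of all `L(mO)` multiplying by the structure constants of `S`. -/
structure Model (S : Shape) (K F : Type*) [Field K] [Algebra ℚ K] [Field F] [Algebra K F] where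
  /-- the base point -/
  O : Place K F
  /-- the bases -/
  b : ∀ m : ℕ, Basis (Fin (S.l m)) K (riemannRochSpace (Finsupp.single O (m : ℤ)))
  b_mul : ∀ m n i j, (b m i : F) * b n j =
    ∑ k, algebraMap ℚ K (S.c m n i j k) • (b (m + n) k : F)

namespace Model

variable {S : Shape} {K F : Type*} [Field K] [Algebra ℚ K] [Field F] [Algebra K F]
  (Cv : Model S K F)

/-- `L(mO)`. -/
abbrev V (m : ℕ) : Submodule K F := riemannRochSpace (Finsupp.single Cv.O (m : ℤ))

/-- `L(MO - G)` inside `L(MO)`. -/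
def W (M : ℕ) (G : Divisor K F) : Submodule K (Cv.V M) :=
  (riemannRochSpace (Finsupp.single Cv.O (M : ℤ) - G)).comap (Cv.V M).subtype

theorem mem_W {M : ℕ} {G : Divisor K F} {x : Cv.V M} :
    x ∈ Cv.W M G ↔ (x : F) ∈ riemannRochSpace (Finsupp.single Cv.O (M : ℤ) - G) := Iff.rfl

theorem coe_mul {m n : ℕ} (x : Cv.V m) (y : Cv.V n) :
    (x : F) * y = ∑ k, S.mulCoord ((Cv.b m).repr x) ((Cv.b n).repr y) k • (Cv.b (m + n) k : F) := by
  have hx : (x : F) = ∑ i, (Cv.b m).repr x i • (Cv.b m i : F) := by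
    have h := congrArg Subtype.val ((Cv.b m).sum_repr x)
    simp only [Submodule.coe_sum, SetLike.val_smul] at h
    exact h.symm
  have hy : (y : F) = ∑ j, (Cv.b n).repr y j • (Cv.b n j : F) := by
    have h := congrArg Subtype.val ((Cv.b n).sum_repr y)
    simp only [Submodule.coe_sum, SetLike.val_smul] at h
    exact h.symm
  rw [hx, hy, Finset.sum_mul_sum]
  simp only [smul_mul_smul_comm, Cv.b_mul, Finset.smul_sum, smul_smul, Shape.mulCoord,
    Finset.sum_smul]
  rw [Finset.sum_comm (f := fun k i => ∑ j, (algebraMap ℚ K (S.c m n i j k) *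
    ((Cv.b m).repr x i * (Cv.b n).repr y j)) • (Cv.b (m + n) k : F))]
  refine Finset.sum_congr rfl fun i _ => ?_
  rw [Finset.sum_comm]
  exact Finset.sum_congr rfl fun j _ => Finset.sum_congr rfl fun k _ => by rw [mul_comm]

theorem coe_mul_mem {m n : ℕ} (x : Cv.V m) (y : Cv.V n) : (x : F) * y ∈ Cv.V (m + n) := by
  rw [coe_mul]
  exact sum_mem fun k _ => Submodule.smul_mem _ _ (Cv.b (m + n) k).2

theorem repr_mul {m n : ℕ} (x : Cv.V m) (y : Cv.V n) :
    ((Cv.b (m + n)).repr ⟨(x : F) * y, Cv.coe_mul_mem x y⟩ : Fin (S.l (m + n)) → K) =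
      S.mulCoord ((Cv.b m).repr x) ((Cv.b n).repr y) := by
  have h : (⟨(x : F) * y, Cv.coe_mul_mem x y⟩ : Cv.V (m + n)) =
      ∑ k, S.mulCoord ((Cv.b m).repr x) ((Cv.b n).repr y) k • Cv.b (m + n) k := by
    apply Subtype.ext
    simp [Cv.coe_mul]
  rw [h, Basis.repr_sum_self]

/-- The products spanning `W · L(bO)`, in coordinates. -/
theorem mulRow_eq {e M : ℕ} (b : ℕ) (u : (Fin e → Fin (S.l M)) → K)
    (q : (Fin (e + 1) → Fin (S.l M)) × Fin (S.l b)) :
    S.mulRow b u q = ((Cv.b (M + b)).repr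
      ⟨((wgen (⇑(Cv.b M)) u q.1 : Cv.V M) : F) * Cv.b b q.2, Cv.coe_mul_mem _ _⟩ : Fin (S.l (M + b)) → K) := by
  rw [Cv.repr_mul, repr_wgen, Basis.repr_self, Finsupp.single_eq_pi_single]
  rfl

theorem span_mul_eq {e M : ℕ} (b : ℕ) (u : (Fin e → Fin (S.l M)) → K) :
    Submodule.span K (Set.range fun q : (Fin (e + 1) → Fin (S.l M)) × Fin (S.l b) =>
        ((wgen (⇑(Cv.b M)) u q.1 : Cv.V M) : F) * Cv.b b q.2) =
      (Submodule.span K (Set.range (wgen (Cv.b M) u))).map (Cv.V M).subtype * Cv.V b := by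
  rw [Submodule.map_span, ← Set.range_comp]
  conv_rhs => rw [show Cv.V b = Submodule.span K (Set.range fun j => (Cv.b b j : F)) by
    rw [show (fun j => (Cv.b b j : F)) = (Cv.V b).subtype ∘ Cv.b b from rfl, Set.range_comp,
      ← Submodule.map_span, (Cv.b b).span_eq, Submodule.map_top, Submodule.range_subtype]]
  rw [Submodule.span_mul_span]
  congr 1
  ext z
  simp only [Set.mem_range, Prod.exists, Set.mem_mul, exists_exists_eq_and, Function.comp_apply,
    Submodule.coe_subtype]

theorem finrank_span_mul {e M : ℕ} (b : ℕ) (u : (Fin e → Fin (S.l M)) → K) :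
    finrank K (Submodule.span K (Set.range (S.mulRow b u))) =
      finrank K ((Submodule.span K (Set.range (wgen (Cv.b M) u))).map (Cv.V M).subtype * Cv.V b :
        Submodule K F) := by
  let φ : (Fin (S.l (M + b)) → K) →ₗ[K] F :=
    (Cv.V (M + b)).subtype ∘ₗ (Cv.b (M + b)).equivFun.symm.toLinearMap
  have hφ : Function.Injective φ :=
    Subtype.val_injective.comp (Cv.b (M + b)).equivFun.symm.injective
  rw [(Submodule.equivMapOfInjective φ hφ _).finrank_eq, Submodule.map_span, ← Set.range_comp,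
    ← span_mul_eq]
  have hfun : φ ∘ S.mulRow b u = fun q : (Fin (e + 1) → Fin (S.l M)) × Fin (S.l b) =>
      ((wgen (⇑(Cv.b M)) u q.1 : Cv.V M) : F) * Cv.b b q.2 := by
    funext q
    show ((Cv.b (M + b)).equivFun.symm (S.mulRow b u q) : F) = _
    rw [Cv.mulRow_eq, ← Basis.equivFun_apply, LinearEquiv.symm_apply_apply]
  rw [hfun]

variable [IsFunctionField K F] [IsAlgClosed K]

omit [IsFunctionField K F] [IsAlgClosed K] in
theorem map_W {M : ℕ} {G : Divisor K F} (hG : 0 ≤ G) :
    (Cv.W M G).map (Cv.V M).subtype = riemannRochSpace (Finsupp.single Cv.O (M : ℤ) - G) := by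
  rw [W, Submodule.map_comap_subtype, inf_eq_right]
  exact riemannRochSpace_mono (sub_le_self _ hG)

theorem degree_single_O (m : ℕ) : Divisor.degree (Finsupp.single Cv.O (m : ℤ)) = m := by
  rw [Divisor.degree_single, deg_eq_one, Nat.cast_one, mul_one]

include Cv in
theorem l_eq {m : ℕ} (hm : rrBound K F ≤ m) : (S.l m : ℤ) = m + 1 - genusFF K F := by
  have h := finrank_eq (D := Finsupp.single Cv.O (m : ℤ)) (by rwa [degree_single_O])
  rw [degree_single_O, finrank_eq_card_basis (Cv.b m), Fintype.card_fin] at h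
  exact h

instance finite_V (m : ℕ) : Module.Finite K (Cv.V m) := Module.Finite.of_basis (Cv.b m)

theorem finrank_quot_W {M : ℕ} {G : Divisor K F} (hG : 0 ≤ G)
    (hM : rrBound K F + Divisor.degree G ≤ M) :
    (finrank K (Cv.V M ⧸ Cv.W M G) : ℤ) = Divisor.degree G := by
  have h1 := (Cv.W M G).finrank_quotient_add_finrank
  have h2 : finrank K (Cv.W M G) =
      finrank K (riemannRochSpace (Finsupp.single Cv.O (M : ℤ) - G)) := by
    rw [← Cv.map_W hG]
    exact (Submodule.equivMapOfInjective _ (Cv.V M).injective_subtype _).finrank_eq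
  have hG0 := degree_nonneg hG
  have h3 := finrank_eq (D := Finsupp.single Cv.O (M : ℤ) - G) (by rw [map_sub, degree_single_O]; omega)
  have h4 : (finrank K (Cv.V M) : ℤ) =
      Divisor.degree (Finsupp.single Cv.O (M : ℤ)) + 1 - genusFF K F :=
    finrank_eq (by rw [degree_single_O]; omega)
  rw [map_sub, degree_single_O] at h3
  rw [degree_single_O] at h4
  omega

theorem inCone_of_kills {e M : ℕ} (b : ℕ) {G : Divisor K F} (hG : 0 ≤ G)
    (he : Divisor.degree G = e) (hM : rrBound K F + e ≤ M)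
    {U : (Cv.V M) [⋀^Fin e]→ₗ[K] K} (hU : Kills U (Cv.W M G)) :
    S.InCone b fun κ => U fun i => Cv.b M (κ i) := by
  classical
  have hcodim : finrank K (Cv.V M ⧸ Cv.W M G) = e := by
    have := Cv.finrank_quot_W hG (M := M) (by omega)
    omega
  refine ⟨isAlt_apply_basis _ U, fun J κ i => plucker_apply_basis (Cv.b M) hU inferInstance hcodim J κ i, ?_⟩
  intro row col
  refine det_minor_eq_zero_of_finrank_span_lt _ ?_ row col
  rw [Cv.finrank_span_mul]
  have hle : (Submodule.span K (Set.range (wgen (Cv.b M) fun κ => U fun i => Cv.b M (κ i)))).map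
      (Cv.V M).subtype ≤ riemannRochSpace (Finsupp.single Cv.O (M : ℤ) - G) := by
    rw [← Cv.map_W hG]
    refine Submodule.map_mono (Submodule.span_le.2 ?_)
    rintro _ ⟨J, rfl⟩
    exact sum_smul_mem_of_kills hU inferInstance hcodim fun l => Cv.b M (J l)
  have h1 : ((Submodule.span K (Set.range (wgen (Cv.b M) fun κ => U fun i => Cv.b M (κ i)))).map
      (Cv.V M).subtype * Cv.V b) ≤ riemannRochSpace (Finsupp.single Cv.O ((M + b : ℕ) : ℤ) - G) := by
    refine (mul_le_mul_left hle _).trans (mul_le_L.trans (riemannRochSpace_mono (le_of_eq ?_)))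
    rw [Nat.cast_add, Finsupp.single_add]
    abel
  have h2 := Submodule.finrank_mono h1
  have hG0 := degree_nonneg hG
  have h3 := finrank_eq (D := Finsupp.single Cv.O ((M + b : ℕ) : ℤ) - G)
    (by rw [map_sub, degree_single_O]; push_cast; omega)
  have h4 := Cv.l_eq (m := M + b) (by push_cast; omega)
  rw [map_sub, degree_single_O] at h3
  omega

/-- The nonzero points of the cone are the arrays of effective divisors of degree `e`. -/
theorem exists_divisor_of_inCone {e M b : ℕ} (hM : 3 * rrBound K F + e + 2 ≤ M)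
    (hb : rrBound K F + M ≤ b) {u : (Fin e → Fin (S.l M)) → K} (hu : u ≠ 0) (hC : S.InCone b u) :
    ∃ (G : Divisor K F) (U : (Cv.V M) [⋀^Fin e]→ₗ[K] K), 0 ≤ G ∧ Divisor.degree G = e ∧
      U ≠ 0 ∧ Kills U (Cv.W M G) ∧ (fun κ => U fun i => Cv.b M (κ i)) = u := by
  classical
  obtain ⟨hkill, hcodim, hne⟩ := kills_span_wgen (Cv.b M) hC.1 hC.2.1 hu
  set Sp := Submodule.span K (Set.range (wgen (Cv.b M) u))
  have h1 : finrank K (Sp.map (Cv.V M).subtype) = finrank K Sp :=
    (Submodule.equivMapOfInjective _ (Cv.V M).injective_subtype _).finrank_eq.symm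
  have h2 := Sp.finrank_quotient_add_finrank
  have h3 := finrank_span_lt_of_minors _ hC.2.2
  rw [Cv.finrank_span_mul] at h3
  change finrank K (Sp.map (Cv.V M).subtype * Cv.V b : Submodule K F) < _ at h3
  have h0 : 0 ≤ rrBound K F := (Int.natCast_nonneg _).trans (le_max_right _ _)
  have hVb : finrank K (riemannRochSpace (Finsupp.single Cv.O (M : ℤ) + Finsupp.single Cv.O (b : ℤ)))
      = S.l (M + b) := by
    rw [← Finsupp.single_add, ← Nat.cast_add, finrank_eq_card_basis (Cv.b (M + b)), Fintype.card_fin]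
  obtain ⟨G, hG, hGe, hGW⟩ := exists_eq_L_sub (D := Finsupp.single Cv.O (M : ℤ))
    (B := Finsupp.single Cv.O (b : ℤ)) (W := Sp.map (Cv.V M).subtype)
    (Submodule.map_subtype_le _ _) e (by rw [h1]; omega) (by rw [degree_single_O]; omega)
    (by rw [degree_single_O, degree_single_O]; omega) (by
      rw [hVb]
      show (finrank K (Sp.map (Cv.V M).subtype * Cv.V b : Submodule K F) : ℤ) + e ≤ _
      omega)
  refine ⟨G, ofCoords (Cv.b M) hC.1, hG, hGe, hne, ?_, funext fun κ => ofCoords_basis _ _ κ⟩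
  have : Cv.W M G = Sp := by
    rw [W, ← hGW, Submodule.comap_map_eq_of_injective (Cv.V M).injective_subtype]
  rwa [this]

end Model

end FLTAgent.MW
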