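import Fermat.Agent.MW.AltForm

/-!
# Coordinates of alternating forms and the quadratic relations

An alternating array `u` satisfying the quadratic relations is the coordinate array of the form
killing the span of the vectors `wgen b u J`, which has codimension equal to the arity.
-/

noncomputable section

open Module

namespace FLTAgent.MW

section Generic

variable {R S ι : Type*} [CommRing R] [CommRing S] [Fintype ι] {n : ℕ}

/-- The multilinear extension of an array to coordinate vectors. -/
def uEval (u : (Fin n → ι) → R) (v : Fin n → ι → R) : R :=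
  ∑ κ : Fin n → ι, u κ * ∏ i, v i (κ i)

theorem map_uEval (φ : R →+* S) (u : (Fin n → ι) → R) (v : Fin n → ι → R) :
    φ (uEval u v) = uEval (fun κ => φ (u κ)) (fun i j => φ (v i j)) := by
  simp [uEval, map_sum, map_prod]

/-- Alternating arrays. -/
def IsAlt (u : (Fin n → ι) → R) : Prop :=
  (∀ κ i j, i ≠ j → κ i = κ j → u κ = 0) ∧
    ∀ κ i j, i ≠ j → u (fun m => κ (Equiv.swap i j m)) = -u κ

omit [Fintype ι] in
theorem IsAlt.map {u : (Fin n → ι) → R} (hu : IsAlt u) (φ : R →+* S) :
    IsAlt fun κ => φ (u κ) :=
  ⟨fun κ i j hij h => (congrArg φ (hu.1 κ i j hij h)).trans (map_zero φ),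
    fun κ i j hij => (congrArg φ (hu.2 κ i j hij)).trans (map_neg φ _)⟩

omit [Fintype ι] in
theorem IsAlt.eq_zero_of_not_injective {u : (Fin n → ι) → R} (hu : IsAlt u) {κ : Fin n → ι}
    (h : ¬ Function.Injective κ) : u κ = 0 := by
  rw [Function.not_injective_iff] at h
  obtain ⟨i, j, hk, hij⟩ := h
  exact hu.1 κ i j hij hk

theorem uEval_eq_zero_of_eq {u : (Fin n → ι) → R} (hu : IsAlt u) (v : Fin n → ι → R)
    {i j : Fin n} (h : v i = v j) (hij : i ≠ j) : uEval u v = 0 := by
  classical
  refine Finset.sum_involution (fun κ _ => fun m => κ (Equiv.swap i j m))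
    (fun κ _ => ?_) (fun κ _ hne heq => ?_) (fun κ _ => Finset.mem_univ _) (fun κ _ => ?_)
  · have hprod : ∏ m, v m (κ (Equiv.swap i j m)) = ∏ m, v m (κ m) := by
      rw [← Equiv.prod_comp (Equiv.swap i j)]
      refine Finset.prod_congr rfl fun m _ => ?_
      rw [Equiv.swap_apply_self]
      rcases eq_or_ne m i with rfl | hi
      · rw [Equiv.swap_apply_left, h]
      rcases eq_or_ne m j with rfl | hj
      · rw [Equiv.swap_apply_right, h]
      rw [Equiv.swap_apply_of_ne_of_ne hi hj]
    rw [hu.2 κ i j hij, hprod]
    ring
  · refine hne ?_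
    have : κ i = κ j := by
      have := congrFun heq i
      rwa [Equiv.swap_apply_left, eq_comm] at this
    rw [hu.1 κ i j hij this, zero_mul]
  · funext m
    simp

/-- The quadratic relation attached to `J`, `κ` and a slot `i`. -/
def plucker [DecidableEq ι] {e : ℕ} (u : (Fin e → ι) → R) (J : Fin (e + 1) → ι) (κ : Fin e → ι)
    (i : Fin e) : R :=
  uEval u (Function.update (fun m => Pi.single (κ m) 1) i
    (wgen (fun j => (Pi.single j 1 : ι → R)) u J))

omit [Fintype ι] in
theorem map_wgen_single [DecidableEq ι] {e : ℕ} (φ : R →+* S) (u : (Fin e → ι) → R)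
    (J : Fin (e + 1) → ι) (k : ι) :
    φ (wgen (fun j => (Pi.single j 1 : ι → R)) u J k) =
      wgen (fun j => (Pi.single j 1 : ι → S)) (fun κ => φ (u κ)) J k := by
  simp [wgen, Finset.sum_apply, map_sum, Pi.single_apply, apply_ite φ]

theorem map_plucker [DecidableEq ι] {e : ℕ} (φ : R →+* S) (u : (Fin e → ι) → R)
    (J : Fin (e + 1) → ι) (κ : Fin e → ι) (i : Fin e) :
    φ (plucker u J κ i) = plucker (fun κ => φ (u κ)) J κ i := by
  rw [plucker, plucker, map_uEval]
  congr 1
  funext m j
  rcases eq_or_ne m i with rfl | hne
  · rw [Function.update_self, Function.update_self, map_wgen_single]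
  · simp [Function.update_of_ne hne, Pi.single_apply, apply_ite φ]

end Generic

section Field

variable {K V ι : Type*} [Field K] [AddCommGroup V] [Module K V] [Fintype ι] {e : ℕ}
  (b : Basis ι K V)

theorem apply_eq_uEval (U : V [⋀^Fin e]→ₗ[K] K) (v : Fin e → V) :
    U v = uEval (fun κ => U fun i => b (κ i)) (fun i => b.repr (v i)) := by
  classical
  conv_lhs => rw [show v = fun i => ∑ j, b.repr (v i) j • b j from
    funext fun i => (b.sum_repr (v i)).symm]
  rw [← AlternatingMap.coe_multilinearMap, MultilinearMap.map_sum]
  refine Finset.sum_congr rfl fun κ _ => ?_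
  rw [MultilinearMap.map_smul_univ, smul_eq_mul, mul_comm]

omit [Fintype ι] in
theorem isAlt_apply_basis (U : V [⋀^Fin e]→ₗ[K] K) : IsAlt fun κ => U fun i => b (κ i) :=
  ⟨fun _ i j hij h => U.map_eq_zero_of_eq _ (i := i) (j := j) (by simp [h]) hij,
    fun κ i j hij => U.map_swap (fun m => b (κ m)) hij⟩

/-- The alternating form with a given array of values on a basis. -/
def ofCoords {u : (Fin e → ι) → K} (hu : IsAlt u) : V [⋀^Fin e]→ₗ[K] K where
  toFun v := uEval u fun i => b.repr (v i)
  map_update_add' {_} v i x y := by
    classical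
    simp only [uEval, ← Finset.sum_add_distrib, ← mul_add]
    refine Finset.sum_congr rfl fun κ _ => congrArg _ ?_
    rw [← Finset.mul_prod_erase Finset.univ _ (Finset.mem_univ i),
      ← Finset.mul_prod_erase Finset.univ _ (Finset.mem_univ i),
      ← Finset.mul_prod_erase Finset.univ _ (Finset.mem_univ i)]
    simp only [Function.update_self, map_add, Finsupp.coe_add, Pi.add_apply, add_mul]
    congr 1 <;>
    · refine congrArg _ (Finset.prod_congr rfl fun m hm => ?_)
      rw [Function.update_of_ne (Finset.ne_of_mem_erase hm),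
        Function.update_of_ne (Finset.ne_of_mem_erase hm)]
  map_update_smul' {_} v i r x := by
    classical
    simp only [uEval, smul_eq_mul, Finset.mul_sum]
    refine Finset.sum_congr rfl fun κ _ => ?_
    rw [← Finset.mul_prod_erase Finset.univ _ (Finset.mem_univ i),
      ← Finset.mul_prod_erase Finset.univ _ (Finset.mem_univ i)]
    simp only [Function.update_self, map_smul, Finsupp.coe_smul, Pi.smul_apply, smul_eq_mul]
    rw [Finset.prod_congr rfl fun m (hm : m ∈ Finset.univ.erase i) => by
      rw [Function.update_of_ne (Finset.ne_of_mem_erase hm)]]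
    conv_rhs => rw [Finset.prod_congr rfl fun m (hm : m ∈ Finset.univ.erase i) => by
      rw [Function.update_of_ne (Finset.ne_of_mem_erase hm)]]
    ring
  map_eq_zero_of_eq' v i j h hij :=
    uEval_eq_zero_of_eq hu _ (i := i) (j := j) (congrArg (fun x => (b.repr x : ι → K)) h) hij

@[simp] theorem ofCoords_apply {u : (Fin e → ι) → K} (hu : IsAlt u) (v : Fin e → V) :
    ofCoords b hu v = uEval u fun i => b.repr (v i) := rfl

theorem ofCoords_basis {u : (Fin e → ι) → K} (hu : IsAlt u) (κ : Fin e → ι) :
    ofCoords b hu (fun i => b (κ i)) = u κ := by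
  classical
  rw [ofCoords_apply, uEval, Finset.sum_eq_single κ]
  · simp
  · intro κ' _ hne
    obtain ⟨i, hi⟩ := Function.ne_iff.mp hne
    rw [Finset.prod_eq_zero (Finset.mem_univ i) (by simp [Ne.symm hi]), mul_zero]
  · simp

omit [Fintype ι] in
theorem repr_wgen [DecidableEq ι] (u : (Fin e → ι) → K) (J : Fin (e + 1) → ι) :
    (b.repr (wgen b u J) : ι → K) = wgen (fun j => (Pi.single j 1 : ι → K)) u J := by
  funext k
  simp [wgen, Finsupp.single_apply, Pi.single_apply, Finset.sum_apply, eq_comm]

theorem plucker_eq [DecidableEq ι] {u : (Fin e → ι) → K} (hu : IsAlt u) (J : Fin (e + 1) → ι)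
    (κ : Fin e → ι) (i : Fin e) :
    plucker u J κ i = ofCoords b hu (Function.update (fun m => b (κ m)) i (wgen b u J)) := by
  rw [ofCoords_apply, plucker]
  congr 1
  funext m
  rcases eq_or_ne m i with rfl | hne
  · rw [Function.update_self, Function.update_self, repr_wgen]
  · rw [Function.update_of_ne hne, Function.update_of_ne hne, b.repr_self,
      Finsupp.single_eq_pi_single]

theorem plucker_apply_basis [DecidableEq ι] {U : V [⋀^Fin e]→ₗ[K] K} {W : Submodule K V}
    (hU : Kills U W) (hW : FiniteDimensional K (V ⧸ W)) (he : finrank K (V ⧸ W) = e)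
    (J : Fin (e + 1) → ι) (κ : Fin e → ι) (i : Fin e) :
    plucker (fun κ => U fun i => b (κ i)) J κ i = 0 := by
  rw [plucker_eq b (isAlt_apply_basis b U), ofCoords_apply, ← apply_eq_uEval]
  refine hU _ i ?_
  rw [Function.update_self]
  exact sum_smul_mem_of_kills hU hW he fun l => b (J l)

/-- The quadratic relations force the span of the `wgen` to have codimension `e`. -/
theorem kills_span_wgen [DecidableEq ι] {u : (Fin e → ι) → K} (hu : IsAlt u)
    (hP : ∀ J κ i, plucker u J κ i = 0) (hu0 : u ≠ 0) :
    Kills (ofCoords b hu) (Submodule.span K (Set.range (wgen b u))) ∧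
      finrank K (V ⧸ Submodule.span K (Set.range (wgen b u))) = e ∧ ofCoords b hu ≠ 0 := by
  set S := Submodule.span K (Set.range (wgen b u)) with hS
  have : FiniteDimensional K V := Module.Finite.of_basis b
  set U := ofCoords b hu with hU
  have hne : U ≠ 0 := fun h => hu0 (funext fun κ => by
    rw [← ofCoords_basis b hu κ, ← hU, h]; rfl)
  have hkill : Kills U S := by
    intro v i hv
    -- linear in the slot `i`
    have key : ∀ x ∈ S, U (Function.update v i x) = 0 := by
      intro x hx
      induction hx using Submodule.span_induction with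
      | zero => exact U.map_update_zero v i
      | add x y _ _ hx hy => rw [U.map_update_add, hx, hy, add_zero]
      | smul c x _ hx => rw [U.map_update_smul, hx, smul_zero]
      | mem x hx =>
        obtain ⟨J, rfl⟩ := hx
        -- expand the other arguments in the basis
        have hexp : Function.update v i (wgen b u J) = fun m => ∑ j : ι,
            (if m = i then (if j = (J 0) then (1 : K) else 0)
              else b.repr (v m) j) • (if m = i then wgen b u J else b j) := by
          funext m
          rcases eq_or_ne m i with rfl | hne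
          · simp [ite_smul]
          · simp [hne, b.sum_repr]
        rw [hexp, ← AlternatingMap.coe_multilinearMap, MultilinearMap.map_sum]
        refine Finset.sum_eq_zero fun κ _ => ?_
        rw [MultilinearMap.map_smul_univ, AlternatingMap.coe_multilinearMap]
        have := hP J κ i
        rw [plucker_eq b hu] at this
        have harg : (fun m => if m = i then wgen b u J else b (κ m)) =
            Function.update (fun m => b (κ m)) i (wgen b u J) := by
          funext m
          rcases eq_or_ne m i with rfl | hne
          · simp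
          · simp [hne]
        rw [harg, ← hU] at *
        rw [this, smul_zero]
    simpa using key (v i) hv
  refine ⟨hkill, le_antisymm ?_ ?_, hne⟩
  · -- the basis vectors of a nonzero value span the quotient
    obtain ⟨κ, hκ⟩ := Function.ne_iff.mp hu0
    simp only [Pi.zero_apply] at hκ
    have hsp : Submodule.span K (Set.range fun i => S.mkQ (b (κ i))) = ⊤ := by
      rw [eq_top_iff, ← S.range_mkQ, LinearMap.range_eq_map, ← b.span_eq, Submodule.map_span,
        Submodule.span_le]
      rintro _ ⟨_, ⟨j, rfl⟩, rfl⟩
      have hw : wgen b u (Fin.cons j κ) ∈ S := Submodule.subset_span ⟨_, rfl⟩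
      rw [← Submodule.Quotient.mk_eq_zero S, ← Submodule.mkQ_apply, wgen, map_sum,
        Fin.sum_univ_succ] at hw
      simp only [Fin.val_zero, pow_zero, one_mul, Fin.cons_zero, Fin.succAbove_zero,
        Fin.cons_succ, map_smul] at hw
      rw [SetLike.mem_coe, ← Submodule.smul_mem_iff _ hκ, eq_neg_of_add_eq_zero_left hw]
      exact Submodule.neg_mem _ (Submodule.sum_mem _ fun i _ =>
        Submodule.smul_mem _ _ (Submodule.subset_span ⟨i, rfl⟩))
    have h1 := finrank_range_le_card (R := K) fun i => S.mkQ (b (κ i))
    rw [Set.finrank, hsp, finrank_top, Fintype.card_fin] at h1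
    exact h1
  · by_contra hlt
    obtain ⟨v, hv⟩ : ∃ v, U v ≠ 0 := by
      by_contra! h
      exact hne (AlternatingMap.ext h)
    have hdep : ¬ LinearIndependent K (S.mkQ ∘ v) := fun hli => hlt (by
      simpa using hli.fintype_card_le_finrank)
    rw [linearIndependent_mkQ_iff] at hdep
    push Not at hdep
    obtain ⟨g, hg, i, hgi⟩ := hdep
    refine hv ?_
    have h2 : U (Function.update v i (∑ j, g j • v j)) = 0 := hkill _ i (by simpa using hg)
    rw [U.map_update_sum Finset.univ i (fun j => g j • v j) v, Finset.sum_eq_single i] at h2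
    · rw [U.map_update_smul, Function.update_eq_self] at h2
      exact (smul_eq_zero.1 h2).resolve_left hgi
    · intro j _ hji
      rw [U.map_update_smul, U.map_update_self v hji.symm, smul_zero]
    · simp

end Field

end FLTAgent.MW
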