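import Fermat.Agent.MW.Northcott
import Mathlib.GroupTheory.Descent

/-!
# Finite generation from finiteness modulo `2`
-/

noncomputable section

set_option maxSynthPendingDepth 3

open AlgebraicCurve
open FLTAgent.FunctionField

namespace FLTAgent.MW.Model.GalData

local notation "ℚbar" => AlgebraicClosure ℚ

variable {S : Shape} {F : Type*} [Field F] [Algebra ℚbar F] [IsFunctionField ℚbar F]
  {Cv : Model S ℚbar F} (act : GalData Cv)

/-- The fixed classes are finitely generated once they are finite modulo `2`. -/
theorem fg_fixedClasses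
    (h2 : (nsmulAddMonoidHom (α := act.fixedClasses) 2).range.FiniteIndex) :
    AddGroup.FG act.fixedClasses := by
  classical
  set N : ℕ := (6 * rrBound ℚbar F).toNat + (8 * genusFF ℚbar F + 4)
  have hN : 6 * rrBound ℚbar F + (8 * genusFF ℚbar F + 4 : ℕ) ≤ N := by
    push_cast [N]
    omega
  obtain ⟨C, hC⟩ := act.exists_parallelogram N hN
  obtain ⟨K, hK, hK'⟩ : ∃ K : ℝ, 0 ≤ K ∧ ∀ x, 0 ≤ act.hgt N x + K := by
    obtain ⟨m, hm⟩ := (((act.finite_hgt_le N hN 0).image fun x => - act.hgt N x)).bddAbove
    refine ⟨max m 0, le_max_right _ _, fun x => ?_⟩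
    rcases le_or_gt (act.hgt N x) 0 with h | h
    · have := hm (Set.mem_image_of_mem _ (show act.hgt N x ≤ 0 from h))
      linarith [le_max_left m 0]
    · linarith [le_max_right m 0]
  have : Northcott fun x => act.hgt N x + K :=
    ⟨fun B => (act.finite_hgt_le N hN (B - K)).subset fun x hx => by
      rw [Set.mem_ofPred_eq] at hx ⊢
      linarith⟩
  refine AddCommGroup.fg_of_descent' (h := fun x => act.hgt N x + K) (C := C + 2 * K) h2 hK'
    fun x y => ?_
  have h := hC x y
  rw [abs_le] at *
  constructor <;> linarith [h.1, h.2]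

end FLTAgent.MW.Model.GalData
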