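import Fermat.Agent.MW.Galois
import Mathlib.FieldTheory.IsAlgClosed.Basic

/-!
# Values of functions at affine points, and arrays as functions of several points
-/

noncomputable section

set_option maxSynthPendingDepth 3

open AlgebraicCurve Module
open FLTAgent.FunctionField

namespace FLTAgent.MW

variable {K F : Type*} [Field K] [Field F] [Algebra K F] [IsFunctionField K F] [IsAlgClosed K]

theorem bijective_algebraMap_residueField (P : Place K F) :
    Function.Bijective (algebraMap K P.ResidueField) := by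
  have := finite_residueField P
  exact IsAlgClosed.algebraMap_bijective_of_isIntegral

/-- The value at `P`. -/
def valueHom (P : Place K F) : P.toValuationSubring →+* K :=
  (RingEquiv.ofBijective _ (bijective_algebraMap_residueField P)).symm.toRingHom.comp
    (IsLocalRing.residue P.toValuationSubring)

theorem valueHom_algebraMap (P : Place K F) (c : K) :
    valueHom P (algebraMap K P.toValuationSubring c) = c :=
  (RingEquiv.ofBijective _ (bijective_algebraMap_residueField P)).symm_apply_apply c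

theorem valueHom_eq_zero_iff (P : Place K F) (a : P.toValuationSubring) :
    valueHom P a = 0 ↔ OrdGe P 1 (a : F) := by
  rw [valueHom, RingHom.comp_apply]
  simp only [RingEquiv.toRingHom_eq_coe, RingHom.coe_coe, EmbeddingLike.map_eq_zero_iff]
  exact residue_eq_zero_iff

namespace Shape

variable (S : Shape) {R : Type*} [CommRing R] [Algebra ℚ R]

/-- Multiplication of arrays, one factor at a time. -/
def tmul {n a b : ℕ} (A : (Fin n → Fin (S.l a)) → R) (B : (Fin n → Fin (S.l b)) → R)
    (L : Fin n → Fin (S.l (a + b))) : R :=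
  ∑ I : Fin n → Fin (S.l a), ∑ J : Fin n → Fin (S.l b),
    (∏ k, algebraMap ℚ R (S.c a b (I k) (J k) (L k))) * (A I * B J)

theorem map_tmul {R' : Type*} [CommRing R'] [Algebra ℚ R'] (φ : R →ₐ[ℚ] R') {n a b : ℕ}
    (A : (Fin n → Fin (S.l a)) → R) (B : (Fin n → Fin (S.l b)) → R) (L : Fin n → Fin (S.l (a + b))) :
    φ (S.tmul A B L) = S.tmul (fun I => φ (A I)) (fun J => φ (B J)) L := by
  simp [tmul, map_sum, map_prod]

end Shape

namespace Model

variable {S : Shape} [Algebra ℚ K] (Cv : Model S K F)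

/-- Points other than the base point. -/
abbrev AffPt : Type _ := {P : Place K F // P ≠ Cv.O}

omit [IsFunctionField K F] [IsAlgClosed K] in
theorem mem_valuationSubring {m : ℕ} (P : Cv.AffPt) (x : Cv.V m) :
    (x : F) ∈ P.1.toValuationSubring := by
  refine mem_iff_ordGe_zero.2 ?_
  simpa [Finsupp.single_eq_of_ne P.2] using mem_riemannRochSpace.1 x.2 P.1

/-- The value at an affine point. -/
def ptEval (P : Cv.AffPt) (m : ℕ) : Cv.V m →ₗ[K] K where
  toFun x := valueHom P.1 ⟨x, Cv.mem_valuationSubring P x⟩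
  map_add' x y := (valueHom P.1).map_add ⟨x, Cv.mem_valuationSubring P x⟩ ⟨y, Cv.mem_valuationSubring P y⟩
  map_smul' c x := by
    have h : (⟨((c • x : Cv.V m) : F), Cv.mem_valuationSubring P _⟩ : P.1.toValuationSubring) =
        algebraMap K P.1.toValuationSubring c * ⟨x, Cv.mem_valuationSubring P x⟩ :=
      Subtype.ext (Algebra.smul_def _ _)
    rw [h, map_mul, valueHom_algebraMap, RingHom.id_apply, smul_eq_mul]

theorem ptEval_mul (P : Cv.AffPt) {a b c : ℕ} (x : Cv.V a) (y : Cv.V b) (z : Cv.V c)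
    (h : (z : F) = (x : F) * y) : Cv.ptEval P c z = Cv.ptEval P a x * Cv.ptEval P b y := by
  show valueHom P.1 ⟨(z : F), _⟩ = valueHom P.1 ⟨(x : F), _⟩ * valueHom P.1 ⟨(y : F), _⟩
  rw [← map_mul]
  exact congrArg _ (Subtype.ext h)

theorem ptEval_eq_zero {P : Cv.AffPt} {m : ℕ} {x : Cv.V m} :
    Cv.ptEval P m x = 0 ↔ (x : F) = 0 ∨ 0 < P.1.ord (x : F) := by
  refine (valueHom_eq_zero_iff P.1 ⟨(x : F), Cv.mem_valuationSubring P x⟩).trans ?_
  rw [ordGe_iff]
  rfl

include Cv in
theorem infinite_place : Infinite (Place K F) := by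
  classical
  set m := (rrBound K F).toNat + 2 with hm
  have hr : (genusFF K F : ℤ) ≤ rrBound K F := le_max_right _ _
  obtain ⟨x, hx⟩ : ∃ x : Cv.V m, ∀ c : K, (x : F) ≠ algebraMap K F c := by
    by_contra! h
    choose c hc using h
    have h1 : finrank K (Cv.V m) ≤ finrank K K :=
      LinearMap.finrank_le_finrank_of_injective
        (f := ({ toFun := c
                 map_add' := fun u v => (algebraMap K F).injective (by
                   rw [map_add, ← hc, ← hc, ← hc]; rfl)
                 map_smul' := fun r u => (algebraMap K F).injective (by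
                   rw [RingHom.id_apply, smul_eq_mul, map_mul, ← hc, ← hc, SetLike.val_smul,
                     Algebra.smul_def]) } : Cv.V m →ₗ[K] K))
        (fun u v huv => Subtype.ext (by rw [hc, hc]; exact congrArg _ huv))
    rw [finrank_self, finrank_eq_card_basis (Cv.b m), Fintype.card_fin] at h1
    have := Cv.l_eq (m := m) (by omega)
    omega
  have hne : ∀ c : K, (x : F) - algebraMap K F c ≠ 0 := fun c => sub_ne_zero.2 (hx c)
  have hz : ∀ c : K, ∃ P : Place K F, 0 < P.ord ((x : F) - algebraMap K F c) := by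
    intro c
    by_contra! h
    have h1 : (x : F) - algebraMap K F c ∈ riemannRochSpace (0 : Divisor K F) := by
      have h0 : divisorOf (K := K) ((x : F) - algebraMap K F c) = 0 := by
        have hle : 0 ≤ -divisorOf (K := K) ((x : F) - algebraMap K F c) := fun P => by
          simpa using h P
        ext P
        by_contra hP
        have hlt : 0 < (-divisorOf (K := K) ((x : F) - algebraMap K F c)) P := by
          have := h P
          simp only [Finsupp.coe_zero, Pi.zero_apply, divisorOf_apply] at hP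
          simp only [Finsupp.neg_apply, divisorOf_apply]
          omega
        have h2 : (0 : Divisor K F) ≤
            -divisorOf (K := K) ((x : F) - algebraMap K F c) - Finsupp.single P 1 := fun Q => by
          rcases eq_or_ne Q P with rfl | hQ
          · simp only [Finsupp.sub_apply, Finsupp.single_eq_same, Finsupp.coe_zero, Pi.zero_apply]
            omega
          · simpa [Finsupp.single_eq_of_ne hQ] using hle Q
        have h3 := degree_nonneg h2
        rw [map_sub, map_neg, degree_divisorOf, degree_single'] at h3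
        omega
      refine (mem_L_iff (hne c)).2 fun P => ?_
      have := DFunLike.congr_fun h0 P
      simp only [divisorOf_apply, Finsupp.coe_zero, Pi.zero_apply] at this ⊢
      omega
    obtain ⟨r, hr⟩ := exists_eq_smul_of_degree_zero (map_zero Divisor.degree)
      (f := 1) (mem_riemannRochSpace.2 fun w => ordGe_of_le_ord (by simp)) h1 one_ne_zero
    exact hx (c + r) (by rw [map_add, Algebra.algebraMap_eq_smul_one r, ← hr]; ring)
  choose P hP using hz
  refine Infinite.of_injective P fun c c' h => by_contra fun hcc => ?_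
  have h2 := hP c'
  rw [← h] at h2
  have h3 : OrdGe (P c) 1 (algebraMap K F (c' - c)) := by
    have h4 := (ordGe_of_le_ord (v := P c) (n := 1) (hP c)).sub (ordGe_of_le_ord (n := 1) h2)
    rw [map_sub]
    convert h4 using 1
    ring
  have h5 := h3.le_ord ((map_ne_zero _).2 (sub_ne_zero.2 (Ne.symm hcc)))
  rw [ord_algebraMap] at h5
  omega

/-- An array as a function of several points. -/
def tval {n m : ℕ} (A : (Fin n → Fin (S.l m)) → K) (P : Fin n → Cv.AffPt) : K :=
  ∑ I : Fin n → Fin (S.l m), A I * ∏ k, Cv.ptEval (P k) m (Cv.b m (I k))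

/-- The slot `0` of an array as a function. -/
def slotFun {n m : ℕ} (A : (Fin (n + 1) → Fin (S.l m)) → K) (I : Fin n → Fin (S.l m)) : Cv.V m :=
  ∑ i, A (Fin.cons i I) • Cv.b m i

theorem tval_cons {n m : ℕ} (A : (Fin (n + 1) → Fin (S.l m)) → K) (P₀ : Cv.AffPt)
    (P : Fin n → Cv.AffPt) :
    Cv.tval A (Fin.cons P₀ P) = Cv.tval (fun I => Cv.ptEval P₀ m (Cv.slotFun A I)) P := by
  simp only [tval, slotFun, map_sum, map_smul, smul_eq_mul, Finset.sum_mul]
  rw [← (Fin.consEquiv fun _ => Fin (S.l m)).sum_comp, Fintype.sum_prod_type, Finset.sum_comm]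
  refine Finset.sum_congr rfl fun I _ => Finset.sum_congr rfl fun i _ => ?_
  simp only [Fin.consEquiv, Equiv.coe_fn_mk, Fin.prod_univ_succ, Fin.cons_zero, Fin.cons_succ]
  ring

/-- A nonzero value of two nonzero arrays at a common tuple avoiding a finite set. -/
theorem exists_tval_ne_zero : ∀ {n a b : ℕ} {A : (Fin n → Fin (S.l a)) → K}
    {B : (Fin n → Fin (S.l b)) → K}, A ≠ 0 → B ≠ 0 → ∀ s : Set (Place K F), s.Finite →
    ∃ P : Fin n → Cv.AffPt, (∀ k, (P k).1 ∉ s) ∧ Cv.tval A P ≠ 0 ∧ Cv.tval B P ≠ 0 := by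
  classical
  intro n
  induction n with
  | zero =>
    intro a b A B hA hB s _
    refine ⟨fun k => k.elim0, fun k => k.elim0, ?_, ?_⟩
    · obtain ⟨I, hI⟩ := Function.ne_iff.mp hA
      simpa [tval, Subsingleton.elim default I] using hI
    · obtain ⟨I, hI⟩ := Function.ne_iff.mp hB
      simpa [tval, Subsingleton.elim default I] using hI
  | succ n ih =>
    intro a b A B hA hB s hs
    have key : ∀ {m : ℕ} {A : (Fin (n + 1) → Fin (S.l m)) → K}, A ≠ 0 →
        ∃ I, (Cv.slotFun A I : F) ≠ 0 := by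
      intro m A hA
      obtain ⟨J, hJ⟩ := Function.ne_iff.mp hA
      refine ⟨Fin.tail J, fun h => hJ ?_⟩
      have h1 := Fintype.linearIndependent_iff.1 (Cv.b m).linearIndependent
        (fun i => A (Fin.cons i (Fin.tail J))) (Subtype.ext h) (J 0)
      rwa [Fin.cons_self_tail] at h1
    obtain ⟨I, hI⟩ := key hA
    obtain ⟨J, hJ⟩ := key hB
    have := Cv.infinite_place
    obtain ⟨P₀, hP₀⟩ := ((((hs.union (finite_setOf_ord_pos (K := K) (Cv.slotFun A I : F))).union
      (finite_setOf_ord_pos (K := K) (Cv.slotFun B J : F))).insert Cv.O)).exists_notMem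
    simp only [Set.mem_insert_iff, Set.mem_union, Set.mem_ofPred_eq, not_or, not_lt] at hP₀
    let Q : Cv.AffPt := ⟨P₀, hP₀.1⟩
    have hA' : (fun I => Cv.ptEval Q a (Cv.slotFun A I)) ≠ 0 := fun h => by
      rcases (Cv.ptEval_eq_zero (P := Q)).1 (congrFun h I) with h' | h'
      · exact hI h'
      · exact absurd h' (not_lt.2 hP₀.2.1.2)
    have hB' : (fun I => Cv.ptEval Q b (Cv.slotFun B I)) ≠ 0 := fun h => by
      rcases (Cv.ptEval_eq_zero (P := Q)).1 (congrFun h J) with h' | h'
      · exact hJ h'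
      · exact absurd h' (not_lt.2 hP₀.2.2)
    obtain ⟨P, hP, h1, h2⟩ := ih hA' hB' s hs
    refine ⟨Fin.cons Q P, fun k => ?_, by rwa [Cv.tval_cons], by rwa [Cv.tval_cons]⟩
    cases k using Fin.cases with
    | zero => exact hP₀.2.1.1
    | succ k => simpa using hP k

theorem eq_zero_of_tval {n m : ℕ} {A : (Fin n → Fin (S.l m)) → K}
    (h : ∀ P : Fin n → Cv.AffPt, Cv.tval A P = 0) : A = 0 :=
  by_contra fun hA => by
    obtain ⟨P, -, h1, -⟩ := Cv.exists_tval_ne_zero hA hA ∅ Set.finite_empty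
    exact h1 (h P)

theorem tval_tmul {n a b : ℕ} (A : (Fin n → Fin (S.l a)) → K) (B : (Fin n → Fin (S.l b)) → K)
    (P : Fin n → Cv.AffPt) : Cv.tval (S.tmul A B) P = Cv.tval A P * Cv.tval B P := by
  have hmul : ∀ (Q : Cv.AffPt) i j, Cv.ptEval Q a (Cv.b a i) * Cv.ptEval Q b (Cv.b b j) =
      ∑ k, algebraMap ℚ K (S.c a b i j k) * Cv.ptEval Q (a + b) (Cv.b (a + b) k) := by
    intro Q i j
    rw [← Cv.ptEval_mul Q _ _ (∑ k, algebraMap ℚ K (S.c a b i j k) • Cv.b (a + b) k)
      (by rw [Cv.b_mul]; simp), map_sum]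
    simp
  simp only [tval, Shape.tmul, Finset.sum_mul]
  rw [Finset.sum_comm]
  refine Finset.sum_congr rfl fun I _ => ?_
  rw [Finset.sum_comm, Finset.mul_sum]
  refine Finset.sum_congr rfl fun J _ => ?_
  calc ∑ L : Fin n → Fin (S.l (a + b)), (∏ k, algebraMap ℚ K (S.c a b (I k) (J k) (L k))) *
        (A I * B J) * ∏ k, Cv.ptEval (P k) (a + b) (Cv.b (a + b) (L k))
      = (A I * B J) * ∑ L : Fin n → Fin (S.l (a + b)), ∏ k,
          algebraMap ℚ K (S.c a b (I k) (J k) (L k)) *
            Cv.ptEval (P k) (a + b) (Cv.b (a + b) (L k)) := by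
        rw [Finset.mul_sum]
        exact Finset.sum_congr rfl fun L _ => by rw [Finset.prod_mul_distrib]; ring
    _ = _ := by
        rw [← Fintype.prod_sum fun k i => algebraMap ℚ K (S.c a b (I k) (J k) i) *
          Cv.ptEval (P k) (a + b) (Cv.b (a + b) i)]
        simp only [← hmul, Finset.prod_mul_distrib]
        ring

/-- The array of minors. -/
def tdet {n m : ℕ} (w : Fin n → Cv.V m) (I : Fin n → Fin (S.l m)) : K :=
  (Matrix.of fun i k => (Cv.b m).repr (w i) (I k)).det

omit [IsFunctionField K F] [IsAlgClosed K] in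
theorem sum_prod_repr {n m : ℕ} (φ : Fin n → Cv.V m →ₗ[K] K) (x : Fin n → Cv.V m) :
    ∑ I : Fin n → Fin (S.l m), (∏ k, (Cv.b m).repr (x k) (I k)) * ∏ k, φ k (Cv.b m (I k)) =
      ∏ k, φ k (x k) := by
  have h : ∀ k, φ k (x k) = ∑ i, (Cv.b m).repr (x k) i * φ k (Cv.b m i) := fun k => by
    conv_lhs => rw [← (Cv.b m).sum_repr (x k)]
    rw [map_sum]
    simp
  simp only [h, Fintype.prod_sum, Finset.prod_mul_distrib]

theorem tval_tdet {n m : ℕ} (w : Fin n → Cv.V m) (P : Fin n → Cv.AffPt) :
    Cv.tval (Cv.tdet w) P = (Matrix.of fun i k => Cv.ptEval (P k) m (w i)).det := by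
  simp only [tval, tdet, Matrix.det_apply, Finset.sum_mul]
  rw [Finset.sum_comm]
  refine Finset.sum_congr rfl fun σ _ => ?_
  simp only [smul_mul_assoc, ← Finset.smul_sum, Matrix.of_apply]
  rw [Cv.sum_prod_repr (fun k => Cv.ptEval (P k) m) fun k => w (σ k)]

/-- The doubly antisymmetrised array of a matrix of functions. -/
def pdet {n m : ℕ} (z : Fin n → Fin n → Cv.V m) (I : Fin n → Fin (S.l m)) : K :=
  ∑ σ : Equiv.Perm (Fin n), ∑ τ : Equiv.Perm (Fin n),
    (Equiv.Perm.sign σ * Equiv.Perm.sign τ) • ∏ k, (Cv.b m).repr (z (σ k) (τ k)) (I k)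

theorem tval_pdet {n m : ℕ} (z : Fin n → Fin n → Cv.V m) (P : Fin n → Cv.AffPt) :
    Cv.tval (Cv.pdet z) P = ∑ σ : Equiv.Perm (Fin n), ∑ τ : Equiv.Perm (Fin n),
      (Equiv.Perm.sign σ * Equiv.Perm.sign τ) • ∏ k, Cv.ptEval (P k) m (z (σ k) (τ k)) := by
  simp only [tval, pdet, Finset.sum_mul]
  rw [Finset.sum_comm]
  refine Finset.sum_congr rfl fun σ _ => ?_
  rw [Finset.sum_comm]
  refine Finset.sum_congr rfl fun τ _ => ?_
  simp only [smul_mul_assoc, ← Finset.smul_sum]
  rw [Cv.sum_prod_repr (fun k => Cv.ptEval (P k) m) fun k => z (σ k) (τ k)]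

/-- If `z i j * f = w i * w' j` the antisymmetrisations multiply. -/
theorem tval_pdet_mul {n a a' m d : ℕ} {z : Fin n → Fin n → Cv.V m} {f : Cv.V d}
    {w : Fin n → Cv.V a} {w' : Fin n → Cv.V a'} {y : Fin (S.l d) → K} (hy : f = Cv.ofCoord d y)
    (h : ∀ i j, (z i j : F) * (f : F) = (w i : F) * w' j) (P : Fin n → Cv.AffPt) :
    Cv.tval (Cv.pdet z) P * Cv.tval (fun I => ∏ k, y (I k)) P =
      Cv.tval (Cv.tdet w) P * Cv.tval (Cv.tdet w') P := by
  have hf : Cv.tval (fun I => ∏ k, y (I k)) P = ∏ k, Cv.ptEval (P k) d f := by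
    have h1 := Cv.sum_prod_repr (fun k => Cv.ptEval (P k) d) fun _ => f
    rw [hy, repr_ofCoord] at h1
    rw [hy]
    exact h1
  rw [hf, Cv.tval_pdet, Cv.tval_tdet, Cv.tval_tdet, Matrix.det_apply, Matrix.det_apply,
    Finset.sum_mul, Finset.sum_mul]
  refine Finset.sum_congr rfl fun σ _ => ?_
  rw [Finset.sum_mul, Finset.mul_sum]
  refine Finset.sum_congr rfl fun τ _ => ?_
  have hk : ∀ k, Cv.ptEval (P k) m (z (σ k) (τ k)) * Cv.ptEval (P k) d f =
      Cv.ptEval (P k) a (w (σ k)) * Cv.ptEval (P k) a' (w' (τ k)) := fun k => by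
    rw [← Cv.ptEval_mul (P k) _ _ ⟨_, Cv.coe_mul_mem (z (σ k) (τ k)) f⟩ rfl,
      Cv.ptEval_mul (P k) (w (σ k)) (w' (τ k)) ⟨_, Cv.coe_mul_mem (z (σ k) (τ k)) f⟩ (h _ _)]
  simp only [smul_mul_assoc, mul_smul_comm, Matrix.of_apply, ← Finset.prod_mul_distrib, hk,
    smul_smul]
  rw [mul_comm]

end Model

end FLTAgent.MW
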