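import Fermat.Agent.MW.Galois

/-!
# The pairing of fixed divisors is bounded on a class
-/

noncomputable section

set_option maxSynthPendingDepth 3

open AlgebraicCurve Module Height
open FLTAgent.FunctionField

namespace FLTAgent.MW.Model

local notation "ℚbar" => AlgebraicClosure ℚ

variable {S : Shape} {F : Type*} [Field F] [Algebra ℚbar F] [IsFunctionField ℚbar F]
  {Cv : Model S ℚbar F} (act : GalData Cv)

omit [IsFunctionField ℚbar F] in
theorem pairB_comm (N : ℕ) (E G : Divisor ℚbar F) : Cv.pairB N E G = Cv.pairB N G E := by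
  rw [pairB, pairB, add_comm E G]
  ring

namespace GalData

/-- Fixed effective divisors of a given degree. -/
def FixEff (n : ℕ) (E : Divisor ℚbar F) : Prop :=
  0 ≤ E ∧ act.Fixed E ∧ Divisor.degree E = n

variable {act}

omit [IsFunctionField ℚbar F] in
theorem FixEff.add {n n' : ℕ} {E E' : Divisor ℚbar F} (h : act.FixEff n E) (h' : act.FixEff n' E') :
    act.FixEff (n + n') (E + E') :=
  ⟨add_nonneg h.1 h'.1, h.2.1.add h'.2.1, by rw [map_add, h.2.2, h'.2.2, Nat.cast_add]⟩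

theorem FixEff.isRat {n : ℕ} {E : Divisor ℚbar F} (h : act.FixEff n E) : Cv.IsRat E :=
  act.isRat_of_fixed h.1 h.2.1

theorem fixEff_single (n : ℕ) : act.FixEff n (Finsupp.single Cv.O (n : ℤ)) :=
  ⟨Finsupp.single_nonneg.2 (Int.natCast_nonneg n), Fixed.single_O _, degree_single_O Cv n⟩

theorem fixEff_zeroDiv {d : ℕ} {y : Fin (S.l d) → ℚ} (hy : y ≠ 0) :
    act.FixEff d (Cv.zeroDiv d y) :=
  ⟨Cv.zeroDiv_nonneg hy, Fixed.zeroDiv act y, Cv.degree_zeroDiv d y⟩

variable (act)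

theorem isRat_zero (act : GalData Cv) : Cv.IsRat 0 := act.isRat_of_fixed le_rfl Fixed.zero

/-- The pairing is additive on fixed effective divisors. -/
theorem exists_pairB_add_le (e e' f N : ℕ)
    (hN : 6 * rrBound ℚbar F + (e + e' + 2 * f + 4 : ℕ) ≤ N) :
    ∃ C : ℝ, ∀ E E' G : Divisor ℚbar F, act.FixEff e E → act.FixEff e' E' → act.FixEff f G →
      |Cv.pairB N (E + E') G - Cv.pairB N E G - Cv.pairB N E' G| ≤ C := by
  have hr : 0 ≤ rrBound ℚbar F := (Int.natCast_nonneg _).trans (le_max_right _ _)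
  obtain ⟨R, hR⟩ := Int.eq_ofNat_of_zero_le hr
  push_cast at hN
  obtain ⟨M, rfl⟩ : ∃ M, N = M + (3 * R + f + 2) := ⟨N - (3 * R + f + 2), by omega⟩
  obtain ⟨C, hC⟩ := exists_pairB_add Cv act.isRat_zero e e' f M (3 * R + f + 2)
    (by push_cast; omega) (by push_cast; omega) (by push_cast at hN ⊢; omega)
  exact ⟨C, fun E E' G hE hE' hG => hC E E' G hE.isRat hE'.isRat hG.isRat (hE.add hE').isRat
    (hE.add hG).isRat (hE'.add hG).isRat ((hE.add hE').add hG).isRat hE.2.2 hE'.2.2 hG.2.2⟩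

/-- The pairing with a principal divisor. -/
theorem exists_pairB_zeroDiv (d f Mp : ℕ)
    (hM : 3 * rrBound ℚbar F + (f + d : ℕ) + 2 ≤ Mp) :
    ∃ C : ℝ, ∀ (G : Divisor ℚbar F) (y : Fin (S.l d) → ℚ), y ≠ 0 → act.FixEff f G →
      |Cv.pairB (Mp + d) (Cv.zeroDiv d y) G
        - (Cv.plh Mp G - Cv.plh (Mp + d) G - f * logHeight y)| ≤ C := by
  have hr : 0 ≤ rrBound ℚbar F := (Int.natCast_nonneg _).trans (le_max_right _ _)
  obtain ⟨C, hC⟩ := exists_principal_height Cv f d Mp hM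
  push_cast at hM
  refine ⟨C, fun G y hy hG => ?_⟩
  have hz := fixEff_zeroDiv (act := act) (d := d) hy
  obtain ⟨uG, huG⟩ := hG.isRat.2 Mp f hG.2.2 (by omega)
  obtain ⟨uy, huy⟩ := hz.isRat.2 (Mp + d) d hz.2.2 (by push_cast; omega)
  obtain ⟨uGy, huGy⟩ := (hG.add hz).isRat.2 (Mp + d) (f + d) (hG.add hz).2.2 (by push_cast; omega)
  have h := hC G y uG uy uGy hy huG huy huGy
  rw [← huG.plh_eq (by omega), ← huy.plh_eq (by push_cast; omega),
    ← huGy.plh_eq (by push_cast; omega)] at h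
  rw [pairB, add_comm (Cv.zeroDiv d y) G]
  rw [abs_le] at *
  constructor <;> linarith [h.1, h.2]

/-- Linearly equivalent fixed divisors pair equally with differences of degree `0`. -/
theorem exists_pairB_invariant (j f N : ℕ)
    (hN : 6 * rrBound ℚbar F + (2 * (j + genusFF ℚbar F) + 2 * f + 4 : ℕ) ≤ N) :
    ∃ C : ℝ, ∀ A A' G G' : Divisor ℚbar F, act.FixEff j A → act.FixEff j A' →
      act.FixEff f G → act.FixEff f G' → A - A' ∈ Divisor.principal (K := ℚbar) (F := F) →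
      |Cv.pairB N A G - Cv.pairB N A G' - Cv.pairB N A' G + Cv.pairB N A' G'| ≤ C := by
  set g := genusFF ℚbar F
  have hr : 0 ≤ rrBound ℚbar F := (Int.natCast_nonneg _).trans (le_max_right _ _)
  push_cast at hN
  obtain ⟨C₁, h₁⟩ := act.exists_pairB_add_le j g f N (by push_cast; omega)
  obtain ⟨Mp, rfl⟩ : ∃ Mp, N = Mp + (j + g) := ⟨N - (j + g), by omega⟩
  push_cast at hN
  obtain ⟨C₂, h₂⟩ := act.exists_pairB_zeroDiv (j + g) f Mp (by push_cast; omega)
  refine ⟨4 * C₁ + 4 * C₂, fun A A' G G' hA hA' hG hG' hAA => ?_⟩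
  -- a fixed complement of degree `g`
  obtain ⟨E, hE0, hEf, hEd, hE⟩ := act.exists_fixed_effective
    (D := Finsupp.single Cv.O (j : ℤ) - A)
    (by rw [map_sub, degree_single_O, hA.2.2, sub_self])
    (fun σ => by rw [((Fixed.single_O _).sub hA.2.1) σ, sub_self]; exact zero_mem _)
    (j := g) le_rfl
  have hEE : act.FixEff g E := ⟨hE0, hEf, hEd⟩
  have hprin : A + E - Finsupp.single Cv.O ((j + g : ℕ) : ℤ) ∈
      Divisor.principal (K := ℚbar) (F := F) := by
    convert hE using 1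
    rw [Nat.cast_add, Finsupp.single_add]
    abel
  have hprin' : A' + E - Finsupp.single Cv.O ((j + g : ℕ) : ℤ) ∈
      Divisor.principal (K := ℚbar) (F := F) := by
    convert sub_mem hprin hAA using 1
    abel
  obtain ⟨y, hy, hyA⟩ := act.exists_zeroDiv_of_fixed (hA.add hEE).2.1 (hA.add hEE).1 hprin
  obtain ⟨y', hy', hyA'⟩ := act.exists_zeroDiv_of_fixed (hA'.add hEE).2.1 (hA'.add hEE).1 hprin'
  have a1 := h₁ A E G hA hEE hG
  have a2 := h₁ A E G' hA hEE hG'
  have a3 := h₁ A' E G hA' hEE hG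
  have a4 := h₁ A' E G' hA' hEE hG'
  rw [hyA] at a1 a2
  rw [hyA'] at a3 a4
  have b1 := h₂ G y hy hG
  have b2 := h₂ G' y hy hG'
  have b3 := h₂ G y' hy' hG
  have b4 := h₂ G' y' hy' hG'
  rw [abs_le] at *
  constructor <;>
    linarith [a1.1, a1.2, a2.1, a2.2, a3.1, a3.2, a4.1, a4.2, b1.1, b1.2, b2.1, b2.2, b3.1, b3.2,
      b4.1, b4.2]

end GalData

end FLTAgent.MW.Model
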