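import Fermat.Agent.MW.Eval
import Fermat.Agent.MW.Pairing
import Fermat.Agent.MW.BiHeight

/-!
# The array of a representative and of a complement bounds their heights from below
-/

noncomputable section

set_option maxSynthPendingDepth 3

open AlgebraicCurve Module MvPolynomial Height
open FLTAgent.FunctionField

namespace FLTAgent.MW

section LinearAlgebra

variable {K V : Type*} [Field K] [AddCommGroup V] [Module K V] {a b : ℕ}

/-- Fix the last arguments. -/
def fixTail (U : V [⋀^Fin (a + b)]→ₗ[K] K) (v : Fin b → V) : V [⋀^Fin a]→ₗ[K] K :=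
  (fixRight U ⊤ v).compLinearMap (LinearMap.id.codRestrict ⊤ fun _ => trivial)

@[simp] theorem fixTail_apply (U : V [⋀^Fin (a + b)]→ₗ[K] K) (v : Fin b → V) (w : Fin a → V) :
    fixTail U v w = U (Fin.append w v) := rfl

theorem kills_fixTail (U : V [⋀^Fin (a + b)]→ₗ[K] K) (v : Fin b → V) :
    Kills (fixTail U v) (Submodule.span K (Set.range v)) := by
  intro w i hi
  rw [fixTail_apply]
  obtain ⟨g, hg⟩ := (Submodule.mem_span_range_iff_exists_fun K).1 hi
  refine U.map_linearDependent _ fun hli => ?_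
  have h := Fintype.linearIndependent_iff.1 hli (Fin.append (-Pi.single i 1) g) (by
    simp [Fin.sum_univ_add, Pi.single_apply, ite_smul, hg]) (Fin.castAdd b i)
  simp at h

theorem kills_fixLeft_span (U : V [⋀^Fin (a + b)]→ₗ[K] K) (w : Fin a → V) :
    Kills (fixLeft U w) (Submodule.span K (Set.range w)) := by
  intro v i hi
  show U (Fin.append w v) = 0
  obtain ⟨g, hg⟩ := (Submodule.mem_span_range_iff_exists_fun K).1 hi
  refine U.map_linearDependent _ fun hli => ?_
  have h := Fintype.linearIndependent_iff.1 hli (Fin.append g (-Pi.single i 1)) (by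
    simp [Fin.sum_univ_add, Pi.single_apply, ite_smul, hg]) (Fin.natAdd a i)
  simp at h

/-- An alternating form on combinations of `v` is the determinant times its value at `v`. -/
theorem apply_sum_eq_det (G : V [⋀^Fin a]→ₗ[K] K) (v : Fin a → V) (M : Matrix (Fin a) (Fin a) K) :
    G (fun i => ∑ k, M i k • v k) = M.det * G v := by
  classical
  set L := Fintype.linearCombination K v
  have h := (G.compLinearMap L).eq_smul_basis_det (Pi.basisFun K (Fin a))
  have h1 := AlternatingMap.congr_fun h M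
  have hv : (fun i => L (Pi.basisFun K (Fin a) i)) = v := by
    funext i
    simp [L, Fintype.linearCombination_apply_single]
  rw [Pi.basisFun_det] at h1
  refine Eq.trans ?_ (h1.trans ?_)
  · exact (congrArg G (funext fun i => Fintype.linearCombination_apply K _ _)).symm
  · show G (fun i => L (Pi.basisFun K (Fin a) i)) * M.det = M.det * G v
    rw [hv, mul_comm]

theorem exists_append_bijective {l n e : ℕ} (hl : n + e = l) (I : Fin n → Fin l)
    (hI : Function.Injective I) : ∃ J : Fin e → Fin l, Function.Bijective (Fin.append I J) := by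
  classical
  have hc : (Finset.image I Finset.univ)ᶜ.card = e := by
    rw [Finset.card_compl, Finset.card_image_of_injective _ hI, Finset.card_univ, Fintype.card_fin,
      Fintype.card_fin]
    omega
  refine ⟨(Finset.image I Finset.univ)ᶜ.orderEmbOfFin hc, ?_⟩
  rw [Fintype.bijective_iff_injective_and_card]
  refine ⟨fun p q hpq => ?_, by simp [hl]⟩
  have hne : ∀ i j, I i ≠ (Finset.image I Finset.univ)ᶜ.orderEmbOfFin hc j := fun i j h => by
    have h1 := (Finset.image I Finset.univ)ᶜ.orderEmbOfFin_mem hc j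
    rw [Finset.mem_compl, Finset.mem_image] at h1
    exact h1 ⟨i, Finset.mem_univ _, h⟩
  induction p using Fin.addCases with
  | left i =>
    induction q using Fin.addCases with
    | left i' =>
      simp only [Fin.append_left] at hpq
      rw [hI hpq]
    | right j' =>
      simp only [Fin.append_left, Fin.append_right] at hpq
      exact absurd hpq (hne i j')
  | right j =>
    induction q using Fin.addCases with
    | left i' =>
      simp only [Fin.append_left, Fin.append_right] at hpq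
      exact absurd hpq.symm (hne i' j)
    | right j' =>
      simp only [Fin.append_right] at hpq
      rw [(Finset.orderEmbOfFin _ hc).injective hpq]

end LinearAlgebra

namespace Model

local notation "ℚbar" => AlgebraicClosure ℚ

variable {S : Shape} {F : Type*} [Field F] [Algebra ℚbar F] [IsFunctionField ℚbar F]

theorem exists_tmul_height (Cv : Model S ℚbar F) (n a b : ℕ) :
    ∃ C : ℝ, ∀ (A : (Fin n → Fin (S.l a)) → ℚ) (B : (Fin n → Fin (S.l b)) → ℚ), A ≠ 0 → B ≠ 0 →
      |logHeight (S.tmul A B) - (logHeight A + logHeight B)| ≤ C := by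
  classical
  let p : (Fin n → Fin (S.l (a + b))) →
      MvPolynomial ((Fin n → Fin (S.l a)) ⊕ (Fin n → Fin (S.l b))) ℚ :=
    fun L => S.tmul (fun I => X (Sum.inl I)) (fun J => X (Sum.inr J)) L
  have hp : ∀ L, p L ∈ biForms _ _ 1 1 := fun L => by
    refine sum_mem fun I _ => sum_mem fun J _ => ?_
    rw [← map_prod, MvPolynomial.algebraMap_eq]
    have h := biForms_mul_mem (X_inl_mem (κ := Fin n → Fin (S.l b)) I)
      (X_inr_mem (ι := Fin n → Fin (S.l a)) J)
    simp only [Nat.add_zero, Nat.zero_add] at h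
    exact C_mul_mem _ h
  have hev : ∀ {T : Type} [CommRing T] [Algebra ℚ T] (x : (Fin n → Fin (S.l a)) → T)
      (z : (Fin n → Fin (S.l b)) → T) L, aeval (Sum.elim x z) (p L) = S.tmul x z L := by
    intro T _ _ x z L
    refine (S.map_tmul (aeval (Sum.elim x z)) _ _ L).trans ?_
    congr 1 <;> funext I <;> exact aeval_X _ _
  obtain ⟨C₀, hC₀⟩ := exists_abs_logHeight_bieval_sub_le (η := Empty) (η' := Empty) p hp
    (d := fun _ => 0) (fun k => k.elim) (fun k => k.elim)
    (d' := fun _ => 0) (fun k => k.elim) (fun k => k.elim) (by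
      intro x z _ _ h
      by_contra hxz
      rw [not_or] at hxz
      obtain ⟨P, -, h1, h2⟩ := Cv.exists_tval_ne_zero hxz.1 hxz.2 ∅ Set.finite_empty
      refine mul_ne_zero h1 h2 ?_
      rw [← Cv.tval_tmul]
      exact Finset.sum_eq_zero fun L _ => by rw [← hev, h L, zero_mul])
  refine ⟨C₀, fun A B hA hB => ?_⟩
  have h := hC₀ A B hA hB (fun k => k.elim) (fun k => k.elim)
  have hAB : (fun L => eval (Sum.elim A B) (p L)) = S.tmul A B := funext fun L => by
    rw [eval_eq_aeval', hev]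
  rw [hAB] at h
  simpa using h

theorem logHeight_eq_of_tval (Cv : Model S ℚbar F) {n a a' : ℕ} (haa : a = a')
    (A : (Fin n → Fin (S.l a)) → ℚ) (A' : (Fin n → Fin (S.l a')) → ℚ)
    (h : ∀ P : Fin n → Cv.AffPt, Cv.tval (fun I => algebraMap ℚ ℚbar (A I)) P =
      Cv.tval (fun I => algebraMap ℚ ℚbar (A' I)) P) : logHeight A = logHeight A' := by
  subst haa
  refine congrArg _ ?_
  have h0 : (fun I => algebraMap ℚ ℚbar (A I) - algebraMap ℚ ℚbar (A' I)) = 0 := by
    refine Cv.eq_zero_of_tval fun P => ?_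
    have h1 := h P
    simp only [tval, sub_mul, Finset.sum_sub_distrib] at h1 ⊢
    rw [h1, sub_self]
  funext I
  have h2 := congrFun h0 I
  rw [Pi.zero_apply, sub_eq_zero] at h2
  exact (algebraMap ℚ ℚbar).injective h2

/-- Products of rational arrays with equal values have comparable heights. -/
theorem exists_tmul_compare (Cv : Model S ℚbar F) (n a b a' b' : ℕ) (hab : a + b = a' + b') :
    ∃ C : ℝ, ∀ (A : (Fin n → Fin (S.l a)) → ℚ) (B : (Fin n → Fin (S.l b)) → ℚ)
      (A' : (Fin n → Fin (S.l a')) → ℚ) (B' : (Fin n → Fin (S.l b')) → ℚ),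
      A ≠ 0 → B ≠ 0 → A' ≠ 0 → B' ≠ 0 →
      (∀ P : Fin n → Cv.AffPt,
        Cv.tval (fun I => algebraMap ℚ ℚbar (A I)) P * Cv.tval (fun I => algebraMap ℚ ℚbar (B I)) P =
        Cv.tval (fun I => algebraMap ℚ ℚbar (A' I)) P * Cv.tval (fun I => algebraMap ℚ ℚbar (B' I)) P) →
      |(logHeight A + logHeight B) - (logHeight A' + logHeight B')| ≤ C := by
  obtain ⟨C₁, h₁⟩ := exists_tmul_height Cv n a b
  obtain ⟨C₂, h₂⟩ := exists_tmul_height Cv n a' b'
  refine ⟨C₁ + C₂, fun A B A' B' hA hB hA' hB' h => ?_⟩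
  have e := Cv.logHeight_eq_of_tval hab (S.tmul A B) (S.tmul A' B') fun P => by
    have := h P
    rw [← Cv.tval_tmul, ← Cv.tval_tmul] at this
    simp only [← Algebra.ofId_apply, S.map_tmul] at this ⊢
    exact this
  have b1 := h₁ A B hA hB
  have b2 := h₂ A' B' hA' hB'
  rw [e] at b1
  rw [abs_le] at *
  constructor <;> linarith [b1.1, b1.2, b2.1, b2.2]

/-- A rational basis of `L(MO - G)`. -/
theorem IsRep.exists_rat_basis {Cv : Model S ℚbar F} {M e n : ℕ} {G : Divisor ℚbar F}
    {u : (Fin e → Fin (S.l M)) → ℚ} (hu : Cv.IsRep M G u) (hM : rrBound ℚbar F + e ≤ M)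
    (hn : n + e = S.l M) :
    ∃ w : Fin n → Fin (S.l M) → ℚ, LinearIndependent ℚbar (fun i => Cv.ratFun M (w i)) ∧
      Submodule.span ℚbar (Set.range fun i => Cv.ratFun M (w i)) = Cv.W M G := by
  classical
  obtain ⟨U, hU0, hUk, hU⟩ := hu.exists_form
  set v := wgen (Cv.b M) (fun κ => U fun i => Cv.b M (κ i)) with hv
  have hspan : Submodule.span ℚbar (Set.range v) = Cv.W M G :=
    Cv.span_wgen_eq_W hu.nonneg hu.deg hM hUk hU0
  have hfr : finrank ℚbar (Submodule.span ℚbar (Set.range v)) = n := by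
    rw [hspan]
    have h1 := (Cv.W M G).finrank_quotient_add_finrank
    have h2 : finrank ℚbar (Cv.V M ⧸ Cv.W M G) = e :=
      finrank_quot_sub' hu.nonneg hu.deg (by rw [degree_single_O]; omega)
    rw [h2, finrank_eq_card_basis (Cv.b M), Fintype.card_fin] at h1
    exact Nat.add_left_cancel (n := e) (h1.trans (by omega))
  obtain ⟨f, hf, hfs, hfli⟩ := Submodule.exists_fun_fin_finrank_span_eq ℚbar (Set.range v)
  choose J hJ using hf
  refine ⟨fun i => wgen (fun j => (Pi.single j 1 : Fin (S.l M) → ℚ)) u (J (Fin.cast hfr.symm i)),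
    ?_⟩
  have hval : (fun i : Fin n => Cv.ratFun M
      (wgen (fun j => (Pi.single j 1 : Fin (S.l M) → ℚ)) u (J (Fin.cast hfr.symm i)))) =
      f ∘ Fin.cast hfr.symm := by
    funext i
    rw [Function.comp_apply, ← hJ]
    show _ = wgen (Cv.b M) (fun κ => U fun i => Cv.b M (κ i)) _
    rw [funext hU]
    apply (Cv.b M).repr.injective
    ext k
    rw [ratFun, repr_ofCoord, repr_wgen, map_wgen_single]
  rw [hval]
  refine ⟨hfli.comp _ (Fin.cast_injective _), ?_⟩
  refine Eq.trans ?_ (hfs.trans hspan)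
  exact congrArg _ ((finCongr hfr.symm).surjective.range_comp f)

/-- The minors of a rational basis are bounded by the representative. -/
theorem exists_minor_height_le (Cv : Model S ℚbar F) (M e n : ℕ) (hM : rrBound ℚbar F + e ≤ M)
    (hn : n + e = S.l M) :
    ∃ C : ℝ, ∀ (G : Divisor ℚbar F) (u : (Fin e → Fin (S.l M)) → ℚ)
      (w : Fin n → Fin (S.l M) → ℚ), Cv.IsRep M G u →
      LinearIndependent ℚbar (fun i => Cv.ratFun M (w i)) →
      Submodule.span ℚbar (Set.range fun i => Cv.ratFun M (w i)) = Cv.W M G →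
      (fun I : Fin n → Fin (S.l M) => (Matrix.of fun i k => w i (I k)).det) ≠ 0 ∧
      logHeight (fun I : Fin n → Fin (S.l M) => (Matrix.of fun i k => w i (I k)).det) ≤
        C + logHeight u := by
  classical
  let bD : Basis (Fin (n + e)) ℚbar (Cv.V M) := (Cv.b M).reindex (finCongr hn.symm)
  choose J hJ using fun I : {I : Fin n → Fin (S.l M) // Function.Injective I} =>
    exists_append_bijective hn I.1 I.2
  let perm : {I : Fin n → Fin (S.l M) // Function.Injective I} → Equiv.Perm (Fin (n + e)) := fun I =>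
    (Equiv.ofBijective _ (hJ I)).trans (finCongr hn.symm)
  let p : (Fin n → Fin (S.l M)) → MvPolynomial (Fin e → Fin (S.l M)) ℚ := fun I =>
    if h : Function.Injective I then
      MvPolynomial.C ((Equiv.Perm.sign (perm ⟨I, h⟩) : ℤ) : ℚ) * X (J ⟨I, h⟩) else 0
  have hp : ∀ I, (p I).IsHomogeneous 1 := fun I => by
    simp only [p]
    split_ifs
    · exact (isHomogeneous_X _ _).C_mul _
    · exact isHomogeneous_zero _ _ _
  obtain ⟨C, hC⟩ := Height.logHeight_eval_le' hp
  refine ⟨C, fun G u w hu hw hspan => ?_⟩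
  obtain ⟨U, hU0, hUk, hU⟩ := hu.exists_form
  set wb : Fin n → Cv.V M := fun i => Cv.ratFun M (w i) with hwb
  set r : (Fin n → Fin (S.l M)) → ℚ := fun I => (Matrix.of fun i k => w i (I k)).det with hr
  have hr0 : r ≠ 0 := by
    have hli : LinearIndependent ℚbar fun i => (fun k => algebraMap ℚ ℚbar (w i k)) := by
      have h := hw.map' (Cv.b M).equivFun.toLinearMap (LinearEquiv.ker _)
      have hco : (fun i => (fun k => algebraMap ℚ ℚbar (w i k))) =
          (Cv.b M).equivFun.toLinearMap ∘ wb :=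
        funext fun i => (repr_ofCoord Cv M fun k => algebraMap ℚ ℚbar (w i k)).symm
      rw [hco]
      exact h
    obtain ⟨col, hcol⟩ := exists_det_ne_zero_of_linearIndependent hli
    intro h
    apply hcol
    have := congrFun h col
    simp only [hr, Pi.zero_apply] at this
    rw [show (Matrix.of fun i j => algebraMap ℚ ℚbar (w i (col j))) =
      (algebraMap ℚ ℚbar).mapMatrix (Matrix.of fun i j => w i (col j)) from rfl,
      ← RingHom.map_det, this, map_zero]
  refine ⟨hr0, ?_⟩
  have hkill : Kills (fixLeft bD.det wb) (Cv.W M G) := by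
    rw [← hspan]; exact kills_fixLeft_span _ _
  obtain ⟨c, hc⟩ := hUk.exists_eq_smul hkill inferInstance
    (finrank_quot_sub' hu.nonneg hu.deg (by rw [degree_single_O]; omega)) hU0
  have key : ∀ I, algebraMap ℚ ℚbar (r I) = c * algebraMap ℚ ℚbar (eval u (p I)) := by
    intro I
    by_cases hI : Function.Injective I
    swap
    · simp only [p, dif_neg hI, map_zero, mul_zero, hr]
      obtain ⟨k, k', hkk, hne⟩ := Function.not_injective_iff.1 hI
      rw [Matrix.det_zero_of_column_eq hne fun i => by simp [hkk], map_zero]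
    simp only [p, dif_pos hI, map_mul, eval_C, eval_X]
    set bJ : Fin e → Cv.V M := fun j => Cv.b M (J ⟨I, hI⟩ j)
    have h1 : bD.det (Fin.append wb bJ) = c * algebraMap ℚ ℚbar (u (J ⟨I, hI⟩)) := by
      have := AlternatingMap.congr_fun hc bJ
      rw [AlternatingMap.smul_apply, hU, smul_eq_mul] at this
      exact this
    have h2 : bD.det (Fin.append (fun k => Cv.b M (I k)) bJ) =
        ((Equiv.Perm.sign (perm ⟨I, hI⟩) : ℤ) : ℚbar) := by
      have harg : Fin.append (fun k => Cv.b M (I k)) bJ = bD ∘ perm ⟨I, hI⟩ := by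
        funext q
        induction q using Fin.addCases <;>
          simp [bD, bJ, perm]
      rw [harg, AlternatingMap.map_perm, bD.det_self, Units.smul_def, zsmul_one]
    have h3 : bD.det (Fin.append wb bJ) =
        algebraMap ℚ ℚbar (r I) * bD.det (Fin.append (fun k => Cv.b M (I k)) bJ) := by
      rw [← fixTail_apply, ← fixTail_apply, hr, RingHom.map_det]
      rw [(kills_fixTail bD.det bJ).congr_mod
        (v' := fun i => ∑ k, algebraMap ℚ ℚbar (w i (I k)) • Cv.b M (I k)) fun i => ?_]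
      · exact apply_sum_eq_det _ _ _
      · have hx : wb i = ∑ q, algebraMap ℚ ℚbar (w i q) • Cv.b M q := by
          simp [hwb, ratFun, ofCoord, Basis.equivFun_symm_apply]
        rw [hx, ← (hJ ⟨I, hI⟩).sum_comp fun q => algebraMap ℚ ℚbar (w i q) • Cv.b M q,
          Fin.sum_univ_add]
        simp only [Fin.append_left, Fin.append_right, add_sub_cancel_left]
        exact sum_mem fun j _ => Submodule.smul_mem _ _ (Submodule.subset_span ⟨j, rfl⟩)
    rw [h1, h2] at h3
    have hs : ((Equiv.Perm.sign (perm ⟨I, hI⟩) : ℤ) : ℚbar) ^ 2 = 1 := by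
      rcases Int.units_eq_one_or (Equiv.Perm.sign (perm ⟨I, hI⟩)) with h | h <;> simp [h]
    rw [map_intCast]
    linear_combination (-((Equiv.Perm.sign (perm ⟨I, hI⟩) : ℤ) : ℚbar)) * h3
      - algebraMap ℚ ℚbar (r I) * hs
  have hp0 : (fun I => eval u (p I)) ≠ 0 := fun h => hr0 (funext fun I =>
    (algebraMap ℚ ℚbar).injective (by rw [key, congrFun h I]; simp))
  obtain ⟨ρ, hρc, hρ⟩ := exists_rat_of_smul_eq hp0 key
  have hρ0 : ρ ≠ 0 := fun h => hr0 (by rw [hρ, h, zero_smul])
  rw [hρ, Height.logHeight_smul_eq_logHeight _ hρ0]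
  simpa using hC u

/-- The quotient of products of sections by the function cutting out `E + v`. -/
theorem quot_mem {Cv : Model S ℚbar F} {M d D₀ : ℕ} (hD : D₀ + d = M + M)
    {E v : Divisor ℚbar F} {y : Fin (S.l d) → ℚ} (hy : y ≠ 0) (hEv : E + v = Cv.zeroDiv d y)
    {x x' : Cv.V M} (hx : x ∈ Cv.W M E) (hx' : x' ∈ Cv.W M v) :
    (x : F) * x' * (Cv.ratFun d y : F)⁻¹ ∈ Cv.V D₀ := by
  have hf := Cv.coe_ofCoord_ne_zero (algebraMap_comp_ne_zero hy)
  rcases eq_or_ne (x : F) 0 with h | h
  · simp [h]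
  rcases eq_or_ne (x' : F) 0 with h' | h'
  · simp [h']
  refine (mem_L_iff (mul_ne_zero (mul_ne_zero h h') (inv_ne_zero hf))).2 fun R => ?_
  have h1 := (mem_L_iff h).1 hx R
  have h2 := (mem_L_iff h').1 hx' R
  have h3 := DFunLike.congr_fun hEv R
  rw [R.ord_mul (mul_ne_zero h h') (inv_ne_zero hf), R.ord_mul h h', R.ord_inv]
  have h4 : Finsupp.single Cv.O ((D₀ : ℕ) : ℤ) + Finsupp.single Cv.O ((d : ℕ) : ℤ) =
      Finsupp.single Cv.O (M : ℤ) + Finsupp.single Cv.O (M : ℤ) := by
    rw [← Finsupp.single_add, ← Finsupp.single_add]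
    congr 1
    exact_mod_cast hD
  have h5 := DFunLike.congr_fun h4 R
  simp only [zeroDiv, ratFun, Finsupp.add_apply, Finsupp.sub_apply, divisorOf_apply] at h1 h2 h3 h5 ⊢
  omega

namespace GalData

variable {Cv : Model S ℚbar F} (act : GalData Cv)

/-- The data attached to a representative and a complement. -/
theorem exists_array (g M : ℕ) (hM : rrBound ℚbar F + (g + g : ℕ) ≤ M) :
    ∃ C : ℝ, ∀ (E v : Divisor ℚbar F) (y : Fin (S.l (g + g)) → ℚ), act.FixEff g E →
      act.FixEff g v → y ≠ 0 → E + v = Cv.zeroDiv (g + g) y →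
      ∃ (w w' : Fin (S.l M - g) → Cv.V M)
        (z : Fin (S.l M - g) → Fin (S.l M - g) → Cv.V (M + M - (g + g)))
        (Φ : (Fin (S.l M - g) → Fin (S.l (M + M - (g + g)))) → ℚ),
        (∀ i, w i ∈ Cv.W M E) ∧ (∀ i, w' i ∈ Cv.W M v) ∧
        (∀ i j, (z i j : F) * (Cv.ratFun (g + g) y : F) = (w i : F) * w' j) ∧
        (fun I => algebraMap ℚ ℚbar (Φ I)) = Cv.pdet z ∧ Φ ≠ 0 ∧
        logHeight Φ + ((S.l M - g : ℕ) : ℝ) * logHeight y ≤ Cv.plh M E + Cv.plh M v + C := by
  classical
  push_cast at hM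
  have hr : (genusFF ℚbar F : ℤ) ≤ rrBound ℚbar F := le_max_right _ _
  have hl := Cv.l_eq (m := M) (by omega)
  set n := S.l M - g with hn
  set D₀ := M + M - (g + g) with hD₀
  obtain ⟨C₁, h₁⟩ := exists_minor_height_le Cv M g n (by omega) (by omega)
  obtain ⟨C₂, h₂⟩ := exists_tmul_compare Cv n D₀ (g + g) M M (by omega)
  refine ⟨C₁ + C₁ + C₂, fun E v y hE hv hy hEv => ?_⟩
  obtain ⟨uE, huE⟩ := hE.isRat.2 M g hE.2.2 (by omega)
  obtain ⟨uv, huv⟩ := hv.isRat.2 M g hv.2.2 (by omega)
  obtain ⟨wq, hwli, hwsp⟩ := huE.exists_rat_basis (n := n) (by omega) (by omega)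
  obtain ⟨wq', hwli', hwsp'⟩ := huv.exists_rat_basis (n := n) (by omega) (by omega)
  obtain ⟨hr0, hle⟩ := h₁ E uE wq huE hwli hwsp
  obtain ⟨hr0', hle'⟩ := h₁ v uv wq' huv hwli' hwsp'
  have hw : ∀ i, Cv.ratFun M (wq i) ∈ Cv.W M E := fun i => hwsp ▸ Submodule.subset_span ⟨i, rfl⟩
  have hw' : ∀ i, Cv.ratFun M (wq' i) ∈ Cv.W M v := fun i => hwsp' ▸ Submodule.subset_span ⟨i, rfl⟩
  have hf := Cv.coe_ofCoord_ne_zero (algebraMap_comp_ne_zero hy)
  let z : Fin n → Fin n → Cv.V D₀ := fun i j =>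
    ⟨_, quot_mem (D₀ := D₀) (by omega) hy hEv (hw i) (hw' j)⟩
  have hz : ∀ i j, (z i j : F) * (Cv.ratFun (g + g) y : F) =
      (Cv.ratFun M (wq i) : F) * Cv.ratFun M (wq' j) := fun i j =>
    inv_mul_cancel_right₀ hf _
  have hzq : ∀ i j, ∃ q : Fin (S.l D₀) → ℚ,
      ((Cv.b D₀).repr (z i j) : Fin (S.l D₀) → ℚbar) = fun a => algebraMap ℚ ℚbar (q a) := by
    intro i j
    refine exists_rat_of_fixed fun σ a => ?_
    have h1 : act.ρ σ • (z i j : F) = z i j := by
      simp only [z, smul_mul', smul_inv'', act.smul_ratFun]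
    rw [act.smul_coe] at h1
    have h2 := congrArg (fun x => (Cv.b D₀).repr x a) (Subtype.ext h1)
    simpa [repr_ofCoord] using h2
  choose q hq using hzq
  set Φ : (Fin n → Fin (S.l D₀)) → ℚ := fun I => ∑ σ : Equiv.Perm (Fin n),
    ∑ τ : Equiv.Perm (Fin n), (Equiv.Perm.sign σ * Equiv.Perm.sign τ) • ∏ k, q (σ k) (τ k) (I k)
  have hΦ : (fun I => algebraMap ℚ ℚbar (Φ I)) = Cv.pdet z := by
    funext I
    simp only [Φ, pdet, map_sum, Units.smul_def, map_zsmul, map_prod, hq]
  have hy' : (fun I : Fin n → Fin (S.l (g + g)) => ∏ k, y (I k)) ≠ 0 := by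
    obtain ⟨a, ha⟩ := Function.ne_iff.mp hy
    exact fun h => Finset.prod_ne_zero_iff.2 (fun _ _ => ha) (congrFun h fun _ => a)
  have hdet : ∀ (wq : Fin n → Fin (S.l M) → ℚ),
      (fun I => algebraMap ℚ ℚbar ((Matrix.of fun i k => wq i (I k)).det)) =
        Cv.tdet (fun i => Cv.ratFun M (wq i)) := fun wq => by
    funext I
    rw [tdet, RingHom.map_det]
    congr 1
    ext i k
    simp [ratFun, repr_ofCoord]
  have hid : ∀ P : Fin n → Cv.AffPt,
      Cv.tval (fun I => algebraMap ℚ ℚbar (Φ I)) P *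
        Cv.tval (fun I => algebraMap ℚ ℚbar (∏ k, y (I k))) P =
      Cv.tval (fun I => algebraMap ℚ ℚbar ((Matrix.of fun i k => wq i (I k)).det)) P *
        Cv.tval (fun I => algebraMap ℚ ℚbar ((Matrix.of fun i k => wq' i (I k)).det)) P := by
    intro P
    rw [hΦ, hdet, hdet]
    simp only [map_prod]
    exact Cv.tval_pdet_mul (y := fun a => algebraMap ℚ ℚbar (y a)) rfl hz P
  have hΦ0 : Φ ≠ 0 := fun h0 => by
    obtain ⟨P, -, h1, h2⟩ := Cv.exists_tval_ne_zero
      (A := fun I => algebraMap ℚ ℚbar ((Matrix.of fun i k => wq i (I k)).det))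
      (B := fun I => algebraMap ℚ ℚbar ((Matrix.of fun i k => wq' i (I k)).det))
      (algebraMap_comp_ne_zero hr0) (algebraMap_comp_ne_zero hr0') ∅ Set.finite_empty
    refine mul_ne_zero h1 h2 ?_
    rw [← hid P, h0]
    simp [tval]
  refine ⟨_, _, z, Φ, hw, hw', hz, hΦ, hΦ0, ?_⟩
  have h3 := h₂ Φ _ _ _ hΦ0 hy' hr0 hr0' hid
  rw [logHeight_prod_pow n (by exact hy)] at h3
  rw [huE.plh_eq (by omega), huv.plh_eq (by omega)]
  rw [abs_le] at h3
  linarith [h3.1, h3.2]

end GalData

end Model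

end FLTAgent.MW
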