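import Fermat.Agent.MW.Pairing

/-!
# The height on fixed classes
-/

noncomputable section

set_option maxSynthPendingDepth 3

open AlgebraicCurve Module Height
open FLTAgent.FunctionField

namespace FLTAgent.MW.Model.GalData

local notation "ℚbar" => AlgebraicClosure ℚ

variable {S : Shape} {F : Type*} [Field F] [Algebra ℚbar F] [IsFunctionField ℚbar F]
  {Cv : Model S ℚbar F} (act : GalData Cv)

/-- The fixed classes of degree `0`. -/
def fixedClasses : AddSubgroup (Pic0 ℚbar F) where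
  carrier := {x | ∀ σ, act.ρ σ • x = x}
  zero_mem' _ := smul_zero _
  add_mem' {x y} hx hy σ := by rw [smul_add, hx σ, hy σ]
  neg_mem' {x} hx σ := by rw [smul_neg, hx σ]

omit [IsFunctionField ℚbar F] in
theorem mem_fixedClasses {x : Pic0 ℚbar F} :
    x ∈ act.fixedClasses ↔ ∀ σ, act.ρ σ • x = x := Iff.rfl

/-- `E - jO` represents `x`. -/
def Reps (j : ℕ) (E : Divisor ℚbar F) (x : Pic0 ℚbar F) : Prop :=
  act.FixEff j E ∧ ∃ D : Divisor.degZero (K := ℚbar) (F := F),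
    Pic0.mk D = x ∧ E - Finsupp.single Cv.O (j : ℤ) - D ∈ Divisor.principal (K := ℚbar) (F := F)

omit [IsFunctionField ℚbar F] in
theorem pic0_mk_eq_iff {D D' : Divisor.degZero (K := ℚbar) (F := F)} :
    Pic0.mk D = Pic0.mk D' ↔
      (D : Divisor ℚbar F) - D' ∈ Divisor.principal (K := ℚbar) (F := F) := by
  rw [Pic0.mk, Pic0.mk, eq_comm, QuotientAddGroup.eq, AddSubgroup.mem_addSubgroupOf,
    AddSubgroup.coe_add, AddSubgroup.coe_neg, neg_add_eq_sub]

theorem exists_reps {x : Pic0 ℚbar F} (hx : x ∈ act.fixedClasses) :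
    ∃ E, act.Reps (genusFF ℚbar F) E x := by
  obtain ⟨D, rfl⟩ := Pic0.mk_surjective x
  obtain ⟨E, hE0, hEf, hEd, hE⟩ := act.exists_fixed_effective (D := (D : Divisor ℚbar F))
    (Divisor.mem_degZero.1 D.2) (fun σ => by
      have h := hx σ
      rw [SemilinearAut.pic0_smul_mk, pic0_mk_eq_iff, SemilinearAut.coe_degZeroSMulHom] at h
      exact h) (j := genusFF ℚbar F) le_rfl
  exact ⟨E, ⟨hE0, hEf, hEd⟩, D, rfl, hE⟩

/-- The chosen representative. -/
def rep (x : act.fixedClasses) : Divisor ℚbar F := (act.exists_reps x.2).choose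

theorem reps_rep (x : act.fixedClasses) : act.Reps (genusFF ℚbar F) (act.rep x) (x : Pic0 ℚbar F) :=
  (act.exists_reps x.2).choose_spec

variable {act}

omit [IsFunctionField ℚbar F] in
theorem Reps.add {j j' : ℕ} {E E' : Divisor ℚbar F} {x x' : Pic0 ℚbar F} (h : act.Reps j E x)
    (h' : act.Reps j' E' x') : act.Reps (j + j') (E + E') (x + x') := by
  obtain ⟨hE, D, rfl, hD⟩ := h
  obtain ⟨hE', D', rfl, hD'⟩ := h'
  refine ⟨hE.add hE', D + D', Pic0.mk_add D D', ?_⟩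
  convert add_mem hD hD' using 1
  rw [AddSubgroup.coe_add, Nat.cast_add, Finsupp.single_add]
  abel

theorem reps_single (j : ℕ) : act.Reps j (Finsupp.single Cv.O (j : ℤ)) 0 := by
  refine ⟨fixEff_single j, 0, rfl, ?_⟩
  simp

omit [IsFunctionField ℚbar F] in
theorem Reps.sub_mem {j : ℕ} {E E' : Divisor ℚbar F} {x : Pic0 ℚbar F} (h : act.Reps j E x)
    (h' : act.Reps j E' x) : E - E' ∈ Divisor.principal (K := ℚbar) (F := F) := by
  obtain ⟨-, D, rfl, hD⟩ := h
  obtain ⟨-, D', he, hD'⟩ := h'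
  convert AddSubgroup.sub_mem _ (AddSubgroup.sub_mem _ hD hD') (pic0_mk_eq_iff.1 he) using 1
  abel

variable (act)

/-- The pairing of `E - gO` with `G - gO`. -/
def qPair (_act : GalData Cv) (N : ℕ) (E G : Divisor ℚbar F) : ℝ :=
  Cv.pairB N E G - Cv.pairB N E (Finsupp.single Cv.O (genusFF ℚbar F : ℤ))
    - Cv.pairB N (Finsupp.single Cv.O (genusFF ℚbar F : ℤ)) G
    + Cv.pairB N (Finsupp.single Cv.O (genusFF ℚbar F : ℤ))
        (Finsupp.single Cv.O (genusFF ℚbar F : ℤ))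

theorem qPair_comm (N : ℕ) (E G : Divisor ℚbar F) : act.qPair N E G = act.qPair N G E := by
  simp only [qPair, pairB_comm N E G, pairB_comm N E (Finsupp.single Cv.O (genusFF ℚbar F : ℤ)),
    pairB_comm N (Finsupp.single Cv.O (genusFF ℚbar F : ℤ)) G]
  ring

theorem qPair_single_left (N : ℕ) (G : Divisor ℚbar F) :
    act.qPair N (Finsupp.single Cv.O (genusFF ℚbar F : ℤ)) G = 0 := by
  simp only [qPair]
  ring

variable (N : ℕ) (hN : 6 * rrBound ℚbar F + (8 * genusFF ℚbar F + 4 : ℕ) ≤ N)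
include hN

/-- The pairing is additive in the class. -/
theorem exists_qPair_add : ∃ C : ℝ, ∀ (E E₁ E₂ G : Divisor ℚbar F) (x₁ x₂ : Pic0 ℚbar F),
    act.Reps (genusFF ℚbar F) E (x₁ + x₂) → act.Reps (genusFF ℚbar F) E₁ x₁ →
    act.Reps (genusFF ℚbar F) E₂ x₂ → act.FixEff (genusFF ℚbar F) G →
    |act.qPair N E G - act.qPair N E₁ G - act.qPair N E₂ G| ≤ C := by
  set g := genusFF ℚbar F with hg
  push_cast at hN
  obtain ⟨C₁, h₁⟩ := act.exists_pairB_add_le g g g N (by push_cast; omega)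
  obtain ⟨C₂, h₂⟩ := act.exists_pairB_invariant (g + g) g N (by push_cast; omega)
  refine ⟨4 * C₁ + C₂, fun E E₁ E₂ G x₁ x₂ hE hE₁ hE₂ hG => ?_⟩
  have ho : act.FixEff g (Finsupp.single Cv.O (g : ℤ)) := fixEff_single g
  have hR : act.Reps (g + g) (E + Finsupp.single Cv.O (g : ℤ)) (x₁ + x₂) := by
    simpa using hE.add (reps_single g)
  have hR' := hE₁.add hE₂
  have a1 := h₁ E (Finsupp.single Cv.O (g : ℤ)) G hE.1 ho hG
  have a2 := h₁ E (Finsupp.single Cv.O (g : ℤ)) _ hE.1 ho ho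
  have a3 := h₁ E₁ E₂ G hE₁.1 hE₂.1 hG
  have a4 := h₁ E₁ E₂ _ hE₁.1 hE₂.1 ho
  have b := h₂ _ _ G _ hR.1 hR'.1 hG ho (hR.sub_mem hR')
  simp only [qPair, ← hg]
  rw [abs_le] at *
  constructor <;>
    linarith [a1.1, a1.2, a2.1, a2.2, a3.1, a3.2, a4.1, a4.2, b.1, b.2]

omit hN in
/-- The height of a fixed class. -/
def hgt (x : act.fixedClasses) : ℝ := act.qPair N (act.rep x) (act.rep x)

/-- The parallelogram law up to a bounded error. -/
theorem exists_parallelogram : ∃ C : ℝ, ∀ x y : act.fixedClasses,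
    |act.hgt N (x + y) + act.hgt N (x - y) - 2 * (act.hgt N x + act.hgt N y)| ≤ C := by
  obtain ⟨C, hC⟩ := act.exists_qPair_add N hN
  refine ⟨12 * C, fun x y => ?_⟩
  have hadd : ∀ (u v : act.fixedClasses) (G : Divisor ℚbar F), act.FixEff (genusFF ℚbar F) G →
      |act.qPair N (act.rep (u + v)) G - act.qPair N (act.rep u) G - act.qPair N (act.rep v) G| ≤ C :=
    fun u v G hG => hC _ _ _ G _ _ (act.reps_rep (u + v)) (act.reps_rep u) (act.reps_rep v) hG
  have f : ∀ u : act.fixedClasses, act.FixEff (genusFF ℚbar F) (act.rep u) :=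
    fun u => (act.reps_rep u).1
  have p1 := hadd x y _ (f (x + y))
  have p2 := hadd x y _ (f x)
  have p3 := hadd x y _ (f y)
  have m1 := hadd (x - y) y _ (f (x - y))
  have m2 := hadd (x - y) y _ (f x)
  have m3 := hadd (x - y) y _ (f y)
  rw [sub_add_cancel] at m1 m2 m3
  simp only [hgt]
  rw [act.qPair_comm N (act.rep x) (act.rep (x + y)),
    act.qPair_comm N (act.rep y) (act.rep (x + y))] at p1
  rw [act.qPair_comm N (act.rep x) (act.rep (x - y)),
    act.qPair_comm N (act.rep y) (act.rep (x - y))] at m1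
  rw [act.qPair_comm N (act.rep y) (act.rep x)] at p2 m2
  rw [abs_le] at *
  constructor <;>
    linarith [p1.1, p1.2, p2.1, p2.2, p3.1, p3.2, m1.1, m1.2, m2.1, m2.2, m3.1, m3.2]

/-- The height through the function cutting out a representative of `x` and one of `-x`. -/
theorem exists_hgt_formula : ∃ C : ℝ, ∀ x : act.fixedClasses,
    ∃ (v : Divisor ℚbar F) (y : Fin (S.l (genusFF ℚbar F + genusFF ℚbar F)) → ℚ),
      act.FixEff (genusFF ℚbar F) v ∧ y ≠ 0 ∧
      act.rep x + v = Cv.zeroDiv (genusFF ℚbar F + genusFF ℚbar F) y ∧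
      |act.hgt N x - (Cv.plh N (act.rep x) + Cv.plh N v
        - ((N : ℝ) + 1 - 2 * genusFF ℚbar F) * logHeight y)| ≤ C := by
  set g := genusFF ℚbar F with hg
  have hr : (g : ℤ) ≤ rrBound ℚbar F := le_max_right _ _
  obtain ⟨C₀, h₀⟩ := act.exists_qPair_add N hN
  push_cast at hN
  obtain ⟨C₁, h₁⟩ := act.exists_pairB_add_le g g g N (by push_cast; omega)
  obtain ⟨Mp, rfl⟩ : ∃ Mp, N = Mp + (g + g) := ⟨N - (g + g), by omega⟩
  push_cast at hN
  obtain ⟨C₂, h₂⟩ := act.exists_pairB_zeroDiv (g + g) g Mp (by push_cast; omega)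
  obtain ⟨C₃, h₃⟩ := exists_plh_principal Cv (g + g) Mp (by omega)
  set o : Divisor ℚbar F := Finsupp.single Cv.O (g : ℤ) with ho'
  set K₀ : ℝ := Cv.plh Mp o - Cv.plh (Mp + (g + g)) o
  refine ⟨C₀ + C₁ + C₂ + C₃ + |K₀ - Cv.pairB (Mp + (g + g)) o o|, fun x => ?_⟩
  obtain ⟨v, hv⟩ := act.exists_reps (-x).2
  have hE := act.reps_rep x
  have hsum : act.Reps (g + g) (act.rep x + v) 0 := by simpa using hE.add hv
  obtain ⟨y, hy, hyv⟩ := act.exists_zeroDiv_of_fixed hsum.1.2.1 hsum.1.1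
    (hsum.sub_mem (reps_single _))
  refine ⟨v, y, hv.1, hy, hyv, ?_⟩
  have ho : act.FixEff g o := fixEff_single g
  -- `q(E, v) = - q(E, E)`
  have q1 := h₀ o (act.rep x) v (act.rep x) (x : Pic0 ℚbar F) ((-x : act.fixedClasses) : Pic0 ℚbar F)
    (by simpa using reps_single (act := act) g) hE hv hE.1
  have hq0 : act.qPair (Mp + (g + g)) o (act.rep x) = 0 := act.qPair_single_left _ _
  rw [hq0] at q1
  have q2 := h₁ _ _ o hE.1 hv.1 ho
  rw [hyv] at q2
  have q3 := h₂ o y hy ho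
  obtain ⟨u, hu, q4⟩ := h₃ y hy
  have q5 := le_abs_self (K₀ - Cv.pairB (Mp + (g + g)) o o)
  have q6 := neg_abs_le (K₀ - Cv.pairB (Mp + (g + g)) o o)
  rw [← hu.plh_eq (by push_cast; omega), ← hyv] at q4
  have hl : (S.l Mp : ℝ) = (Mp : ℝ) + 1 - g := by
    have h := Cv.l_eq (m := Mp) (by omega)
    rw [← hg] at h
    exact_mod_cast h
  have hB : Cv.pairB (Mp + (g + g)) (act.rep x) v =
      Cv.plh (Mp + (g + g)) (act.rep x + v) - Cv.plh (Mp + (g + g)) (act.rep x)
        - Cv.plh (Mp + (g + g)) v := rfl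
  have hc1 := pairB_comm (Cv := Cv) (Mp + (g + g)) v (act.rep x)
  have hc2 := pairB_comm (Cv := Cv) (Mp + (g + g)) o (act.rep x)
  simp only [qPair, hgt, ← hg, ← ho', K₀] at q1 q5 q6 ⊢
  rw [hl] at q4
  push_cast
  rw [abs_le] at *
  constructor <;>
    nlinarith [q1.1, q1.2, q2.1, q2.2, q3.1, q3.2, q4.1, q4.2, q5, q6, hB, hc1, hc2]

end FLTAgent.MW.Model.GalData
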