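import Mathlib.NumberTheory.Height.MvPolynomial
import Mathlib.NumberTheory.Height.NumberField
import Mathlib.RingTheory.Nullstellensatz
import Mathlib.RingTheory.MvPolynomial.Homogeneous
import Mathlib.FieldTheory.IsAlgClosed.AlgebraicClosure

/-!
# Heights along polynomial maps without common zeros on a cone

If homogeneous polynomials `p` over `ℚ` of degree `N` have no common nonzero zero over `ℚ̄` on
the cone cut out by homogeneous polynomials `c`, then `logHeight (p x) = N * logHeight x + O(1)`
for rational points `x` of the cone.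
-/

namespace FLTAgent.MW

open MvPolynomial Height

local notation "ℚbar" => AlgebraicClosure ℚ

section Component

variable {σ : Type*} {R : Type*} [CommRing R]

lemma homogeneousComponent_mul_left {c : MvPolynomial σ R} {d : ℕ} (hc : c.IsHomogeneous d)
    (q : MvPolynomial σ R) (n : ℕ) :
    homogeneousComponent n (c * q) =
      if d ≤ n then c * homogeneousComponent (n - d) q else 0 := by
  classical
  have hstep : ∀ i, homogeneousComponent n (c * homogeneousComponent i q) =
      if d + i = n then c * homogeneousComponent i q else 0 := fun i => by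
    rw [homogeneousComponent_of_mem (hc.mul (homogeneousComponent_isHomogeneous i q))]
    simp only [eq_comm (a := n)]
  conv_lhs => rw [← sum_homogeneousComponent q, Finset.mul_sum, map_sum]
  simp only [hstep]
  split_ifs with hd
  · rw [Finset.sum_eq_single (n - d)]
    · rw [if_pos (by omega)]
    · intro b _ hb; rw [if_neg (by omega)]
    · intro hb
      rw [if_pos (by omega), homogeneousComponent_eq_zero _ _ (by simp at hb; omega), mul_zero]
  · exact Finset.sum_eq_zero fun i _ => if_neg (by omega)

end Component

/-- A map given by forms without a common zero on a cone changes the logarithmic height by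
the degree, up to a bounded error. -/
theorem exists_abs_logHeight_eval_sub_le {ι ι' κ : Type*} [Finite ι] [Finite ι'] [Finite κ]
    {N : ℕ} (p : ι' → MvPolynomial ι ℚ) (hp : ∀ j, (p j).IsHomogeneous N)
    {d : κ → ℕ} (c : κ → MvPolynomial ι ℚ) (hc : ∀ k, (c k).IsHomogeneous (d k))
    (hzero : ∀ z : ι → ℚbar, (∀ k, aeval z (c k) = 0) → (∀ j, aeval z (p j) = 0) → z = 0) :
    ∃ C : ℝ, ∀ x : ι → ℚ, (∀ k, eval x (c k) = 0) →
      |logHeight (fun j => (p j).eval x) - N * logHeight x| ≤ C := by
  classical
  have : Fintype ι := Fintype.ofFinite ι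
  have : Fintype ι' := Fintype.ofFinite ι'
  have : Fintype κ := Fintype.ofFinite κ
  set I : Ideal (MvPolynomial ι ℚ) := Ideal.span (Set.range (Sum.elim p c)) with hI
  have hrad : ∀ k : ι, (X k : MvPolynomial ι ℚ) ∈ I.radical := by
    intro k
    rw [← vanishingIdeal_zeroLocus_eq_radical (K := ℚbar) I]
    intro z hz
    rw [mem_zeroLocus_iff] at hz
    have hmem : ∀ e, aeval z (Sum.elim p c e) = 0 := fun e =>
      hz _ (Ideal.subset_span ⟨e, rfl⟩)
    rw [hzero z (fun k => hmem (.inr k)) (fun j => hmem (.inl j))]
    simp
  choose e he using fun k => hrad k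
  set E := N + ∑ k, e k with hE
  have hmem : ∀ k, (X k : MvPolynomial ι ℚ) ^ E ∈ I := fun k => by
    have h1 : e k ≤ E := le_trans
      (Finset.single_le_sum (fun i _ => Nat.zero_le (e i)) (Finset.mem_univ k)) (by omega)
    rw [show E = (E - e k) + e k by omega, pow_add]
    exact I.mul_mem_left _ (he k)
  choose a ha using fun k => Ideal.mem_span_range_iff_exists_fun.mp (hmem k)
  set M := E - N
  let q : ι × ι' → MvPolynomial ι ℚ := fun kj => homogeneousComponent M (a kj.1 (.inl kj.2))
  have hq : ∀ kj, (q kj).IsHomogeneous M := fun kj => homogeneousComponent_isHomogeneous M _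
  have hid : ∀ x : ι → ℚ, (∀ k, eval x (c k) = 0) →
      ∀ k, ∑ j, (q (k, j)).eval x * (p j).eval x = (x k) ^ (M + N) := by
    intro x hx k
    have hMN : M + N = E := by omega
    have h := congrArg (fun P => eval x (homogeneousComponent E P)) (ha k)
    simp only [map_sum] at h
    rw [homogeneousComponent_eq_self (isHomogeneous_X_pow k E)] at h
    simp only [map_pow, eval_X, Fintype.sum_sum_type, Sum.elim_inl, Sum.elim_inr] at h
    rw [hMN, ← h]
    have hc0 : ∀ i, eval x (homogeneousComponent E (a k (.inr i) * c i)) = 0 := fun i => by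
      rw [mul_comm, homogeneousComponent_mul_left (hc i)]
      split_ifs
      · rw [map_mul, hx i, zero_mul]
      · rw [map_zero]
    rw [Finset.sum_eq_zero (s := Finset.univ) (fun i _ => hc0 i), add_zero]
    refine Finset.sum_congr rfl fun j _ => ?_
    rw [mul_comm (a k _), homogeneousComponent_mul_left (hp j), if_pos (by omega), map_mul,
      mul_comm]
  obtain ⟨C₁, h₁⟩ := logHeight_eval_le' (K := ℚ) hp
  obtain ⟨C₂, h₂⟩ := logHeight_eval_ge' (K := ℚ) (N := N) hq
  refine ⟨max C₁ (-C₂), fun x hx => abs_sub_le_iff.mpr ⟨?_, ?_⟩⟩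
  · linarith [h₁ x, le_max_left C₁ (-C₂)]
  · linarith [h₂ p (hid x hx), le_max_right C₁ (-C₂)]

end FLTAgent.MW
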