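import Fermat.Agent.GoodRed.GaloisRed

/-!
# Inertia acts trivially after reduction
-/

set_option autoImplicit false
set_option linter.unusedSectionVars false
set_option linter.style.haveILetI false
set_option synthInstance.maxHeartbeats 100000

noncomputable section

open ModularCurve IsLocalRing AlgebraicCurve

namespace FLTAgent.MW

open FLTAgent.FunctionField FLTAgent.GoodRed RedDatum

local notation "Qbar" => AlgebraicClosure ℚ

variable {A : ValuationSubring (AlgebraicClosure ℚ)} {l : ℕ} [Fact l.Prime]
  {N : ℕ} [NeZero N]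

theorem residueAut_of_mem_inertia (g : A.decompositionSubgroup ℚ)
    (hg : g ∈ A.inertiaSubgroup ℚ) : residueAut g = RingEquiv.refl _ :=
  RingEquiv.ext fun x => RingEquiv.congr_fun (MonoidHom.mem_ker.1 hg) x

set_option maxHeartbeats 1600000 in
/-- The reduction map kills the action of inertia. -/
theorem reductionModL_smul_of_inertia (hA : A.LiesOverPrime l) (hlN : ¬ l ∣ N)
    {σ : Qbar ≃ₐ[ℚ] Qbar} (hσ : σ ∈ A.inertiaSubgroupIn ℚ) (x : JZero N) :
    reductionModL A N (σ • x) = reductionModL A N x := by
  haveI := isFunctionField_fullC A hA N hlN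
  haveI := isAlgClosed_residue A
  obtain ⟨g, hg, rfl⟩ := Subgroup.mem_map.1 hσ
  have h : ReductionInputsModL A N := reductionInputsModL_x0 hA hlN
  obtain ⟨R, hR⟩ := exists_placeRed_of_isPlaceReductionModL hA hlN
    (isPlaceReductionModL_placeReductionModL h)
  obtain ⟨d, c, hL, hk⟩ := exists_rrLarge_x0 A hA N hlN
  obtain ⟨X, rfl⟩ := Pic0.mk_surjective x
  rw [galois_smul_pic0_def, SemilinearAut.pic0_smul_mk, reductionModL_mk h, reductionModL_mk h]
  refine congrArg Pic0.mk (Subtype.ext ?_)
  show Finsupp.mapDomain (placeReductionModL h) _ = Finsupp.mapDomain (placeReductionModL h) _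
  rw [← hR]
  refine (R.mapDomain_smul hL hk _ _ (fun y z hyz => red_galois_smul hA hlN g hyz) _).trans ?_
  rw [residueAut_of_mem_inertia g hg, fullAut_refl, one_smul]

end FLTAgent.MW
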