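import Fermat.Agent.MW.Galois
import Fermat.Agent.Mazur.Cusps
import Fermat.Agent.Hecke.Inputs

/-!
# The model of a function field of Laurent series with Galois fixed bases
-/

noncomputable section

set_option maxSynthPendingDepth 3

open AlgebraicCurve Module ModularCurve
open FLTAgent.FunctionField

namespace FLTAgent.MW

local notation "ℚbar" => AlgebraicClosure ℚ

section Abstract

variable {F : Type*} [Field F] [Algebra ℚbar F] [IsFunctionField ℚbar F]
  (ρ : (ℚbar ≃ₐ[ℚ] ℚbar) →* SemilinearAut ℚbar F) (co : ℤ → F →ₗ[ℚbar] ℚbar)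
  (hco : ∀ (σ : ℚbar ≃ₐ[ℚ] ℚbar) k (x : F), co k (ρ σ • x) = σ (co k x))
  (hsep : ∀ x : F, (∀ k, co k x = 0) → x = 0)

include hco hsep in
/-- A basis of a stable Riemann–Roch space fixed by Galois. -/
theorem exists_fixed_basis {D : Divisor ℚbar F} (hD : ∀ σ, ρ σ • D = D) :
    ∃ (l : ℕ) (b : Basis (Fin l) ℚbar (riemannRochSpace D)),
      ∀ σ (i : Fin l), ρ σ • (b i : F) = b i := by
  classical
  let φ : ℤ → Module.Dual ℚbar (riemannRochSpace D) := fun k =>
    (co k).comp (riemannRochSpace D).subtype
  obtain ⟨l, f, hf, hfs, hle⟩ : ∃ (l : ℕ) (f : Fin l → Module.Dual ℚbar (riemannRochSpace D)),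
      (∀ i, f i ∈ Set.range φ) ∧
        Submodule.span ℚbar (Set.range f) = Submodule.span ℚbar (Set.range φ) ∧
        l ≤ finrank ℚbar (riemannRochSpace D) := by
    obtain ⟨f, hf, hfs, -⟩ := Submodule.exists_fun_fin_finrank_span_eq ℚbar (Set.range φ)
    refine ⟨_, f, hf, hfs, ?_⟩
    rw [← Subspace.dual_finrank_eq (V := riemannRochSpace D)]
    exact Submodule.finrank_le (Submodule.span ℚbar (Set.range φ))
  choose k hk using hf
  let ψ : riemannRochSpace D →ₗ[ℚbar] Fin l → ℚbar := LinearMap.pi fun j => φ (k j)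
  have hinj : Function.Injective ψ := by
    rw [← LinearMap.ker_eq_bot, LinearMap.ker_eq_bot']
    intro x hx
    have h1 : Submodule.span ℚbar (Set.range f) ≤
        LinearMap.ker (Module.Dual.eval ℚbar (riemannRochSpace D) x) := by
      refine Submodule.span_le.2 ?_
      rintro _ ⟨j, rfl⟩
      rw [SetLike.mem_coe, LinearMap.mem_ker, Module.Dual.eval_apply, ← hk]
      exact congrFun hx j
    refine Subtype.ext (hsep _ fun j => ?_)
    have h2 : φ j ∈ LinearMap.ker (Module.Dual.eval ℚbar (riemannRochSpace D) x) :=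
      h1 (hfs ▸ Submodule.subset_span ⟨j, rfl⟩)
    exact h2
  have hsurj : Function.Surjective ψ := by
    have hge := LinearMap.finrank_le_finrank_of_injective hinj
    rw [Module.finrank_fin_fun] at hge
    exact (LinearMap.injective_iff_surjective_of_finrank_eq_finrank
      (by rw [Module.finrank_fin_fun]; omega)).1 hinj
  let e := LinearEquiv.ofBijective ψ ⟨hinj, hsurj⟩
  refine ⟨l, Basis.ofEquivFun e, fun σ i => ?_⟩
  set b := Basis.ofEquivFun e
  have hb : ψ (b i) = Pi.single i 1 := by
    show e (b i) = _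
    simp [b]
  have hmem : ρ σ • (b i : F) ∈ riemannRochSpace D := by
    have h := smul_mem_L (ρ σ) (b i).2
    rwa [hD σ] at h
  refine congrArg Subtype.val (hinj (a₁ := ⟨_, hmem⟩) (a₂ := b i) (funext fun j => ?_))
  have h := congrFun hb j
  show co (k j) (ρ σ • (b i : F)) = co (k j) (b i : F)
  rw [hco, show co (k j) (b i : F) = (Pi.single i (1 : ℚbar) : Fin l → ℚbar) j from h]
  by_cases hij : j = i <;> simp [hij]

include hco hsep in
/-- A model with Galois action, from a fixed base point. -/
theorem exists_galData (hbase : ∀ σ a, SemilinearAut.baseAut (ρ σ) a = σ a) (O : Place ℚbar F)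
    (hO : ∀ σ, ρ σ • O = O) :
    ∃ (S : Shape) (Cv : Model S ℚbar F) (act : Model.GalData Cv), ∀ σ, act.ρ σ = ρ σ := by
  classical
  have hD : ∀ (m : ℕ) σ, ρ σ • Finsupp.single O (m : ℤ) = Finsupp.single O (m : ℤ) := fun m σ => by
    rw [SemilinearAut.smul_single, hO]
  choose l b hb using fun m => exists_fixed_basis ρ co hco hsep (hD m)
  have hmul : ∀ m n i j, (b m i : F) * b n j ∈
      riemannRochSpace (Finsupp.single O ((m + n : ℕ) : ℤ)) := fun m n i j => by
    have h := mul_le_L (Submodule.mul_mem_mul (b m i).2 (b n j).2)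
    rwa [← Finsupp.single_add, ← Nat.cast_add] at h
  have hc : ∀ m n (i : Fin (l m)) (j : Fin (l n)), ∃ c : Fin (l (m + n)) → ℚ,
      ((b (m + n)).repr ⟨_, hmul m n i j⟩ : Fin (l (m + n)) → ℚbar) =
        fun k => algebraMap ℚ ℚbar (c k) := by
    intro m n i j
    refine Model.GalData.exists_rat_of_fixed fun σ k => ?_
    set x : riemannRochSpace (Finsupp.single O ((m + n : ℕ) : ℤ)) := ⟨_, hmul m n i j⟩ with hxdef
    have hx : ρ σ • (x : F) = x := by
      show ρ σ • ((b m i : F) * b n j) = _
      rw [smul_mul', hb, hb]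
    have hsum : x = ∑ k, σ ((b (m + n)).repr x k) • b (m + n) k := by
      apply Subtype.ext
      conv_lhs => rw [← hx, ← (b (m + n)).sum_repr x]
      simp only [Submodule.coe_sum, SetLike.val_smul, Finset.smul_sum]
      exact Finset.sum_congr rfl fun a _ => by rw [smul_smul_semilinear, hb, hbase]
    have h := congrArg (fun y => (b (m + n)).repr y k) hsum
    simp only [Basis.repr_sum_self] at h
    exact h.symm
  choose c hc using hc
  let Cv : Model ⟨l, c⟩ ℚbar F :=
    { O := O
      b := b
      b_mul := fun m n i j => by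
        have h := congrArg Subtype.val ((b (m + n)).sum_repr ⟨_, hmul m n i j⟩)
        simp only [Submodule.coe_sum, SetLike.val_smul, hc] at h
        exact h.symm }
  exact ⟨_, Cv, { ρ := ρ, baseAut_ρ := hbase, smul_O := hO, smul_b := fun σ m i => hb m σ i },
    fun σ => rfl⟩

end Abstract

/-- A coefficient of the expansion. -/
def coeffLin (F₀ : IntermediateField ℚ (LaurentSeries ℚ)) (k : ℤ) :
    laurentBaseChange ℚbar F₀ →ₗ[ℚbar] ℚbar where
  toFun x := (x : LaurentSeries ℚbar).coeff k
  map_add' x y := rfl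
  map_smul' c x := by
    rw [IntermediateField.coe_smul, Algebra.smul_def, algebraMap_laurentSeries_eq_single,
      HahnSeries.coeff_single_zero_mul]
    rfl

open FLTAgent.Mazur

variable {p : ℕ} [NeZero p] [Fact p.Prime]

theorem smul_cuspInf (σ : ℚbar ≃ₐ[ℚ] ℚbar) :
    arithmeticGalois (modularFunctionFieldFull p) σ • cuspInf p = cuspInf p := by
  refine place_ext_of_ord fun f => ?_
  set g := arithmeticGalois (modularFunctionFieldFull p) σ
  have h := SemilinearAut.ord_smul g (cuspInf p) (g⁻¹ • f)
  rw [smul_inv_smul] at h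
  rw [h, ord_cuspInf, ord_cuspInf]
  conv_rhs => rw [← smul_inv_smul g f]
  rw [coe_arithmeticGalois_smul, order_coeffMap_galois]

variable (p) in
/-- The model of `X₀(p)` at the cusp at infinity. -/
theorem exists_galData_x0 [IsFunctionField ℚbar (modularFunctionFieldBar p)] :
    ∃ (S : Shape) (Cv : Model S ℚbar (modularFunctionFieldBar p)) (act : Model.GalData Cv),
      ∀ σ, act.ρ σ = arithmeticGalois (modularFunctionFieldFull p) σ :=
  exists_galData _ (coeffLin (modularFunctionFieldFull p))
    (fun σ k x => by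
      show ((arithmeticGalois (modularFunctionFieldFull p) σ • x : modularFunctionFieldBar p) : LaurentSeries ℚbar).coeff k = _
      rw [coe_arithmeticGalois_smul, coeffMap_coeff]
      rfl)
    (fun x hx => Subtype.ext (HahnSeries.ext (funext hx))) (fun _ _ => rfl) (cuspInf p) smul_cuspInf

end FLTAgent.MW
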