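import Fermat.Agent.RT.Cond.TangentFin
import Fermat.Agent.GalRep.OpenStab
import Mathlib.GroupTheory.Index
import Mathlib.LinearAlgebra.Dual.Lemmas

/-!
# The weak Mordell–Weil theorem at `2`

For a discrete Galois module with finite `2`-torsion, halves of fixed elements give cocycles with
values in the `2`-torsion, which are unramified outside a finite set once the halves are fixed by
inertia there; there are only finitely many such cocycles.
-/

set_option autoImplicit false

noncomputable section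

open IsDedekindDomain

namespace FLTAgent.MW

open FLTAgent.TW (Qb Γ IsLevel)

variable {J : Type*} [AddCommGroup J] [DistribMulAction Γ J]

/-- Finitely many classes of fixed elements modulo twice fixed elements. -/
theorem finiteIndex_double_of_halves {G : AddSubgroup J} (hG : ∀ x, x ∈ G ↔ ∀ σ : Γ, σ • x = x)
    (hdiv : ∀ x ∈ G, ∃ y : J, 2 • y = x) (hfin : {t : J | 2 • t = 0}.Finite)
    (hopen : ∀ y : J, GalRep.IsFiniteLevel y) (S : Finset ℕ)
    (hunr : ∀ (A : ValuationSubring Qb) (l : ℕ), l.Prime → A.LiesOverPrime l → l ∉ S →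
      ∀ σ ∈ A.inertiaSubgroupIn ℚ, ∀ y : J, 2 • y ∈ G → σ • y = y) :
    (nsmulAddMonoidHom (α := G) 2).range.FiniteIndex := by
  classical
  set T : AddSubgroup J := (nsmulAddMonoidHom (α := J) 2).ker with hT
  have hTmem : ∀ t, t ∈ T ↔ 2 • t = 0 := fun t => Iff.rfl
  have hTfin : Finite T := (hfin.subset fun t ht => (hTmem t).1 ht).to_subtype
  let _ : Module (ZMod 2) T := AddCommGroup.zmodModule fun t => Subtype.ext ((hTmem _).1 t.2)
  -- a level trivialising the two-torsion
  obtain ⟨K₀, hK₀, hK₀T⟩ := GalRep.exists_common_level hfin.toFinset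
    (fun t (σ : Γ) => σ • t = t) (fun t _ => hopen t)
  let K : IntermediateField ℚ Qb := K₀
  have : FiniteDimensional ℚ K := hK₀
  have hfix : ∀ σ ∈ K.fixingSubgroup, ∀ t ∈ T, σ • t = t := fun σ hσ t ht =>
    hK₀T σ (fun a ha => TW.apply_eq_of_mem_fixing hσ ha) t (hfin.mem_toFinset.2 ((hTmem t).1 ht))
  have hζ : IsPrimitiveRoot (-1 : K) 2 := IsPrimitiveRoot.neg_one 0 (by norm_num)
  let F := {f : K.fixingSubgroup → ZMod 2 | (∀ σ τ, f (σ * τ) = f σ + f τ) ∧ IsLevel f ∧
    ∀ (A : ValuationSubring Qb) (l : ℕ), l.Prime → A.LiesOverPrime l → l ∉ S →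
      ∀ σ : K.fixingSubgroup, (σ : Γ) ∈ A.inertiaSubgroupIn ℚ → f σ = 0}
  have hF : Finite F :=
    (RTCond.finite_homs_unramified (p := 2) K (-1) hζ S).to_subtype
  have : Finite (Γ ⧸ K.fixingSubgroup) := RTCond.finite_cosets K
  have hTfinite : Finite (Module.Dual (ZMod 2) T) :=
    Finite.of_injective (fun χ : Module.Dual (ZMod 2) T => (χ : T → ZMod 2)) DFunLike.coe_injective
  -- halves
  choose y hy using fun x : G => hdiv x x.2
  have hcoc : ∀ (x : G) (σ : Γ), σ • y x - y x ∈ T := fun x σ => by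
    rw [hTmem, nsmul_sub, smul_comm (2 : ℕ) σ (y x), hy, (hG _).1 x.2 σ, sub_self]
  let c : G → Γ → T := fun x σ => ⟨_, hcoc x σ⟩
  have hc : ∀ (x : G) (σ τ : Γ), ((c x (σ * τ) : T) : J) = σ • (c x τ : J) + c x σ := fun x σ τ => by
    simp only [c, mul_smul, smul_sub]
    abel
  have hadd : ∀ (x : G) (σ τ : K.fixingSubgroup), c x (σ * τ : Γ) = c x σ + c x τ := fun x σ τ => by
    apply Subtype.ext
    rw [hc, hfix σ σ.2 _ (c x τ).2, AddSubgroup.coe_add, add_comm]
  have hmemF : ∀ (x : G) (χ : Module.Dual (ZMod 2) T),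
      (fun σ : K.fixingSubgroup => χ (c x σ)) ∈ F := by
    intro x χ
    refine ⟨fun σ τ => ?_, ?_, fun A l hl hA hlS σ hσ => ?_⟩
    · show χ (c x ((σ * τ : K.fixingSubgroup) : Γ)) = _
      rw [Subgroup.coe_mul, hadd, map_add]
    · obtain ⟨L, hL, hLy⟩ := hopen (y x)
      refine ⟨L, hL, fun g s hs => ?_⟩
      show χ (c x ((g * s : K.fixingSubgroup) : Γ)) = χ (c x g)
      congr 1
      exact Subtype.ext (by simp only [c, Subgroup.coe_mul, mul_smul, hLy (s : Γ) hs])
    · show χ (c x σ) = 0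
      rw [show c x σ = 0 from Subtype.ext (by
        show (σ : Γ) • y x - y x = 0
        rw [hunr A l hl hA hlS σ hσ (y x) (by rw [hy]; exact x.2), sub_self]), map_zero]
  let code : G → (Module.Dual (ZMod 2) T → F) × (Γ ⧸ K.fixingSubgroup → T) := fun x =>
    (fun χ => ⟨_, hmemF x χ⟩, fun q => c x q.out)
  have hcode : ∀ x x' : G, code x = code x' → x - x' ∈ (nsmulAddMonoidHom (α := G) 2).range := by
    intro x x' h
    obtain ⟨h1, h2⟩ := Prod.ext_iff.1 h
    have hH : ∀ τ : K.fixingSubgroup, c x τ = c x' τ := fun τ => by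
      rw [← sub_eq_zero]
      refine (Module.forall_dual_apply_eq_zero_iff (ZMod 2) _).1 fun χ => ?_
      rw [map_sub, sub_eq_zero]
      exact congrFun (congrArg Subtype.val (congrFun h1 χ)) τ
    have hall : ∀ σ : Γ, c x σ = c x' σ := fun σ => by
      obtain ⟨τ, hτ⟩ : ∃ τ : K.fixingSubgroup,
          σ = (QuotientGroup.mk σ : Γ ⧸ K.fixingSubgroup).out * τ :=
        ⟨⟨_, QuotientGroup.eq.mp (QuotientGroup.out_eq' (QuotientGroup.mk σ : Γ ⧸ K.fixingSubgroup))⟩,
          by simp⟩
      apply Subtype.ext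
      have h4 : c x (QuotientGroup.mk σ : Γ ⧸ K.fixingSubgroup).out =
          c x' (QuotientGroup.mk σ : Γ ⧸ K.fixingSubgroup).out := congrFun h2 _
      rw [hτ, hc, hc, hH τ, h4]
    have hz : y x - y x' ∈ G := (hG _).2 fun σ => by
      have h3 : σ • y x - y x = σ • y x' - y x' := congrArg Subtype.val (hall σ)
      rw [smul_sub, sub_eq_sub_iff_sub_eq_sub]
      exact h3
    refine ⟨⟨_, hz⟩, Subtype.ext ?_⟩
    show 2 • (y x - y x') = (x : J) - x'
    rw [nsmul_sub, hy, hy]
  have : Finite (G ⧸ (nsmulAddMonoidHom (α := G) 2).range) := by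
    refine Finite.of_injective (fun q => code q.out) fun q q' h => ?_
    rw [← QuotientAddGroup.out_eq' q, ← QuotientAddGroup.out_eq' q', eq_comm,
      QuotientAddGroup.eq, ← sub_eq_neg_add]
    exact hcode _ _ h
  exact AddSubgroup.finiteIndex_of_finite_quotient

end FLTAgent.MW
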