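import Fermat.Agent.MW.Descent
import Fermat.Agent.MW.WeakMW
import Fermat.Agent.MW.Instance
import Fermat.Agent.GalRep.Assembly
import Fermat.Agent.JTors.Proj
import Fermat.Agent.MW.Inertia
import Fermat.Agent.PicTorsion.Divisible

/-!
# The Mordell–Weil theorem for `J₀(N)`, `N` prime
-/

noncomputable section

open AlgebraicCurve ModularCurve

namespace FLTAgent.MW

local notation "ℚbar" => AlgebraicClosure ℚ

/-- `J₀(N)(ℚ)` is finitely generated. -/
theorem fg_fixed_jZero_prime (N : ℕ) [NeZero N] (hN : N.Prime) :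
    AddGroup.FG (FixedPoints.addSubgroup (ℚbar ≃ₐ[ℚ] ℚbar) (JZero N)) := by
  have : Fact N.Prime := ⟨hN⟩
  have hff : FLTAgent.FunctionField.IsFunctionField ℚbar (modularFunctionFieldBar N) :=
    Hecke.isFunctionField_level ℚbar N
  have : HasPrincipalDivisors ℚbar (modularFunctionFieldBar N) :=
    Hecke.hasPrincipalDivisors_level ℚbar N
  obtain ⟨S, Cv, act, hact⟩ := exists_galData_x0 N
  have hmem : ∀ x : JZero N,
      x ∈ act.fixedClasses ↔ ∀ σ : ℚbar ≃ₐ[ℚ] ℚbar, σ • x = x := fun x =>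
    forall_congr' fun σ => by rw [hact, galois_smul_pic0_def]
  have heq : FixedPoints.addSubgroup (ℚbar ≃ₐ[ℚ] ℚbar) (JZero N) = act.fixedClasses := by
    ext x
    exact (hmem x).symm
  rw [heq]
  refine act.fg_fixedClasses ?_
  refine finiteIndex_double_of_halves hmem (fun x _ => PicTorsion.exists_nsmul_eq 2 x)
    (JTors.finite_jZero_torsion N two_ne_zero) (GalRep.isFiniteLevel_jZero N) {N, 2} ?_
  intro A l hl hA hlS σ hσ y hy
  have : Fact l.Prime := ⟨hl⟩
  have hndvd : ¬ l ∣ N * 2 := by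
    intro h
    simp only [Finset.mem_insert, Finset.mem_singleton, not_or] at hlS
    rcases hl.dvd_mul.1 h with h | h
    · exact hlS.1 ((Nat.prime_dvd_prime_iff_eq hl hN).1 h)
    · exact hlS.2 ((Nat.prime_dvd_prime_iff_eq hl Nat.prime_two).1 h)
  have hlN : ¬ l ∣ N := fun h => hndvd (dvd_mul_of_dvd_left h 2)
  refine sub_eq_zero.mp (GoodRed.eq_zero_of_reductionModL_eq_zero hA hlN
    (GoodRed.reductionInputsModL_x0 hA hlN) 2
    (fun h => hndvd (dvd_mul_of_dvd_right h N)) _ ?_ ?_)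
  · rw [nsmul_sub, ← GalRep.smul_nsmul_jZero, (hmem _).1 hy σ, sub_self]
  · rw [map_sub, reductionModL_smul_of_inertia hA hlN hσ, sub_self]

/-- `fg_fixed_jZero_prime` in the shape consumed by conditional assemblies. -/
theorem fg_fixed_jZero (N : ℕ) [NeZero N] (hN : N.Prime) (_hspec : GalRep.SpecializationsExist)
    (_hdiv : ∀ x : JZero N, (∀ σ : ℚbar ≃ₐ[ℚ] ℚbar, σ • x = x) → ∃ y : JZero N, 2 • y = x) :
    AddGroup.FG (FixedPoints.addSubgroup (ℚbar ≃ₐ[ℚ] ℚbar) (JZero N)) :=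
  fg_fixed_jZero_prime N hN

end FLTAgent.MW
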