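import Fermat.Agent.MW.AltForm
import Fermat.Agent.MW.Pencil

/-!
# Multiplication by a section and top forms

For `s ∈ L(B)` the multiplication `L(A) → L(A + B)` pulls the top form of `L(A + B) / L(A + B - E)`
back to a multiple of the one of `L(A) / L(A - E)`; the multiplier is a product over the points of
`E` of linear forms in `s`.
-/

noncomputable section

set_option maxSynthPendingDepth 3


open AlgebraicCurve Module
open FLTAgent.FunctionField

namespace FLTAgent.MW

variable {K F : Type*} [Field K] [Field F] [Algebra K F]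

/-- `L(A - E)` inside `L(A)`. -/
def sub (A E : Divisor K F) : Submodule K (riemannRochSpace A) :=
  (riemannRochSpace (A - E)).comap (riemannRochSpace A).subtype

theorem mem_sub {A E : Divisor K F} {x : riemannRochSpace A} :
    x ∈ sub A E ↔ (x : F) ∈ riemannRochSpace (A - E) := Iff.rfl

theorem sub_le_sub {A E E' : Divisor K F} (h : E ≤ E') : sub A E' ≤ sub A E :=
  Submodule.comap_mono (riemannRochSpace_mono (sub_le_sub_left h A))

theorem map_sub_eq {A E : Divisor K F} (hE : 0 ≤ E) :
    (sub A E).map (riemannRochSpace A).subtype = riemannRochSpace (A - E) := by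
  rw [sub, Submodule.map_comap_subtype, inf_eq_right]
  exact riemannRochSpace_mono (sub_le_self _ hE)

/-- Inclusion into a smaller Riemann–Roch space. -/
def inclL {A : Divisor K F} (W : Submodule K (riemannRochSpace A)) (D : Divisor K F)
    (h : ∀ x ∈ W, (x : F) ∈ riemannRochSpace D) : W →ₗ[K] riemannRochSpace D :=
  ((riemannRochSpace A).subtype ∘ₗ W.subtype).codRestrict _ fun x => h _ x.2

@[simp] theorem coe_inclL {A : Divisor K F} (W : Submodule K (riemannRochSpace A))
    (D : Divisor K F) (h : ∀ x ∈ W, (x : F) ∈ riemannRochSpace D) (x : W) :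
    (inclL W D h x : F) = ((x : riemannRochSpace A) : F) := rfl

/-- The tautological map `sub A E → L(A - E)`. -/
def toDiff (A E : Divisor K F) : sub A E →ₗ[K] riemannRochSpace (A - E) :=
  inclL (sub A E) (A - E) fun _ hx => mem_sub.1 hx

/-- An element of `L(A - E)` inside `sub A E`. -/
def ofDiff {A E : Divisor K F} (hE : 0 ≤ E) (x : riemannRochSpace (A - E)) : sub A E :=
  ⟨⟨(x : F), riemannRochSpace_mono (sub_le_self A hE) x.2⟩, mem_sub.2 x.2⟩

@[simp] theorem coe_toDiff {A E : Divisor K F} (x : sub A E) :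
    (toDiff A E x : F) = ((x : riemannRochSpace A) : F) := rfl

theorem toDiff_ofDiff {A E : Divisor K F} (hE : 0 ≤ E) (x : riemannRochSpace (A - E)) :
    toDiff A E (ofDiff hE x) = x := Subtype.ext rfl

theorem mul_mem_L {A B : Divisor K F} {x y : F} (hx : x ∈ riemannRochSpace A)
    (hy : y ∈ riemannRochSpace B) : x * y ∈ riemannRochSpace (A + B) :=
  mul_le_L (Submodule.mul_mem_mul hx hy)

/-- Multiplication `L(A) → L(A + B)`, as a bilinear map. -/
def mulL (A B : Divisor K F) :
    riemannRochSpace B →ₗ[K] riemannRochSpace A →ₗ[K] riemannRochSpace (A + B) :=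
  LinearMap.mk₂ K (fun s x => ⟨(x : F) * s, mul_mem_L x.2 s.2⟩)
    (fun s t x => Subtype.ext (mul_add _ _ _))
    (fun c s x => Subtype.ext (by simp [Algebra.mul_smul_comm]))
    (fun s x y => Subtype.ext (add_mul _ _ _))
    (fun c s x => Subtype.ext (by simp))

@[simp] theorem coe_mulL {A B : Divisor K F} (s : riemannRochSpace B) (x : riemannRochSpace A) :
    (mulL A B s x : F) = (x : F) * s := rfl

theorem mulL_mem_sub {A B E : Divisor K F} (s : riemannRochSpace B) {x : riemannRochSpace A}
    (hx : x ∈ sub A E) : mulL A B s x ∈ sub (A + B) E := by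
  rw [mem_sub, coe_mulL, add_sub_right_comm]
  exact mul_mem_L hx s.2

theorem Kills.compLinearMap {V V' ι : Type*} [AddCommGroup V] [Module K V] [AddCommGroup V']
    [Module K V'] {U : V [⋀^ι]→ₗ[K] K} {W : Submodule K V} (hU : Kills U W) (f : V' →ₗ[K] V)
    {W' : Submodule K V'} (h : ∀ x ∈ W', f x ∈ W) : Kills (U.compLinearMap f) W' :=
  fun _ i hv => hU _ i (h _ hv)

/-- A linear form as an alternating form in one variable. -/
def altOne {V : Type*} [AddCommGroup V] [Module K V] (f : V →ₗ[K] K) : V [⋀^Fin 1]→ₗ[K] K where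
  toFun v := f (v 0)
  map_update_add' {_} v i x y := by
    obtain rfl : i = 0 := Subsingleton.elim _ _
    simp
  map_update_smul' {_} v i c x := by
    obtain rfl : i = 0 := Subsingleton.elim _ _
    simp
  map_eq_zero_of_eq' _ i j _ hij := absurd (Subsingleton.elim i j) hij

@[simp] theorem altOne_apply {V : Type*} [AddCommGroup V] [Module K V] (f : V →ₗ[K] K)
    (v : Fin 1 → V) : altOne f v = f (v 0) := rfl

variable [IsFunctionField K F] [IsAlgClosed K]

theorem finrank_quot_sub {A E : Divisor K F} (hE : 0 ≤ E)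
    (hA : rrBound K F + Divisor.degree E ≤ Divisor.degree A) :
    (finrank K (riemannRochSpace A ⧸ sub A E) : ℤ) = Divisor.degree E := by
  have h1 := (sub A E).finrank_quotient_add_finrank
  have h2 : finrank K (sub A E) = finrank K (riemannRochSpace (A - E)) := by
    rw [← map_sub_eq (A := A) hE]
    exact (Submodule.equivMapOfInjective _ (riemannRochSpace A).injective_subtype _).finrank_eq
  have h3 := finrank_eq (D := A - E) (by rw [map_sub]; omega)
  have hE0 := degree_nonneg hE
  have h4 := finrank_eq (D := A) (by omega)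
  rw [map_sub] at h3
  omega

theorem finrank_quot_sub' {A E : Divisor K F} (hE : 0 ≤ E) {e : ℕ}
    (he : Divisor.degree E = e) (hA : rrBound K F + e ≤ Divisor.degree A) :
    finrank K (riemannRochSpace A ⧸ sub A E) = e := by
  have := finrank_quot_sub (A := A) hE (by omega)
  omega

theorem exists_top_form {A E : Divisor K F} (hE : 0 ≤ E) {e : ℕ}
    (he : Divisor.degree E = e) (hA : rrBound K F + e ≤ Divisor.degree A) :
    ∃ U : riemannRochSpace A [⋀^Fin e]→ₗ[K] K, U ≠ 0 ∧ Kills U (sub A E) :=
  exists_kills inferInstance (finrank_quot_sub' hE he hA)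

theorem degree_single' (R : Place K F) (n : ℤ) : Divisor.degree (Finsupp.single R n) = n := by
  rw [Divisor.degree_single, deg_eq_one, Nat.cast_one, mul_one]

/-- A linear form on `L(B)` with kernel `L(B - R)`. -/
theorem exists_stepFun (B : Divisor K F) (R : Place K F) :
    ∃ φ : riemannRochSpace B →ₗ[K] K, LinearMap.ker φ = sub B (Finsupp.single R 1) := by
  classical
  set W := sub B (Finsupp.single R 1)
  have hle : finrank K (riemannRochSpace B ⧸ W) ≤ 1 := by
    have h1 := W.finrank_quotient_add_finrank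
    have h2 : finrank K W = finrank K (riemannRochSpace (B - Finsupp.single R 1)) := by
      rw [← map_sub_eq (A := B) (Finsupp.single_nonneg.2 zero_le_one)]
      exact (Submodule.equivMapOfInjective _ (riemannRochSpace B).injective_subtype _).finrank_eq
    have h3 := ell_le_ell_add_degree_sub
      (show B - Finsupp.single R 1 ≤ B from sub_le_self _ (Finsupp.single_nonneg.2 zero_le_one))
    rw [map_sub, degree_single', ell, ell] at h3
    omega
  set q := Module.finBasis K (riemannRochSpace B ⧸ W)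
  refine ⟨(∑ i, q.coord i) ∘ₗ W.mkQ, ?_⟩
  have : Subsingleton (Fin (finrank K (riemannRochSpace B ⧸ W))) :=
    Fin.subsingleton_iff_le_one.2 hle
  ext x
  rw [LinearMap.mem_ker, LinearMap.comp_apply, ← Submodule.Quotient.mk_eq_zero W,
    ← Submodule.mkQ_apply]
  refine ⟨fun h => q.ext_elem fun i => ?_, fun h => by rw [h, map_zero]⟩
  rw [LinearMap.sum_apply, Fintype.sum_subsingleton _ i, Basis.coord_apply] at h
  rw [h]
  simp

/-- The chosen linear form with kernel `L(B - R)`. -/
def stepFun (B : Divisor K F) (R : Place K F) : riemannRochSpace B →ₗ[K] K :=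
  (exists_stepFun B R).choose

theorem stepFun_eq_zero_iff {B : Divisor K F} {R : Place K F} {x : riemannRochSpace B} :
    stepFun B R x = 0 ↔ (x : F) ∈ riemannRochSpace (B - Finsupp.single R 1) := by
  rw [← LinearMap.mem_ker, stepFun, (exists_stepFun B R).choose_spec, mem_sub]

omit [IsFunctionField K F] [IsAlgClosed K] in
theorem mem_sub_single_iff {B : Divisor K F} {R : Place K F} {x : F}
    (hx : x ∈ riemannRochSpace B) (hx0 : x ≠ 0) :
    x ∈ riemannRochSpace (B - Finsupp.single R 1) ↔ 1 ≤ R.ord x + B R := by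
  rw [mem_L_iff hx0]
  constructor
  · intro h
    have := h R
    simp only [Finsupp.sub_apply, Finsupp.single_eq_same] at this
    omega
  · intro h S
    rcases eq_or_ne S R with rfl | hne
    · simp only [Finsupp.sub_apply, Finsupp.single_eq_same]; omega
    · simpa [Finsupp.single_eq_of_ne hne] using (mem_L_iff hx0).1 hx S

theorem stepFun_ne_zero_iff {B : Divisor K F} {R : Place K F} {x : riemannRochSpace B} :
    stepFun B R x ≠ 0 ↔ (x : F) ≠ 0 ∧ R.ord (x : F) + B R = 0 := by
  rw [ne_eq, stepFun_eq_zero_iff]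
  rcases eq_or_ne (x : F) 0 with h | h
  · simp [h]
  rw [mem_sub_single_iff x.2 h]
  have := (mem_L_iff h).1 x.2 R
  exact ⟨fun h' => ⟨h, by omega⟩, fun h' => by omega⟩

theorem exists_stepFun_ne_zero {B : Divisor K F} (R : Place K F)
    (hB : rrBound K F + 1 ≤ Divisor.degree B) : ∃ x, stepFun B R x ≠ 0 := by
  by_contra! h
  have h1 := finrank_quot_sub (A := B) (E := Finsupp.single R 1) (Finsupp.single_nonneg.2 zero_le_one)
    (by rw [degree_single']; omega)
  have h2 : sub B (Finsupp.single R 1) = ⊤ := eq_top_iff.2 fun x _ => stepFun_eq_zero_iff.1 (h x)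
  rw [degree_single', h2] at h1
  have : Subsingleton (riemannRochSpace B ⧸ (⊤ : Submodule K (riemannRochSpace B))) :=
    Submodule.Quotient.subsingleton_iff.2 rfl
  rw [Module.finrank_zero_of_subsingleton] at h1
  omega

/-- A section avoiding finitely many prescribed points. -/
theorem exists_forall_stepFun_ne_zero {B : Divisor K F} (s : Finset (Place K F))
    (hB : rrBound K F + 1 ≤ Divisor.degree B) :
    ∃ x, x ≠ 0 ∧ ∀ R ∈ s, stepFun B R x ≠ 0 := by
  classical
  obtain ⟨O⟩ := exists_place (K := K) (F := F)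
  obtain ⟨x, hx⟩ := Submodule.exists_forall_notMem_of_forall_ne_top
    (fun R : (insert O s : Finset _) => LinearMap.ker (stepFun B R.1))
    (fun R htop => by
      obtain ⟨x, hx⟩ := exists_stepFun_ne_zero R.1 hB
      exact hx (LinearMap.mem_ker.1 (by rw [htop]; trivial)))
  refine ⟨x, fun h => hx ⟨O, Finset.mem_insert_self _ _⟩ (by simp [h]), fun R hR h => ?_⟩
  exact hx ⟨R, Finset.mem_insert_of_mem hR⟩ h

/-- Product over the points of `E` of the linear forms at `B`. -/
def nrm (B E : Divisor K F) (s : riemannRochSpace B) : K :=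
  E.prod fun R n => stepFun B R s ^ n.toNat

theorem nrm_add {B E E' : Divisor K F} (hE : 0 ≤ E) (hE' : 0 ≤ E') (s : riemannRochSpace B) :
    nrm B (E + E') s = nrm B E s * nrm B E' s := by
  classical
  have hsub : E.support ⊆ E.support ∪ E'.support := Finset.subset_union_left
  have hsub' : E'.support ⊆ E.support ∪ E'.support := Finset.subset_union_right
  rw [nrm, nrm, nrm, Finsupp.prod_of_support_subset _ hsub _ (fun _ _ => by simp),
    Finsupp.prod_of_support_subset _ hsub' _ (fun _ _ => by simp),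
    Finsupp.prod_of_support_subset _ Finsupp.support_add _ (fun _ _ => by simp),
    ← Finset.prod_mul_distrib]
  refine Finset.prod_congr rfl fun R _ => ?_
  rw [← pow_add, Finsupp.add_apply, Int.toNat_add (hE R) (hE' R)]

theorem nrm_single (B : Divisor K F) (R : Place K F) (s : riemannRochSpace B) :
    nrm B (Finsupp.single R 1) s = stepFun B R s := by
  rw [nrm, Finsupp.prod_single_index (by simp)]
  simp

@[simp] theorem nrm_zero (B : Divisor K F) (s : riemannRochSpace B) : nrm B 0 s = 1 := by
  simp [nrm]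

theorem exists_eq_add_single {E : Divisor K F} (hE : 0 ≤ E) {e : ℕ}
    (he : Divisor.degree E = (e + 1 : ℕ)) : ∃ (E' : Divisor K F) (R : Place K F),
      0 ≤ E' ∧ Divisor.degree E' = e ∧ E = E' + Finsupp.single R 1 := by
  classical
  obtain ⟨R, hR⟩ : ∃ R, 0 < E R := by
    by_contra! h
    have : E = 0 := Finsupp.ext fun R => le_antisymm (h R) (hE R)
    rw [this, map_zero] at he
    omega
  refine ⟨E - Finsupp.single R 1, R, fun S => ?_, ?_, (sub_add_cancel _ _).symm⟩
  · rcases eq_or_ne S R with rfl | hne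
    · simp only [Finsupp.sub_apply, Finsupp.single_eq_same, Finsupp.coe_zero, Pi.zero_apply]; omega
    · simpa [Finsupp.single_eq_of_ne hne] using hE S
  · rw [map_sub, degree_single', he]; push_cast; ring

/-- The top form of `L(A)/L(A - E - R)` splits along `L(A - E)`. -/
theorem exists_split_single {A E : Divisor K F} {R : Place K F} (hE : 0 ≤ E) {e : ℕ}
    (he : Divisor.degree E = e) (hA : rrBound K F + (e + 1 : ℕ) ≤ Divisor.degree A)
    {U : riemannRochSpace A [⋀^Fin (1 + e)]→ₗ[K] K}
    (hU : Kills U (sub A (E + Finsupp.single R 1))) (hU0 : U ≠ 0)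
    {U₁ : riemannRochSpace A [⋀^Fin e]→ₗ[K] K} (hU₁ : Kills U₁ (sub A E)) (hU₁0 : U₁ ≠ 0) :
    ∃ c : K, c ≠ 0 ∧ ∀ (w : Fin 1 → sub A E) (v : Fin e → riemannRochSpace A),
      U (Fin.append (fun i => (w i : riemannRochSpace A)) v) =
        c * stepFun (A - E) R (toDiff A E (w 0)) * U₁ v := by
  classical
  have hER : 0 ≤ E + Finsupp.single R 1 := add_nonneg hE (Finsupp.single_nonneg.2 zero_le_one)
  have hdER : Divisor.degree (E + Finsupp.single R 1) = ((1 + e : ℕ) : ℤ) := by
    rw [map_add, degree_single', he]; push_cast; ring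
  have hle : sub A (E + Finsupp.single R 1) ≤ sub A E :=
    sub_le_sub (le_add_of_nonneg_right (Finsupp.single_nonneg.2 zero_le_one))
  let ι : sub A E →ₗ[K] riemannRochSpace (A - E) := toDiff A E
  let U₂ : sub A E [⋀^Fin 1]→ₗ[K] K :=
    altOne (V := sub A E) ((stepFun (A - E) R).comp ι)
  have hkey : ∀ x : sub A E, x ∈ (sub A (E + Finsupp.single R 1)).comap (sub A E).subtype ↔
      stepFun (A - E) R (ι x) = 0 := fun x => by
    rw [stepFun_eq_zero_iff, Submodule.mem_comap, mem_sub, sub_sub]
    simp only [ι, coe_toDiff, Submodule.coe_subtype]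
  have hU₂ : Kills (V := sub A E) U₂ ((sub A (E + Finsupp.single R 1)).comap (sub A E).subtype) := fun w i hw => by
    rw [Subsingleton.elim i (0 : Fin 1)] at hw
    show stepFun (A - E) R (ι (w 0)) = 0
    exact (hkey _).1 hw
  have hU₂0 : U₂ ≠ 0 := by
    obtain ⟨x, hx⟩ := exists_stepFun_ne_zero (B := A - E) R (by rw [map_sub]; push_cast at hA; omega)
    intro h
    refine hx ?_
    have h' := AlternatingMap.congr_fun h (fun _ => ofDiff hE x)
    simp only [U₂, ι, altOne_apply, LinearMap.comp_apply,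
      toDiff_ofDiff, AlternatingMap.zero_apply] at h'
    exact h'
  have h1 := (sub A (E + Finsupp.single R 1)).finrank_quotient_add_finrank
  have hq2 := finrank_quot_sub' (A := A) hER hdER (by push_cast at hA ⊢; omega)
  have hq1 := finrank_quot_sub' (A := A) hE he (by push_cast at hA; omega)
  have hq12 : finrank K (sub A E ⧸ (sub A (E + Finsupp.single R 1)).comap (sub A E).subtype) = 1 := by
    have h2 := (sub A E).finrank_quotient_add_finrank
    have h3 := ((sub A (E + Finsupp.single R 1)).comap (sub A E).subtype).finrank_quotient_add_finrank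
    rw [(Submodule.comapSubtypeEquivOfLe hle).finrank_eq] at h3
    omega
  obtain ⟨c, hc, h⟩ := exists_block_eq hle hU inferInstance hq2 inferInstance hq1 inferInstance
    hq12 hU0 hU₁ hU₁0 hU₂ hU₂0
  exact ⟨c, hc, h⟩

/-- Multiplication by `s` multiplies the top form of `E` by the product over the points of `E`. -/
theorem exists_mul_top_form {A B : Divisor K F} (e : ℕ) : ∀ {E : Divisor K F}, 0 ≤ E →
    Divisor.degree E = e → rrBound K F + e ≤ Divisor.degree A → 0 ≤ Divisor.degree B →
    ∀ {U : riemannRochSpace A [⋀^Fin e]→ₗ[K] K}, Kills U (sub A E) → U ≠ 0 →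
    ∀ {U' : riemannRochSpace (A + B) [⋀^Fin e]→ₗ[K] K}, Kills U' (sub (A + B) E) → U' ≠ 0 →
    ∃ c : K, c ≠ 0 ∧ ∀ (s : riemannRochSpace B) (v : Fin e → riemannRochSpace A),
      U' (fun i => mulL A B s (v i)) = c * nrm B E s * U v := by
  induction e with
  | zero =>
    intro E hE he _ _ U hU hU0 U' hU' hU'0
    have hE0 : E = 0 := by
      refine Finsupp.ext fun R => le_antisymm ?_ (hE R)
      by_contra hlt
      have h1 := degree_nonneg (E := E - Finsupp.single R 1) (fun S => by
        rcases eq_or_ne S R with rfl | hne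
        · simp only [Finsupp.sub_apply, Finsupp.single_eq_same, Finsupp.coe_zero, Pi.zero_apply] at *
          omega
        · simpa [Finsupp.single_eq_of_ne hne] using hE S)
      rw [map_sub, degree_single', he] at h1
      omega
    subst hE0
    have hv : ∀ {V : Type _} (v w : Fin 0 → V), v = w := fun v w => funext fun i => i.elim0
    obtain ⟨v₀, hv₀⟩ : ∃ v, U v ≠ 0 := by by_contra! h; exact hU0 (AlternatingMap.ext h)
    obtain ⟨v₁, hv₁⟩ : ∃ v, U' v ≠ 0 := by by_contra! h; exact hU'0 (AlternatingMap.ext h)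
    refine ⟨U' v₁ / U v₀, div_ne_zero hv₁ hv₀, fun s v => ?_⟩
    rw [nrm_zero, mul_one, hv v v₀, hv (fun i => mulL A B s (v₀ i)) v₁, div_mul_cancel₀ _ hv₀]
  | succ e ih =>
    intro E hE he hA hB U hU hU0 U' hU' hU'0
    classical
    obtain ⟨E', R, hE', he', rfl⟩ := exists_eq_add_single hE he
    obtain ⟨U₁, hU₁0, hU₁⟩ := exists_top_form (A := A) hE' he' (by push_cast at hA; omega)
    obtain ⟨U₁', hU₁'0, hU₁'⟩ := exists_top_form (A := A + B) hE' he'
      (by push_cast at hA; rw [map_add]; omega)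
    obtain ⟨c₁, hc₁, h₁⟩ := ih hE' he' (by push_cast at hA; omega) hB hU₁ hU₁0 hU₁' hU₁'0
    -- the same forms with `Fin (1 + e)`
    let σ : Fin (e + 1) ≃ Fin (1 + e) := finCongr (add_comm e 1)
    have hdom : ∀ {A₀ : Divisor K F} (W : riemannRochSpace A₀ [⋀^Fin (e + 1)]→ₗ[K] K)
        (E₀ : Divisor K F), Kills W (sub A₀ E₀) → W ≠ 0 →
        Kills (W.domDomCongr σ) (sub A₀ E₀) ∧ W.domDomCongr σ ≠ 0 := fun W E₀ h h0 =>
      ⟨fun v i hv => h (v ∘ σ) (σ.symm i) (by simpa using hv),
        fun hW => h0 ((AlternatingMap.domDomCongr_eq_zero_iff σ W).1 hW)⟩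
    obtain ⟨hUk, hUn⟩ := hdom U _ hU hU0
    obtain ⟨hUk', hUn'⟩ := hdom U' _ hU' hU'0
    obtain ⟨cA, hcA, hA'⟩ := exists_split_single hE' he' hA hUk hUn hU₁ hU₁0
    obtain ⟨cB, hcB, hB'⟩ := exists_split_single hE' he'
      (by push_cast at hA ⊢; rw [map_add]; omega) hUk' hUn' hU₁' hU₁'0
    -- a vector of exact order at `R`
    obtain ⟨x, hx⟩ := exists_stepFun_ne_zero (B := A - E') R
      (by rw [map_sub, he']; push_cast at hA; omega)
    let x₀ : sub A E' := ofDiff hE' x
    obtain ⟨v₁, hv₁⟩ : ∃ v, U₁ v ≠ 0 := by by_contra! h; exact hU₁0 (AlternatingMap.ext h)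
    -- `s ↦ stepFun (s x)` is a multiple of `stepFun B R`
    let θ : riemannRochSpace B →ₗ[K] K :=
      stepFun (A + B - E') R ∘ₗ
        { toFun := fun s => (⟨(x : F) * s, by
              rw [add_sub_right_comm]; exact mul_mem_L x.2 s.2⟩ : riemannRochSpace (A + B - E'))
          map_add' := fun s t => Subtype.ext (mul_add _ _ _)
          map_smul' := fun c s => Subtype.ext (by simp [Algebra.mul_smul_comm]) }
    have hθ : ∃ d : K, d ≠ 0 ∧ ∀ s, θ s = d * stepFun B R s := by
      obtain ⟨hx0, hxo⟩ := stepFun_ne_zero_iff.1 hx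
      have hiff : ∀ s, θ s ≠ 0 ↔ stepFun B R s ≠ 0 := by
        intro s
        show stepFun (A + B - E') R ⟨(x : F) * s, _⟩ ≠ 0 ↔ _
        rw [stepFun_ne_zero_iff, stepFun_ne_zero_iff]
        simp only [Finsupp.sub_apply, Finsupp.add_apply] at hxo ⊢
        constructor
        · rintro ⟨h0, h⟩
          have hs0 : (s : F) ≠ 0 := right_ne_zero_of_mul h0
          rw [R.ord_mul hx0 hs0] at h
          exact ⟨hs0, by omega⟩
        · rintro ⟨hs0, h⟩
          exact ⟨mul_ne_zero hx0 hs0, by rw [R.ord_mul hx0 hs0]; omega⟩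
      by_cases hz : ∃ s₀, stepFun B R s₀ ≠ 0
      · obtain ⟨s₀, hs₀⟩ := hz
        refine ⟨θ s₀ / stepFun B R s₀, div_ne_zero ((hiff _).2 hs₀) hs₀, fun s => ?_⟩
        have h0 : stepFun B R (s - (stepFun B R s / stepFun B R s₀) • s₀) = 0 := by
          rw [map_sub, map_smul, smul_eq_mul, div_mul_cancel₀ _ hs₀, sub_self]
        have h1 : θ (s - (stepFun B R s / stepFun B R s₀) • s₀) = 0 :=
          not_not.1 fun h => (hiff _).1 h h0
        rw [map_sub, map_smul, smul_eq_mul, sub_eq_zero] at h1
        rw [h1]; ring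
      · simp only [not_exists, not_not] at hz
        exact ⟨1, one_ne_zero, fun s => by
          rw [one_mul, hz s]; exact not_not.1 fun h => (hiff s).1 h (hz s)⟩
    obtain ⟨d, hd, hθd⟩ := hθ
    refine ⟨cB * d * c₁ / (cA * stepFun (A - E') R x), by simp [hcA, hcB, hd, hc₁, hx], fun s v => ?_⟩
    rw [nrm_add hE' (Finsupp.single_nonneg.2 zero_le_one), nrm_single]
    -- both sides are multiples of `U`, compare at one tuple
    have hk : Kills (U'.compLinearMap (mulL A B s)) (sub A (E' + Finsupp.single R 1)) :=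
      hU'.compLinearMap _ fun y hy => mulL_mem_sub s hy
    obtain ⟨δ, hδ⟩ := hU.exists_eq_smul hk inferInstance
      (finrank_quot_sub' hE he hA) hU0
    have hgen : ∀ v, U' (fun i => mulL A B s (v i)) = δ * U v := fun v =>
      AlternatingMap.congr_fun hδ v
    have e1 := hA' (fun _ => x₀) v₁
    have e2 := hB' (fun _ => ⟨mulL A B s x₀.1, mulL_mem_sub s x₀.2⟩) (fun i => mulL A B s (v₁ i))
    simp only [AlternatingMap.domDomCongr_apply] at e1 e2
    have happ : (Fin.append (fun _ : Fin 1 => mulL A B s x₀.1)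
          (fun i => mulL A B s (v₁ i))) ∘ σ =
        fun i : Fin (e + 1) => mulL A B s (Fin.append (fun _ : Fin 1 => x₀.1) v₁ (σ i)) := by
      funext i
      simp only [Function.comp_apply]
      generalize σ i = j
      induction j using Fin.addCases <;> simp
    simp only [Function.comp_def] at happ e1 e2
    rw [happ, hgen, e1, h₁ s v₁] at e2
    have hθs : stepFun (A + B - E') R (toDiff (A + B) E'
        (⟨mulL A B s x₀.1, mulL_mem_sub s x₀.2⟩ : sub (A + B) E')) = θ s := by
      show stepFun (A + B - E') R _ = stepFun (A + B - E') R _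
      congr 1
    have hxx : stepFun (A - E') R (toDiff A E' x₀) = stepFun (A - E') R x := by
      rw [toDiff_ofDiff]
    rw [hθs, hθd, hxx] at e2
    have hδeq : δ = cB * d * c₁ / (cA * stepFun (A - E') R x) *
        (nrm B E' s * stepFun B R s) := by
      field_simp
      refine mul_right_cancel₀ hv₁ ?_
      linear_combination e2
    rw [hgen, hδeq]

/-- Images of basis vectors under multiplication by a section are independent modulo `L(D - G)`
in number at least the degree of the part of `G` not covered by the zeros of the section. -/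
theorem exists_independent_mul {A B G H : Divisor K F} (s : riemannRochSpace B) (hs : (s : F) ≠ 0)
    (hG : 0 ≤ G) (hA : rrBound K F + Divisor.degree G ≤ Divisor.degree A)
    (hH : ∀ R, H R ≤ max 0 (G R - (R.ord (s : F) + B R))) {n : ℕ}
    (hn : (n : ℤ) ≤ Divisor.degree H) {ι : Type*} (b : Basis ι K (riemannRochSpace A)) :
    ∃ J : Fin n → ι, LinearIndependent K ((sub (A + B) G).mkQ ∘ fun i => mulL A B s (b (J i))) := by
  classical
  set Z : Divisor K F := divisorOf (s : F) + B with hZ
  set G' : Divisor K F := (G - Z).mapRange (fun k => max k 0) (max_self 0) with hG'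
  have hZ0 : ∀ R, 0 ≤ R.ord (s : F) + B R := (mem_L_iff hs).1 s.2
  have hG'v : ∀ R, G' R = max (G R - (R.ord (s : F) + B R)) 0 := fun R => by
    simp [hG', hZ]
  have hG'0 : 0 ≤ G' := fun R => by rw [hG'v]; exact le_max_right _ _
  have hd1 : Divisor.degree H ≤ Divisor.degree G' := by
    have := degree_nonneg (E := G' - H) (fun R => by
      have := hH R; simp only [Finsupp.sub_apply, hG'v, Finsupp.coe_zero, Pi.zero_apply]; omega)
    rw [map_sub] at this; omega
  have hd2 : Divisor.degree G' ≤ Divisor.degree G := by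
    have := degree_nonneg (E := G - G') (fun R => by
      have := hG R; have := hZ0 R
      simp only [Finsupp.sub_apply, hG'v, Finsupp.coe_zero, Pi.zero_apply] at *; omega)
    rw [map_sub] at this; omega
  set φ := (sub (A + B) G).mkQ ∘ₗ mulL A B s with hφ
  have hker : LinearMap.ker φ ≤ sub A G' := fun x hx => by
    rw [LinearMap.mem_ker, hφ, LinearMap.comp_apply, Submodule.mkQ_apply,
      Submodule.Quotient.mk_eq_zero, mem_sub, coe_mulL] at hx
    rw [mem_sub]
    rcases eq_or_ne (x : F) 0 with h0 | h0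
    · rw [h0]; exact zero_mem _
    refine (mem_L_iff h0).2 fun R => ?_
    have h1 := (mem_L_iff (mul_ne_zero h0 hs)).1 hx R
    have h2 := (mem_L_iff h0).1 x.2 R
    rw [R.ord_mul h0 hs] at h1
    simp only [Finsupp.sub_apply, Finsupp.add_apply, hG'v] at h1 ⊢
    omega
  have h1 := φ.finrank_range_add_finrank_ker
  have h2 := Submodule.finrank_mono hker
  have h3 := (sub A G').finrank_quotient_add_finrank
  have h4 := finrank_quot_sub (A := A) hG'0 (by omega)
  have hsp : Submodule.span K (Set.range (φ ∘ b)) = LinearMap.range φ := by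
    rw [Set.range_comp, ← Submodule.map_span, b.span_eq, Submodule.map_top]
  obtain ⟨f, hf, -, hli⟩ := Submodule.exists_fun_fin_finrank_span_eq K (Set.range (φ ∘ b))
  choose J hJ using hf
  have hle : n ≤ finrank K (Submodule.span K (Set.range (φ ∘ b))) := by rw [hsp]; omega
  refine ⟨fun i => J (Fin.castLE hle i), ?_⟩
  have : ((sub (A + B) G).mkQ ∘ fun i => mulL A B s (b (J (Fin.castLE hle i)))) =
      f ∘ Fin.castLE hle := funext fun i => hJ (Fin.castLE hle i)
  rw [this]
  exact hli.comp _ (Fin.castLE_injective hle)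

-- Independent vectors extend by basis vectors to a basis of the quotient.
omit [IsAlgClosed K] in
theorem exists_append_independent {V ι : Type*} [AddCommGroup V] [Module K V] (b : Basis ι K V)
    {W : Submodule K V} [FiniteDimensional K (V ⧸ W)] {a c : ℕ}
    (hW : finrank K (V ⧸ W) = a + c) {v : Fin a → V} (hv : LinearIndependent K (W.mkQ ∘ v)) :
    ∃ I : Fin c → ι, LinearIndependent K (W.mkQ ∘ Fin.append v (fun i => b (I i))) := by
  classical
  set T := Submodule.span K (Set.range (W.mkQ ∘ v)) with hT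
  have hT1 : finrank K T = a := by rw [hT, finrank_span_eq_card hv, Fintype.card_fin]
  have hT2 := T.finrank_quotient_add_finrank
  have hsp : Submodule.span K (Set.range ((T.mkQ ∘ₗ W.mkQ) ∘ b)) = ⊤ := by
    rw [Set.range_comp, ← Submodule.map_span, b.span_eq, Submodule.map_top, LinearMap.range_eq_top]
    exact T.mkQ_surjective.comp W.mkQ_surjective
  obtain ⟨f, hf, -, hli⟩ :=
    Submodule.exists_fun_fin_finrank_span_eq K (Set.range (fun i => T.mkQ (W.mkQ (b i))))
  choose I hI using hf
  have hc : c = finrank K (Submodule.span K (Set.range fun i => T.mkQ (W.mkQ (b i)))) := by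
    rw [show (Submodule.span K (Set.range fun i => T.mkQ (W.mkQ (b i)))) = ⊤ from hsp, finrank_top]
    omega
  refine ⟨fun i => I (Fin.cast hc i), ?_⟩
  rw [Fintype.linearIndependent_iff]
  intro g hg
  rw [Fintype.linearIndependent_iff] at hli
  simp only [Fin.sum_univ_add, Function.comp_apply, Fin.append_left, Fin.append_right] at hg
  have hin : T.mkQ (∑ i, g (Fin.castAdd c i) • W.mkQ (v i)) = 0 := by
    rw [Submodule.mkQ_apply, Submodule.Quotient.mk_eq_zero]
    exact sum_mem fun i _ => T.smul_mem _ (Submodule.subset_span ⟨i, rfl⟩)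
  have h2 := congrArg T.mkQ hg
  rw [map_add, hin, zero_add, map_zero, map_sum] at h2
  have hc0 : ∀ i, g (Fin.natAdd a i) = 0 := by
    have := hli (fun j => g (Fin.natAdd a (Fin.cast hc.symm j))) (by
      rw [← h2]
      refine Fintype.sum_equiv (finCongr hc.symm) _ _ fun j => ?_
      simp [← hI, map_smul]
      rfl)
    intro i
    simpa using this (Fin.cast hc i)
  simp only [hc0, zero_smul, Finset.sum_const_zero, add_zero] at hg
  exact Fin.addCases (Fintype.linearIndependent_iff.1 hv _ hg) hc0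

end FLTAgent.MW

namespace FLTAgent.MW

variable {K F : Type*} [Field K] [Field F] [Algebra K F]

/-- Multiplication `L(A) → L(D)` for `D = A + B`. -/
def mulD {A B D : Divisor K F} (h : D = A + B) :
    riemannRochSpace B →ₗ[K] riemannRochSpace A →ₗ[K] riemannRochSpace D :=
  LinearMap.mk₂ K (fun s x => ⟨(x : F) * s, by rw [h]; exact mul_mem_L x.2 s.2⟩)
    (fun s t x => Subtype.ext (mul_add _ _ _))
    (fun c s x => Subtype.ext (by simp [Algebra.mul_smul_comm]))
    (fun s x y => Subtype.ext (add_mul _ _ _))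
    (fun c s x => Subtype.ext (by simp))

@[simp] theorem coe_mulD {A B D : Divisor K F} (h : D = A + B) (s : riemannRochSpace B)
    (x : riemannRochSpace A) : (mulD h s x : F) = (x : F) * s := rfl

variable [IsFunctionField K F] [IsAlgClosed K]

theorem exists_mul_top_form' {A B D E : Divisor K F} (h : D = A + B) {e : ℕ} (hE : 0 ≤ E)
    (he : Divisor.degree E = e) (hA : rrBound K F + e ≤ Divisor.degree A)
    (hB : 0 ≤ Divisor.degree B)
    {U : riemannRochSpace A [⋀^Fin e]→ₗ[K] K} (hU : Kills U (sub A E)) (hU0 : U ≠ 0)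
    {U' : riemannRochSpace D [⋀^Fin e]→ₗ[K] K} (hU' : Kills U' (sub D E)) (hU'0 : U' ≠ 0) :
    ∃ c : K, c ≠ 0 ∧ ∀ (s : riemannRochSpace B) (v : Fin e → riemannRochSpace A),
      U' (fun i => mulD h s (v i)) = c * nrm B E s * U v := by
  subst h
  exact exists_mul_top_form e hE he hA hB hU hU0 hU' hU'0

theorem exists_independent_mul' {A B D G H : Divisor K F} (h : D = A + B)
    (s : riemannRochSpace B) (hs : (s : F) ≠ 0)
    (hG : 0 ≤ G) (hA : rrBound K F + Divisor.degree G ≤ Divisor.degree A)
    (hH : ∀ R, H R ≤ max 0 (G R - (R.ord (s : F) + B R))) {n : ℕ}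
    (hn : (n : ℤ) ≤ Divisor.degree H) {ι : Type*} (b : Basis ι K (riemannRochSpace A)) :
    ∃ J : Fin n → ι, LinearIndependent K ((sub D G).mkQ ∘ fun i => mulD h s (b (J i))) := by
  subst h
  exact exists_independent_mul s hs hG hA hH hn b

omit [IsAlgClosed K] in
theorem finrank_quot_comap {A : Divisor K F} {W₁ W₂ : Submodule K (riemannRochSpace A)}
    (hle : W₂ ≤ W₁) {a b : ℕ}
    (h₂ : finrank K (riemannRochSpace A ⧸ W₂) = a + b)
    (h₁ : finrank K (riemannRochSpace A ⧸ W₁) = b) :
    finrank K (W₁ ⧸ W₂.comap W₁.subtype) = a := by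
  have e1 := W₁.finrank_quotient_add_finrank
  have e2 := W₂.finrank_quotient_add_finrank
  have e3 := (W₂.comap W₁.subtype).finrank_quotient_add_finrank
  rw [(Submodule.comapSubtypeEquivOfLe hle).finrank_eq] at e3
  omega

/-- The top form of `E + G` on products and arbitrary vectors. -/
theorem exists_add_form {A B D E G : Divisor K F} (hD : D = A + B) {e f : ℕ}
    (hE : 0 ≤ E) (he : Divisor.degree E = e) (hG : 0 ≤ G) (hg : Divisor.degree G = f)
    (hA : rrBound K F + (e + f : ℕ) ≤ Divisor.degree A) (hB : (f : ℤ) ≤ Divisor.degree B)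
    {U : riemannRochSpace D [⋀^Fin (e + f)]→ₗ[K] K} (hU : Kills U (sub D (E + G))) (hU0 : U ≠ 0)
    {UE : riemannRochSpace A [⋀^Fin e]→ₗ[K] K} (hUE : Kills UE (sub A E)) (hUE0 : UE ≠ 0)
    {UG : riemannRochSpace D [⋀^Fin f]→ₗ[K] K} (hUG : Kills UG (sub D G)) (hUG0 : UG ≠ 0) :
    ∃ c : K, c ≠ 0 ∧ ∀ (s : sub B G) (x : Fin e → riemannRochSpace A)
      (y : Fin f → riemannRochSpace D),
      U (Fin.append (fun i => mulD hD (s : riemannRochSpace B) (x i)) y) =
        c * nrm (B - G) E (toDiff B G s) * UE x * UG y := by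
  classical
  push_cast at hA
  have hle : sub D (E + G) ≤ sub D G := sub_le_sub (le_add_of_nonneg_left hE)
  have hEG : Divisor.degree (E + G) = ((e + f : ℕ) : ℤ) := by rw [map_add, he, hg]; push_cast; ring
  have hdD : Divisor.degree D = Divisor.degree A + Divisor.degree B := by rw [hD, map_add]
  have hq2 := finrank_quot_sub' (A := D) (add_nonneg hE hG) hEG (by push_cast; omega)
  have hq1 := finrank_quot_sub' (A := D) hG hg (by omega)
  have hq12 := finrank_quot_comap hle hq2 hq1
  obtain ⟨Ud, hUd0, hUd⟩ := exists_top_form (A := D - G) hE he (by rw [map_sub]; omega)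
  have hkey : ∀ x : sub D G, x ∈ (sub D (E + G)).comap (sub D G).subtype →
      toDiff D G x ∈ sub (D - G) E := fun x hx => by
    rw [Submodule.mem_comap, mem_sub] at hx
    rw [mem_sub, coe_toDiff, sub_sub, add_comm G E]
    exact hx
  let U₂ : sub D G [⋀^Fin e]→ₗ[K] K := Ud.compLinearMap (toDiff D G)
  have hU₂0 : U₂ ≠ 0 := fun h => hUd0 (AlternatingMap.compLinearMap_injective (toDiff D G)
    (fun x => ⟨ofDiff hG x, toDiff_ofDiff hG x⟩) (by
      simpa [U₂] using h))
  obtain ⟨c₁, hc₁, h₁⟩ := exists_block_eq hle hU inferInstance hq2 inferInstance hq1 inferInstance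
    hq12 hU0 hUG hUG0 (hUd.compLinearMap (toDiff D G) hkey) hU₂0
  have hD' : D - G = A + (B - G) := by rw [hD, add_sub_assoc]
  obtain ⟨c₂, hc₂, h₂⟩ := exists_mul_top_form' hD' hE he (by omega) (by rw [map_sub]; omega)
    hUE hUE0 hUd hUd0
  refine ⟨c₁ * c₂, mul_ne_zero hc₁ hc₂, fun s x y => ?_⟩
  have hmem : ∀ i, mulD hD (s : riemannRochSpace B) (x i) ∈ sub D G := fun i => by
    rw [mem_sub, coe_mulD, hD']
    exact mul_mem_L (x i).2 (mem_sub.1 s.2)
  have h3 := h₁ (fun i => ⟨_, hmem i⟩) y
  have h4 : U₂ (fun i => ⟨_, hmem i⟩) = Ud fun i => mulD hD' (toDiff B G s) (x i) := rfl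
  simp only [U₂] at h4
  rw [h3, h4, h₂]
  ring

-- Division by `φ`: `L(D - div φ - B) → L(A)` for `D = A + B`.
omit [IsAlgClosed K] in
theorem div_mem_of_mem_sub {A B D : Divisor K F} (hD : D = A + B) {φ : F} (hφ : φ ≠ 0)
    {x : riemannRochSpace D} (hx : x ∈ sub D (divisorOf φ + B)) :
    (x : F) * φ⁻¹ ∈ riemannRochSpace A := by
  rcases eq_or_ne (x : F) 0 with h0 | h0
  · rw [h0, zero_mul]; exact zero_mem _
  refine (mem_L_iff (mul_ne_zero h0 (inv_ne_zero hφ))).2 fun R => ?_
  have h1 := (mem_L_iff h0).1 (mem_sub.1 hx) R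
  rw [R.ord_mul h0 (inv_ne_zero hφ), R.ord_inv]
  simp only [hD, Finsupp.sub_apply, Finsupp.add_apply, divisorOf_apply] at h1
  omega

omit [IsAlgClosed K] in
theorem mulD_mem_sub_divisorOf {A B D : Divisor K F} (hD : D = A + B) (φ : riemannRochSpace B)
    (x : riemannRochSpace A) : mulD hD φ x ∈ sub D (divisorOf (φ : F) + B) := by
  rw [mem_sub, coe_mulD]
  rcases eq_or_ne ((x : F) * φ) 0 with h0 | h0
  · rw [h0]; exact zero_mem _
  refine (mem_L_iff h0).2 fun R => ?_
  have hx0 := left_ne_zero_of_mul h0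
  have hφ0 := right_ne_zero_of_mul h0
  have h1 := (mem_L_iff hx0).1 x.2 R
  rw [R.ord_mul hx0 hφ0]
  simp only [hD, Finsupp.sub_apply, Finsupp.add_apply, divisorOf_apply]
  omega

/-- The top form of `G + (div φ + B)` on multiples of `φ` and arbitrary vectors. -/
theorem exists_principal_form {A B D G : Divisor K F} (hD : D = A + B) {f d : ℕ}
    (hG : 0 ≤ G) (hg : Divisor.degree G = f) (hB : Divisor.degree B = d)
    (hA : rrBound K F + (f + d : ℕ) ≤ Divisor.degree A)
    (φ : riemannRochSpace B) (hφ : (φ : F) ≠ 0)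
    {U : riemannRochSpace D [⋀^Fin (f + d)]→ₗ[K] K}
    (hU : Kills U (sub D (G + (divisorOf (φ : F) + B)))) (hU0 : U ≠ 0)
    {UG : riemannRochSpace A [⋀^Fin f]→ₗ[K] K} (hUG : Kills UG (sub A G)) (hUG0 : UG ≠ 0)
    {Uφ : riemannRochSpace D [⋀^Fin d]→ₗ[K] K}
    (hUφ : Kills Uφ (sub D (divisorOf (φ : F) + B))) (hUφ0 : Uφ ≠ 0) :
    ∃ c : K, c ≠ 0 ∧ ∀ (x : Fin f → riemannRochSpace A) (y : Fin d → riemannRochSpace D),
      U (Fin.append (fun i => mulD hD φ (x i)) y) = c * UG x * Uφ y := by
  classical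
  push_cast at hA
  set Ef := divisorOf (φ : F) + B with hEf
  have hEf0 : 0 ≤ Ef := fun R => by simpa [hEf] using (mem_L_iff hφ).1 φ.2 R
  have hdEf : Divisor.degree Ef = d := by rw [hEf, map_add, degree_divisorOf, zero_add, hB]
  have hle : sub D (G + Ef) ≤ sub D Ef := sub_le_sub (le_add_of_nonneg_left hG)
  have hGE : Divisor.degree (G + Ef) = ((f + d : ℕ) : ℤ) := by
    rw [map_add, hg, hdEf]; push_cast; ring
  have hdD : Divisor.degree D = Divisor.degree A + d := by rw [hD, map_add, hB]
  have hq2 := finrank_quot_sub' (A := D) (add_nonneg hG hEf0) hGE (by push_cast; omega)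
  have hq1 := finrank_quot_sub' (A := D) hEf0 hdEf (by omega)
  have hq12 := finrank_quot_comap hle hq2 hq1
  let ι : sub D Ef →ₗ[K] riemannRochSpace A :=
    { toFun := fun x => ⟨((x : riemannRochSpace D) : F) * (φ : F)⁻¹,
        div_mem_of_mem_sub hD hφ x.2⟩
      map_add' := fun x y => Subtype.ext (by simp [add_mul])
      map_smul' := fun c x => Subtype.ext (by simp) }
  have hι : ∀ x, ι ⟨_, mulD_mem_sub_divisorOf hD φ x⟩ = x := fun x =>
    Subtype.ext (mul_inv_cancel_right₀ hφ (x : F))
  have hkey : ∀ x : sub D Ef, x ∈ (sub D (G + Ef)).comap (sub D Ef).subtype → ι x ∈ sub A G := by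
    intro x hx
    rw [Submodule.mem_comap, mem_sub] at hx
    rw [mem_sub]
    show ((x : riemannRochSpace D) : F) * (φ : F)⁻¹ ∈ _
    rcases eq_or_ne (((x : riemannRochSpace D) : F)) 0 with h0 | h0
    · rw [h0, zero_mul]; exact zero_mem _
    refine (mem_L_iff (mul_ne_zero h0 (inv_ne_zero hφ))).2 fun R => ?_
    have h1 := (mem_L_iff h0).1 hx R
    rw [R.ord_mul h0 (inv_ne_zero hφ), R.ord_inv]
    simp only [hEf, hD, Finsupp.sub_apply, Finsupp.add_apply, divisorOf_apply] at h1 ⊢
    omega
  have hU₂0 : UG.compLinearMap ι ≠ 0 := fun h => hUG0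
    (AlternatingMap.compLinearMap_injective ι (fun x => ⟨_, hι x⟩) (by simpa using h))
  obtain ⟨c, hc, h⟩ := exists_block_eq hle hU inferInstance hq2 inferInstance hq1 inferInstance
    hq12 hU0 hUφ hUφ0 (hUG.compLinearMap ι hkey) hU₂0
  refine ⟨c, hc, fun x y => ?_⟩
  have h' := h (fun i => ⟨_, mulD_mem_sub_divisorOf hD φ (x i)⟩) y
  rw [h', AlternatingMap.compLinearMap_apply]
  simp only [hι]

end FLTAgent.MW
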