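import Fermat.Agent.MW.Growth
import Fermat.Agent.MW.Height
import Mathlib.NumberTheory.Height.NumberField

/-!
# Finitely many fixed classes of bounded height
-/

noncomputable section

set_option maxSynthPendingDepth 3

open AlgebraicCurve Module Height
open FLTAgent.FunctionField

namespace FLTAgent.MW

/-- Finitely many rational lines of bounded height. -/
theorem exists_finite_lines (ι : Type*) [Finite ι] (B : ℝ) :
    ∃ T : Set (ι → ℚ), T.Finite ∧ ∀ x : ι → ℚ, x ≠ 0 → logHeight x ≤ B →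
      ∃ c : ℚ, c ≠ 0 ∧ c • x ∈ T := by
  refine ⟨Set.pi Set.univ fun _ => {q : ℚ | logHeight₁ q ≤ B},
    Set.Finite.pi fun _ => NumberField.finite_setOfPred_logHeight₁_le ℚ B, fun x hx hB => ?_⟩
  obtain ⟨i, hi⟩ := Function.ne_iff.mp hx
  simp only [Pi.zero_apply] at hi
  refine ⟨(x i)⁻¹, inv_ne_zero hi, fun j _ => ?_⟩
  rw [Set.mem_ofPred_eq, logHeight₁_eq_logHeight]
  have h1 : ![((x i)⁻¹ • x) j, 1] = ((x i)⁻¹ • x) ∘ ![j, i] := by
    funext q
    fin_cases q <;> simp [inv_mul_cancel₀ hi]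
  rw [h1]
  refine (logHeight_comp_le _ _).trans ?_
  rwa [Height.logHeight_smul_eq_logHeight _ (inv_ne_zero hi)]

theorem finite_of_forall_card_le {α : Type*} {X : Set α} (k : ℕ)
    (h : ∀ s : Finset α, ↑s ⊆ X → s.card ≤ k) : X.Finite := by
  by_contra hX
  obtain ⟨s, hs, hcard⟩ := Set.Infinite.exists_subset_card_eq hX (k + 1)
  have := h s hs
  omega

section Divisors

variable {K F : Type*} [Field K] [Field F] [Algebra K F] [IsFunctionField K F] [IsAlgClosed K]

/-- An effective divisor of degree `n` dominates at most `2 ^ n` effective divisors. -/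
theorem exists_finset_dominated : ∀ (n : ℕ) {D : Divisor K F}, 0 ≤ D → Divisor.degree D = n →
    ∃ s : Finset (Divisor K F), s.card ≤ 2 ^ n ∧ ∀ A, 0 ≤ A → A ≤ D → A ∈ s := by
  classical
  intro n
  induction n with
  | zero =>
    intro D hD hd
    refine ⟨{0}, by simp, fun A hA hAD => Finset.mem_singleton.2 (Finsupp.ext fun R => ?_)⟩
    have h2 : D R = 0 := by
      by_contra hne
      have h3 : (0 : Divisor K F) ≤ D - Finsupp.single R 1 := fun Q => by
        rcases eq_or_ne Q R with rfl | hQ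
        · have := hD Q
          simp only [Finsupp.coe_zero, Pi.zero_apply, Finsupp.sub_apply, Finsupp.single_eq_same] at *
          omega
        · simpa [Finsupp.single_eq_of_ne hQ] using hD Q
      have h4 := degree_nonneg h3
      rw [map_sub, hd, degree_single'] at h4
      simp at h4
    have := hA R
    have := hAD R
    simp only [Finsupp.coe_zero, Pi.zero_apply] at *
    omega
  | succ n ih =>
    intro D hD hd
    obtain ⟨D', R, hD', hd', rfl⟩ := exists_eq_add_single hD hd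
    obtain ⟨s, hs, hmem⟩ := ih hD' hd'
    refine ⟨s ∪ s.image (· + Finsupp.single R 1),
      (Finset.card_union_le _ _).trans ((add_le_add le_rfl Finset.card_image_le).trans
        (by rw [pow_succ]; omega)), fun A hA hAD => ?_⟩
    rw [Finset.mem_union, Finset.mem_image]
    by_cases hR : A R ≤ D' R
    · refine Or.inl (hmem A hA fun Q => ?_)
      rcases eq_or_ne Q R with rfl | hQ
      · exact hR
      · simpa [Finsupp.single_eq_of_ne hQ] using hAD Q
    · refine Or.inr ⟨A - Finsupp.single R 1, hmem _ (fun Q => ?_) (fun Q => ?_), sub_add_cancel _ _⟩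
      · rcases eq_or_ne Q R with rfl | hQ
        · have := hD' Q
          simp only [Finsupp.coe_zero, Pi.zero_apply, Finsupp.sub_apply, Finsupp.single_eq_same] at *
          omega
        · simpa [Finsupp.single_eq_of_ne hQ] using hA Q
      · rcases eq_or_ne Q R with rfl | hQ
        · have := hAD Q
          simp only [Finsupp.add_apply, Finsupp.sub_apply, Finsupp.single_eq_same] at *
          omega
        · simpa [Finsupp.single_eq_of_ne hQ] using hAD Q

end Divisors

namespace Model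

variable {S : Shape} {K F : Type*} [Field K] [Algebra ℚ K] [Field F] [Algebra K F]
  [IsFunctionField K F] [IsAlgClosed K] (Cv : Model S K F)

/-- An array evaluated at all but the first point, as a function. -/
def slotVal {n m : ℕ} (A : (Fin (n + 1) → Fin (S.l m)) → K) (P : Fin n → Cv.AffPt) : Cv.V m :=
  ∑ I : Fin n → Fin (S.l m), (∏ k, Cv.ptEval (P k) m (Cv.b m (I k))) • Cv.slotFun A I

theorem ptEval_slotVal {n m : ℕ} (A : (Fin (n + 1) → Fin (S.l m)) → K) (P₀ : Cv.AffPt)
    (P : Fin n → Cv.AffPt) : Cv.ptEval P₀ m (Cv.slotVal A P) = Cv.tval A (Fin.cons P₀ P) := by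
  rw [tval_cons]
  simp only [slotVal, tval, map_sum, map_smul, smul_eq_mul]
  exact Finset.sum_congr rfl fun I _ => mul_comm _ _

theorem eq_of_ptEval {m : ℕ} {x y : Cv.V m} (h : ∀ P, Cv.ptEval P m x = Cv.ptEval P m y) :
    x = y := by
  by_contra hne
  have hd : ((x - y : Cv.V m) : F) ≠ 0 := fun h0 => hne (sub_eq_zero.1 (Subtype.ext h0))
  have := Cv.infinite_place
  obtain ⟨P, hP⟩ :=
    ((finite_setOf_ord_pos (K := K) ((x - y : Cv.V m) : F)).insert Cv.O).exists_notMem
  simp only [Set.mem_insert_iff, Set.mem_ofPred_eq, not_or, not_lt] at hP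
  have h1 : Cv.ptEval ⟨P, hP.1⟩ m (x - y) = 0 := by rw [map_sub, h, sub_self]
  rcases Cv.ptEval_eq_zero.1 h1 with h2 | h2
  · exact hd h2
  · exact absurd h2 (not_lt.2 hP.2)

theorem slotVal_smul {n m : ℕ} (c : K) (A : (Fin (n + 1) → Fin (S.l m)) → K)
    (P : Fin n → Cv.AffPt) : Cv.slotVal (c • A) P = c • Cv.slotVal A P := by
  simp only [slotVal, slotFun, Finset.smul_sum, smul_smul, Pi.smul_apply, smul_eq_mul]
  exact Finset.sum_congr rfl fun I _ => Finset.sum_congr rfl fun i _ => by ring_nf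

theorem slotVal_tdet_mem {n m : ℕ} {W : Submodule K (Cv.V m)} {w : Fin (n + 1) → Cv.V m}
    (hw : ∀ i, w i ∈ W) (P : Fin n → Cv.AffPt) : Cv.slotVal (Cv.tdet w) P ∈ W := by
  classical
  refine sum_mem fun I _ => Submodule.smul_mem _ _ ?_
  let d : Fin (n + 1) → K := fun i => (-1) ^ (i : ℕ) *
    (Matrix.of fun (p : Fin n) (k : Fin n) => (Cv.b m).repr (w (i.succAbove p)) (I k)).det
  have h : Cv.slotFun (Cv.tdet w) I = ∑ i, d i • w i := by
    have h1 : ∀ a, Cv.tdet w (Fin.cons a I) = ∑ i, d i * (Cv.b m).repr (w i) a := by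
      intro a
      rw [tdet, Matrix.det_succ_column_zero]
      refine Finset.sum_congr rfl fun i _ => ?_
      simp only [Matrix.of_apply, Fin.cons_zero, d]
      rw [mul_right_comm]
      congr 2
    simp only [slotFun, h1, Finset.sum_smul, mul_smul]
    rw [Finset.sum_comm]
    refine Finset.sum_congr rfl fun i _ => ?_
    rw [← Finset.smul_sum, (Cv.b m).sum_repr]
  rw [h]
  exact sum_mem fun i _ => Submodule.smul_mem _ _ (hw i)

end Model

namespace Model.GalData

local notation "ℚbar" => AlgebraicClosure ℚ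

variable {S : Shape} {F : Type*} [Field F] [Algebra ℚbar F] [IsFunctionField ℚbar F]
  {Cv : Model S ℚbar F} (act : GalData Cv)

variable {act}

omit [IsFunctionField ℚbar F] in
theorem Reps.eq_of_sub_mem {j : ℕ} {E E' : Divisor ℚbar F} {x x' : Pic0 ℚbar F}
    (h : act.Reps j E x) (h' : act.Reps j E' x')
    (hsub : E - E' ∈ Divisor.principal (K := ℚbar) (F := F)) : x = x' := by
  obtain ⟨-, D, rfl, hD⟩ := h
  obtain ⟨-, D', rfl, hD'⟩ := h'
  refine pic0_mk_eq_iff.2 ?_
  convert AddSubgroup.sub_mem _ hsub (AddSubgroup.sub_mem _ hD hD') using 1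
  abel

variable (act)

/-- Finitely many fixed classes of bounded height. -/
theorem finite_hgt_le (N : ℕ) (hN : 6 * rrBound ℚbar F + (8 * genusFF ℚbar F + 4 : ℕ) ≤ N) (B : ℝ) :
    {x : act.fixedClasses | act.hgt N x ≤ B}.Finite := by
  classical
  set g := genusFF ℚbar F with hg
  have hr : (g : ℤ) ≤ rrBound ℚbar F := le_max_right _ _
  obtain ⟨C₀, h₀⟩ := act.exists_hgt_formula N hN
  push_cast at hN
  obtain ⟨C₁, h₁⟩ := act.exists_array g N (by push_cast; omega)
  have hl := Cv.l_eq (m := N) (by omega)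
  have hn1 : ((S.l N - g : ℕ) : ℝ) = (N : ℝ) + 1 - 2 * g := by
    have h : ((S.l N - g : ℕ) : ℤ) = (N : ℤ) + 1 - 2 * g := by omega
    exact_mod_cast h
  obtain ⟨m, hm⟩ : ∃ m, S.l N - g = m + 1 := ⟨S.l N - g - 1, by omega⟩
  have key : ∀ x : act.fixedClasses, ∃ (v : Divisor ℚbar F) (y : Fin (S.l (g + g)) → ℚ)
      (w w' : Fin (m + 1) → Cv.V N) (z : Fin (m + 1) → Fin (m + 1) → Cv.V (N + N - (g + g)))
      (Φ : (Fin (m + 1) → Fin (S.l (N + N - (g + g)))) → ℚ),
      act.FixEff g v ∧ y ≠ 0 ∧ act.rep x + v = Cv.zeroDiv (g + g) y ∧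
      (∀ i, w i ∈ Cv.W N (act.rep x)) ∧ (∀ i, w' i ∈ Cv.W N v) ∧
      (∀ i j, (z i j : F) * (Cv.ratFun (g + g) y : F) = (w i : F) * w' j) ∧
      (fun I => algebraMap ℚ ℚbar (Φ I)) = Cv.pdet z ∧ Φ ≠ 0 ∧
      logHeight Φ ≤ act.hgt N x + C₀ + C₁ := by
    intro x
    obtain ⟨v, y, hv, hy, hEv, hh⟩ := h₀ x
    have h := h₁ (act.rep x) v y (act.reps_rep x).1 hv hy hEv
    rw [hn1, hm] at h
    obtain ⟨w, w', z, Φ, hw, hw', hz, hΦ, hΦ0, hle⟩ := h
    refine ⟨v, y, w, w', z, Φ, hv, hy, hEv, hw, hw', hz, hΦ, hΦ0, ?_⟩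
    rw [abs_le] at hh
    linarith [hh.1]
  choose v y w w' z Φ hv hy hEv hw hw' hz hΦ hΦ0 hle using key
  obtain ⟨T, hT, hTle⟩ :=
    exists_finite_lines (Fin (m + 1) → Fin (S.l (N + N - (g + g)))) (B + C₀ + C₁)
  refine (hT.biUnion fun t _ => ?_ : (⋃ t ∈ T, {x : act.fixedClasses |
    ∃ c : ℚ, c ≠ 0 ∧ c • Φ x = t}).Finite).subset fun x hx => ?_
  swap
  · obtain ⟨c, hc, hmem⟩ := hTle (Φ x) (hΦ0 x) (by
      have := hle x
      rw [Set.mem_ofPred_eq] at hx
      linarith)
    exact Set.mem_biUnion hmem ⟨c, hc, rfl⟩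
  -- at most `2 ^ D₀` classes for each line
  refine finite_of_forall_card_le (2 ^ (N + N - (g + g))) fun X hX => ?_
  rcases X.eq_empty_or_nonempty with rfl | ⟨x₀, hx₀⟩
  · simp
  obtain ⟨c₀, hc₀, ht⟩ := hX hx₀
  set tK : (Fin (m + 1) → Fin (S.l (N + N - (g + g)))) → ℚbar := fun I => algebraMap ℚ ℚbar (t I)
  have ht0 : tK ≠ 0 := algebraMap_comp_ne_zero (by rw [← ht]; exact smul_ne_zero hc₀ (hΦ0 x₀))
  set bad : Set (Place ℚbar F) :=
    ↑(X.biUnion fun x => (Cv.zeroDiv (g + g) (y x)).support)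
  obtain ⟨P, hP, hPt, -⟩ := Cv.exists_tval_ne_zero ht0 ht0 bad (Finset.finite_toSet _)
  rw [← Fin.cons_self_tail P] at hPt
  set P' := Fin.tail P
  set zc := Cv.slotVal tK P' with hzc
  have hzc0 : zc ≠ 0 := fun h => by
    rw [← Cv.ptEval_slotVal, ← hzc, h, map_zero] at hPt
    exact hPt rfl
  have hzcF : (zc : F) ≠ 0 := fun h => hzc0 (Subtype.ext h)
  set D := divisorOf (K := ℚbar) (zc : F) + Finsupp.single Cv.O ((N + N - (g + g) : ℕ) : ℤ)
  have hD0 : 0 ≤ D := fun R => by
    have := (mem_L_iff hzcF).1 zc.2 R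
    simpa [D] using this
  obtain ⟨s, hs, hsmem⟩ := exists_finset_dominated (N + N - (g + g)) hD0 (by
    rw [map_add, degree_divisorOf, degree_single_O, zero_add])
  -- the divisor of the section contracted from `w`
  set A : act.fixedClasses → Divisor ℚbar F := fun x =>
    divisorOf (K := ℚbar) (Cv.slotVal (Cv.tdet (w x)) P' : F)
      + (Finsupp.single Cv.O (N : ℤ) - act.rep x) with hA
  have main : ∀ x ∈ X, 0 ≤ A x ∧ A x ≤ D := by
    intro x hx
    obtain ⟨c, hc, htx⟩ := hX hx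
    set a := Cv.slotVal (Cv.tdet (w x)) P'
    set b := Cv.slotVal (Cv.tdet (w' x)) P'
    have ha : a ∈ Cv.W N (act.rep x) := Cv.slotVal_tdet_mem (hw x) P'
    have hb : b ∈ Cv.W N (v x) := Cv.slotVal_tdet_mem (hw' x) P'
    set f := Cv.ratFun (g + g) (y x) with hf
    have hf0 : (f : F) ≠ 0 := Cv.coe_ofCoord_ne_zero (algebraMap_comp_ne_zero (hy x))
    set lam : ℚbar := algebraMap ℚ ℚbar c * ∏ k, (Cv.ptEval (P' k) (g + g) f)⁻¹ with hlam
    have hev : ∀ k, Cv.ptEval (P' k) (g + g) f ≠ 0 := by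
      intro k h
      rcases Cv.ptEval_eq_zero.1 h with h | h
      · exact hf0 h
      refine hP k.succ ?_
      simp only [bad, Finset.coe_biUnion, Set.mem_iUnion, Finset.mem_coe, Finsupp.mem_support_iff]
      refine ⟨x, hx, ?_⟩
      change (Cv.zeroDiv (g + g) (y x)) (P' k).1 ≠ 0
      simp only [zeroDiv, Finsupp.add_apply, divisorOf_apply, Finsupp.single_eq_of_ne (P' k).2]
      rw [← hf]
      omega
    have hlam0 : lam ≠ 0 := mul_ne_zero ((map_ne_zero _).2 hc)
      (Finset.prod_ne_zero_iff.2 fun k _ => inv_ne_zero (hev k))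
    have hmem : (a : F) * b ∈ Cv.V (N + N - (g + g) + (g + g)) := by
      have h := Cv.coe_mul_mem a b
      rwa [show N + N - (g + g) + (g + g) = N + N by omega]
    have htK : tK = algebraMap ℚ ℚbar c • Cv.pdet (z x) := by
      rw [← hΦ x]
      funext I
      simp only [tK, Pi.smul_apply, smul_eq_mul, ← map_mul]
      rw [← htx]
      rfl
    have hid : (⟨(zc : F) * f, Cv.coe_mul_mem _ _⟩ : Cv.V (N + N - (g + g) + (g + g))) =
        lam • ⟨(a : F) * b, hmem⟩ := by
      refine Cv.eq_of_ptEval fun Q => ?_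
      rw [map_smul, smul_eq_mul, Cv.ptEval_mul Q zc f ⟨(zc : F) * f, Cv.coe_mul_mem _ _⟩ rfl,
        Cv.ptEval_mul Q a b ⟨(a : F) * b, hmem⟩ rfl, hzc, htK, Cv.slotVal_smul, map_smul,
        smul_eq_mul, Cv.ptEval_slotVal, Cv.ptEval_slotVal, Cv.ptEval_slotVal,
        ← Cv.tval_pdet_mul (y := fun r => algebraMap ℚ ℚbar (y x r)) rfl (hz x)]
      have hpow : Cv.tval (fun I : Fin (m + 1) → Fin (S.l (g + g)) =>
          ∏ k, algebraMap ℚ ℚbar (y x (I k))) (Fin.cons Q P') =
          Cv.ptEval Q (g + g) f * ∏ k, Cv.ptEval (P' k) (g + g) f := by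
        have h1 := Cv.sum_prod_repr
          (fun k => Cv.ptEval ((Fin.cons Q P' : Fin (m + 1) → Cv.AffPt) k) (g + g)) fun _ => f
        simp only [hf, ratFun, repr_ofCoord] at h1 ⊢
        rw [tval, h1, Fin.prod_univ_succ]
        simp
      have hone : (∏ k, (Cv.ptEval (P' k) (g + g) f)⁻¹) * ∏ k, Cv.ptEval (P' k) (g + g) f = 1 := by
        rw [← Finset.prod_mul_distrib]
        exact Finset.prod_eq_one fun k _ => inv_mul_cancel₀ (hev k)
      rw [hpow, hlam]
      linear_combination (-(algebraMap ℚ ℚbar c * Cv.tval (Cv.pdet (z x)) (Fin.cons Q P') *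
        Cv.ptEval Q (g + g) f)) * hone
    have hidF : (zc : F) * f = lam • ((a : F) * b) := congrArg Subtype.val hid
    have hab : (a : F) * b ≠ 0 := fun h => mul_ne_zero hzcF hf0 (by rw [hidF, h, smul_zero])
    have ha0 := left_ne_zero_of_mul hab
    have hb0 := right_ne_zero_of_mul hab
    have hdiv := congrArg (divisorOf (K := ℚbar)) hidF
    rw [divisorOf_smul hlam0, divisorOf_mul hzcF hf0, divisorOf_mul ha0 hb0] at hdiv
    refine ⟨fun R => ?_, fun R => ?_⟩
    · have := (mem_L_iff ha0).1 ha R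
      simp only [A, Finsupp.coe_zero, Pi.zero_apply, Finsupp.add_apply, divisorOf_apply]
      exact this
    · have h1 := (mem_L_iff hb0).1 hb R
      have h2 := DFunLike.congr_fun hdiv R
      have h3 := DFunLike.congr_fun (hEv x) R
      have h4 : Finsupp.single Cv.O ((N + N - (g + g) : ℕ) : ℤ) +
          Finsupp.single Cv.O ((g + g : ℕ) : ℤ) =
          Finsupp.single Cv.O (N : ℤ) + Finsupp.single Cv.O (N : ℤ) := by
        rw [← Finsupp.single_add, ← Finsupp.single_add]
        congr 1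
        omega
      have h5 := DFunLike.congr_fun h4 R
      simp only [A, D, a, zeroDiv, ← hf, Finsupp.add_apply, Finsupp.sub_apply, divisorOf_apply]
        at h1 h2 h3 h5 ⊢
      omega
  refine (Finset.card_le_card_of_injOn A (fun x hx => hsmem _ (main x hx).1 (main x hx).2) ?_).trans hs
  intro x hx x' hx' hAA
  refine Subtype.ext ((act.reps_rep x).eq_of_sub_mem (act.reps_rep x') ?_)
  have h : act.rep x - act.rep x' =
      divisorOf (K := ℚbar) (Cv.slotVal (Cv.tdet (w x)) P' : F)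
        - divisorOf (K := ℚbar) (Cv.slotVal (Cv.tdet (w x')) P' : F) := by
    rw [← sub_eq_zero] at hAA ⊢
    rw [← neg_eq_zero, ← hAA]
    simp only [A]
    abel
  have hprin : ∀ f : F, divisorOf (K := ℚbar) f ∈ Divisor.principal (K := ℚbar) (F := F) := fun f => by
    rcases eq_or_ne f 0 with rfl | hf
    · convert AddSubgroup.zero_mem (Divisor.principal (K := ℚbar) (F := F))
      ext R
      simp
    · exact ⟨f, hf, fun R => rfl⟩
  rw [h]
  exact AddSubgroup.sub_mem _ (hprin _) (hprin _)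

end Model.GalData

end FLTAgent.MW
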