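import Fermat.Agent.MW.Cone
import Fermat.Agent.MW.Mult
import Fermat.Agent.MW.BiHeight
import Mathlib.LinearAlgebra.Dual.Lemmas

/-!
# Rational representatives and the height of an effective divisor
-/

noncomputable section

set_option maxSynthPendingDepth 3

open AlgebraicCurve Module
open FLTAgent.FunctionField

namespace FLTAgent.MW

section Field

variable {K : Type*} [Field K] [Algebra ℚ K]

/-- A `ℚ`-linear retraction `K → ℚ`. -/
theorem exists_retraction : ∃ φ : K →ₗ[ℚ] ℚ, φ 1 = 1 := by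
  obtain ⟨φ, hφ⟩ := LinearMap.exists_leftInverse_of_injective (Algebra.linearMap ℚ K)
    (LinearMap.ker_eq_bot.2 (algebraMap ℚ K).injective)
  exact ⟨φ, by simpa using LinearMap.congr_fun hφ 1⟩

/-- A scalar relating two nonzero rational vectors is rational. -/
theorem exists_rat_of_smul_eq {ι : Type*} {x y : ι → ℚ} (hy : y ≠ 0) {c : K}
    (h : ∀ i, algebraMap ℚ K (x i) = c * algebraMap ℚ K (y i)) :
    ∃ r : ℚ, c = algebraMap ℚ K r ∧ x = r • y := by
  obtain ⟨i, hi⟩ := Function.ne_iff.mp hy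
  simp only [Pi.zero_apply] at hi
  have hi' : algebraMap ℚ K (y i) ≠ 0 := (map_ne_zero _).2 hi
  have hc : c = algebraMap ℚ K (x i / y i) := by
    rw [map_div₀, eq_div_iff hi', ← h]
  refine ⟨x i / y i, hc, funext fun j => (algebraMap ℚ K).injective ?_⟩
  rw [Pi.smul_apply, smul_eq_mul, map_mul, h, hc]

/-- An injective linear map with rational matrix has rational preimages of rational vectors. -/
theorem exists_rat_preimage {ι κ : Type*} [Fintype ι] (A : κ → ι → ℚ)
    (hA : ∀ x : ι → K, (∀ k, ∑ i, algebraMap ℚ K (A k i) * x i = 0) → x = 0)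
    {x : ι → K} {y : κ → ℚ} (hx : ∀ k, ∑ i, algebraMap ℚ K (A k i) * x i = algebraMap ℚ K (y k)) :
    ∃ x' : ι → ℚ, x = fun i => algebraMap ℚ K (x' i) := by
  obtain ⟨φ, hφ⟩ := exists_retraction (K := K)
  refine ⟨fun i => φ (x i), ?_⟩
  have h := hA (fun i => x i - algebraMap ℚ K (φ (x i))) fun k => by
    have h1 : φ (∑ i, algebraMap ℚ K (A k i) * x i) = ∑ i, A k i * φ (x i) := by
      simp only [map_sum, ← Algebra.smul_def, map_smul, smul_eq_mul]
    rw [hx, Algebra.algebraMap_eq_smul_one, map_smul, hφ, smul_eq_mul, mul_one] at h1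
    simp only [mul_sub, Finset.sum_sub_distrib, hx, ← map_mul, ← map_sum, ← h1, sub_self]
  exact funext fun i => sub_eq_zero.1 (congrFun h i)

end Field

namespace Model

open MvPolynomial

variable {S : Shape} {K F : Type*} [Field K] [Algebra ℚ K] [Field F] [Algebra K F]
  (Cv : Model S K F)

/-- `u` is a rational dual Plücker vector of `L(MO - G)`, with `G` effective of degree `e`. -/
structure IsRep (M : ℕ) (G : Divisor K F) {e : ℕ} (u : (Fin e → Fin (S.l M)) → ℚ) : Prop where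
  nonneg : 0 ≤ G
  deg : Divisor.degree G = e
  exists_form : ∃ U : (Cv.V M) [⋀^Fin e]→ₗ[K] K, U ≠ 0 ∧ Kills U (Cv.W M G) ∧
    ∀ κ, U (fun i => Cv.b M (κ i)) = algebraMap ℚ K (u κ)

variable {Cv}

theorem IsRep.ne_zero {M : ℕ} {G : Divisor K F} {e : ℕ} {u : (Fin e → Fin (S.l M)) → ℚ}
    (h : Cv.IsRep M G u) : u ≠ 0 := by
  rintro rfl
  obtain ⟨U, hU0, -, hU⟩ := h.exists_form
  exact hU0 (Basis.ext_alternating (Cv.b M) fun v _ => by simpa using hU v)

theorem IsRep.smul {M : ℕ} {G : Divisor K F} {e : ℕ} {u : (Fin e → Fin (S.l M)) → ℚ}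
    (h : Cv.IsRep M G u) {r : ℚ} (hr : r ≠ 0) : Cv.IsRep M G (r • u) := by
  obtain ⟨U, hU0, hUk, hU⟩ := h.exists_form
  refine ⟨h.nonneg, h.deg, algebraMap ℚ K r • U, ?_, hUk.smul _, fun κ => ?_⟩
  · exact smul_ne_zero ((map_ne_zero _).2 hr) hU0
  · rw [AlternatingMap.smul_apply, hU, Pi.smul_apply, smul_eq_mul, smul_eq_mul, map_mul]

variable [IsFunctionField K F] [IsAlgClosed K]

theorem IsRep.exists_eq_smul {M : ℕ} {G : Divisor K F} {e : ℕ}
    {u u' : (Fin e → Fin (S.l M)) → ℚ} (hM : rrBound K F + e ≤ M) (h : Cv.IsRep M G u)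
    (h' : Cv.IsRep M G u') : ∃ r : ℚ, r ≠ 0 ∧ u' = r • u := by
  obtain ⟨U, hU0, hUk, hU⟩ := h.exists_form
  obtain ⟨U', hU'0, hU'k, hU'⟩ := h'.exists_form
  obtain ⟨c, rfl⟩ := hUk.exists_eq_smul hU'k inferInstance
    (finrank_quot_sub' h.nonneg h.deg (by rw [degree_single_O]; omega)) hU0
  obtain ⟨r, -, hr⟩ := exists_rat_of_smul_eq (K := K) h.ne_zero (x := u') (c := c) fun κ => by
    rw [← hU', AlternatingMap.smul_apply, hU, smul_eq_mul]
  refine ⟨r, fun hr0 => h'.ne_zero (by rw [hr, hr0, zero_smul]), hr⟩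

theorem IsRep.eval_coneEq {M : ℕ} {G : Divisor K F} {e : ℕ}
    {u : (Fin e → Fin (S.l M)) → ℚ} (hM : rrBound K F + e ≤ M) (h : Cv.IsRep M G u) (b : ℕ)
    (k : S.ConeIdx e M b) : eval u (S.coneEq e M b k) = 0 := by
  obtain ⟨U, -, hUk, hU⟩ := h.exists_form
  apply (algebraMap ℚ K).injective
  rw [map_zero, ← aeval_algebraMap_eval]
  have hu : (fun κ => U fun i => Cv.b M (κ i)) = fun κ => algebraMap ℚ K (u κ) := funext hU
  exact (S.coneEq_iff _).2 (hu ▸ Cv.inCone_of_kills b h.nonneg h.deg hM hUk) k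

open Classical in
/-- The height of a divisor: that of a rational dual Plücker vector of `L(MO - G)`, if any. -/
def plh (Cv : Model S K F) (M : ℕ) (G : Divisor K F) : ℝ :=
  if h : ∃ (e : ℕ) (u : (Fin e → Fin (S.l M)) → ℚ), Cv.IsRep M G u then
    Height.logHeight h.choose_spec.choose else 0

theorem IsRep.plh_eq {M : ℕ} {G : Divisor K F} {e : ℕ} {u : (Fin e → Fin (S.l M)) → ℚ}
    (hM : rrBound K F + e ≤ M) (h : Cv.IsRep M G u) : Cv.plh M G = Height.logHeight u := by
  classical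
  have hex : ∃ (e : ℕ) (u : (Fin e → Fin (S.l M)) → ℚ), Cv.IsRep M G u := ⟨e, u, h⟩
  have key : ∀ (e' : ℕ) (u' : (Fin e' → Fin (S.l M)) → ℚ), Cv.IsRep M G u' →
      Height.logHeight u' = Height.logHeight u := by
    intro e' u' h'
    obtain rfl : e' = e := by
      have := h'.deg.symm.trans h.deg
      exact_mod_cast this
    obtain ⟨r, hr, rfl⟩ := h.exists_eq_smul hM h'
    exact Height.logHeight_smul_eq_logHeight u hr
  rw [plh, dif_pos hex]
  exact key _ _ hex.choose_spec.choose_spec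

end Model

end FLTAgent.MW
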